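import Fermat.Agent.S37.BaseChange
import Fermat.Agent.S18.Degree
import Fermat.Agent.S18.Level.AlphaDeg
import Fermat.Agent.Lib.Gamma0Cosets

/-!
# S37 / P5 : `T_ℓ` commutes with the pull-back along `q ↦ q^s` on divisors

`TDiv (N * s) ℓ (b^* D) = b^* (TDiv N ℓ D)` for `b = heckeBetaBar Kb N s`, `ℓ` coprime to `N * s`.
-/

set_option autoImplicit false
noncomputable section

namespace Fermat.Agent.S37

open ModularCurve AlgebraicCurve IntermediateField Fermat.Agent.S24 Fermat.Agent.GAL.FF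
  Fermat.Agent.S18

theorem adjoin_eq_top_of_tower_left {k E F : Type*} [Field k] [Field E] [Field F] [Algebra k E]
    [Algebra E F] [Algebra k F] [IsScalarTower k E F] (J y : F) (htop : (k⟮J⟯)⟮y⟯ = ⊤)
    (hJ : J ∈ (algebraMap E F).range) : E⟮y⟯ = ⊤ := by
  have hK₁ : k⟮J⟯ ≤ (E⟮y⟯).restrictScalars k := by
    rw [adjoin_simple_le_iff]
    obtain ⟨e, rfl⟩ := hJ
    exact (E⟮y⟯).algebraMap_mem e
  let T₁ : IntermediateField k⟮J⟯ F :=
    (E⟮y⟯).toSubfield.toIntermediateField (fun b => hK₁ b.2)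
  have hyT : y ∈ T₁ := mem_adjoin_simple_self E y
  have h1 : (k⟮J⟯)⟮y⟯ ≤ T₁ := by
    rw [adjoin_simple_le_iff]
    exact hyT
  rw [htop] at h1
  rw [eq_top_iff]
  intro x _
  exact h1 (IntermediateField.mem_top (x := x))

/-- change of level along an equality. -/
def levelCast {A B : ℕ} (h : A = B) : FN A →ₐ[Kb] FN B :=
  IntermediateField.inclusion (le_of_eq (by rw [h]))

theorem coe_levelCast {A B : ℕ} (h : A = B) (x : FN A) :
    (levelCast h x : LaurentSeries Kb) = (x : LaurentSeries Kb) :=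
  IntermediateField.coe_inclusion _ x

theorem JdL_congr {d e : ℕ} [NeZero d] [NeZero e] (h : d = e) : JdL d = JdL e := by
  subst h
  rfl

variable (N s ℓ : ℕ) [NeZero N] [NeZero s] [NeZero ℓ]

/-- `q ↦ q^s` from level `N ℓ` to level `N s ℓ`. -/
def betaUp : FN (N * ℓ) →ₐ[Kb] FN (N * s * ℓ) :=
  (levelCast (Nat.mul_right_comm N ℓ s)).comp (heckeBetaBar Kb (N * ℓ) s)

theorem coe_betaUp (x : FN (N * ℓ)) :
    (betaUp N s ℓ x : LaurentSeries Kb) = qExpand Kb s (x : LaurentSeries Kb) :=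
  (coe_levelCast (Nat.mul_right_comm N ℓ s) _).trans (coe_heckeBetaBar (N * ℓ) s x)

theorem alpha_comp_beta :
    (heckeAlphaBar Kb (N * s) ℓ).comp (heckeBetaBar Kb N s) =
      (betaUp N s ℓ).comp (heckeAlphaBar Kb N ℓ) := by
  refine AlgHom.ext fun x => Subtype.ext ?_
  rw [AlgHom.comp_apply, AlgHom.comp_apply, coe_heckeAlphaBar, coe_heckeBetaBar, coe_betaUp,
    coe_heckeAlphaBar]

theorem beta_comp_beta :
    (heckeBetaBar Kb (N * s) ℓ).comp (heckeBetaBar Kb N s) =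
      (betaUp N s ℓ).comp (heckeBetaBar Kb N ℓ) := by
  refine AlgHom.ext fun x => Subtype.ext ?_
  rw [AlgHom.comp_apply, AlgHom.comp_apply, coe_heckeBetaBar, coe_heckeBetaBar, coe_betaUp,
    coe_heckeBetaBar]
  have : NeZero (ℓ * s) := ⟨Nat.mul_ne_zero (NeZero.ne ℓ) (NeZero.ne s)⟩
  have : NeZero (s * ℓ) := ⟨Nat.mul_ne_zero (NeZero.ne s) (NeZero.ne ℓ)⟩
  rw [qExpand_qExpand, qExpand_qExpand, qExpand_congr (mul_comm ℓ s)]

theorem betaUp_Jd :
    betaUp N s ℓ (Jd (N * ℓ) (N * ℓ) dvd_rfl) = Jd (N * s * ℓ) (N * s * ℓ) dvd_rfl := by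
  apply Subtype.ext
  rw [coe_betaUp]
  have : NeZero (N * ℓ * s) := ⟨Nat.mul_ne_zero (NeZero.ne _) (NeZero.ne s)⟩
  exact (qExpand_JdL s (N * ℓ)).trans (JdL_congr (by ring))

theorem alpha_generation :
    letI := algebraAlong (heckeAlphaBar Kb (N * s) ℓ)
    (FN (N * s))⟮betaUp N s ℓ (Jd (N * ℓ) (N * ℓ) dvd_rfl)⟯ = ⊤ := by
  let _ := algebraAlong (heckeAlphaBar Kb (N * s) ℓ)
  have := isScalarTower_along (heckeAlphaBar Kb (N * s) ℓ)
  rw [betaUp_Jd]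
  exact adjoin_eq_top_of_tower_left (k := Kb) (E := FN (N * s)) (JJ (N * s * ℓ)) _
    (adjoin_JJ_Jd_eq_top (N * s * ℓ)) ⟨JJ (N * s), alphaDeg_JJ (N * s) ℓ⟩

theorem finrankAlong_alpha_of_coprime (M : ℕ) [NeZero M] (h : M.Coprime ℓ) :
    finrankAlong Kb (heckeAlphaBar Kb M ℓ) = Nat.card (Cos ℓ) := by
  have h1 := finrankAlong_alpha M ℓ
  have h2 : Nat.card (Cos (M * ℓ)) = Nat.card (Cos M) * Nat.card (Cos ℓ) :=
    Lib.Gamma0Cosets.card_mul (NeZero.ne M) (NeZero.ne ℓ) h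
  rw [h2, mul_comm] at h1
  exact Nat.eq_of_mul_eq_mul_left Nat.card_pos h1

theorem normAlong_betaUp
    (hdeg : finrankAlong Kb (heckeAlphaBar Kb N ℓ) = finrankAlong Kb (heckeAlphaBar Kb (N * s) ℓ))
    (h : FN (N * ℓ)) :
    normAlong (heckeAlphaBar Kb (N * s) ℓ) (betaUp N s ℓ h) =
      heckeBetaBar Kb N s (normAlong (heckeAlphaBar Kb N ℓ) h) :=
  normAlong_square (K := Kb) (F := FN N) (F₁ := FN (N * ℓ)) (F₂ := FN (N * s))
    (Z := FN (N * s * ℓ)) _ _ _ _ (alpha_comp_beta N s ℓ) (alphaFinite N ℓ)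
    (alphaIntegral (N * s) ℓ) (Jd (N * ℓ) (N * ℓ) dvd_rfl) (alpha_generation N s ℓ) hdeg h

/-- **S37-P5** (general form): `T_ℓ b^* = b^* T_ℓ` on divisors, `b = (q ↦ q^s)`. -/
theorem TDiv_pullbackAlong_beta_of_finrank
    (hdeg : finrankAlong Kb (heckeAlphaBar Kb N ℓ) = finrankAlong Kb (heckeAlphaBar Kb (N * s) ℓ))
    (D : Divisor Kb (FN N)) :
    TDiv (N * s) ℓ (Divisor.pullbackAlong (heckeBetaBar Kb N s) (betaIntegral N s) D) =
      Divisor.pullbackAlong (heckeBetaBar Kb N s) (betaIntegral N s) (TDiv N ℓ D) :=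
  correspondence_pullbackAlong (K := Kb) (F := FN N) (F₁ := FN (N * ℓ)) (F₂ := FN (N * s))
    (Z := FN (N * s * ℓ)) (heckeAlphaBar Kb N ℓ) (heckeBetaBar Kb N ℓ) (heckeBetaBar Kb N s)
    (heckeAlphaBar Kb (N * s) ℓ) (heckeBetaBar Kb (N * s) ℓ) (betaUp N s ℓ)
    (alpha_comp_beta N s ℓ) (beta_comp_beta N s ℓ) (normAlong_betaUp N s ℓ hdeg)
    (alphaIntegral N ℓ) (betaIntegral N ℓ) (betaIntegral N s) (alphaIntegral (N * s) ℓ)
    (betaIntegral (N * s) ℓ) D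

/-- **S37-P5**: `T_ℓ b^* = b^* T_ℓ` on divisors, `b = (q ↦ q^s)`, `ℓ` coprime to `N s`. -/
theorem TDiv_pullbackAlong_beta (hcop : (N * s).Coprime ℓ) (D : Divisor Kb (FN N)) :
    TDiv (N * s) ℓ (Divisor.pullbackAlong (heckeBetaBar Kb N s) (betaIntegral N s) D) =
      Divisor.pullbackAlong (heckeBetaBar Kb N s) (betaIntegral N s) (TDiv N ℓ D) :=
  TDiv_pullbackAlong_beta_of_finrank N s ℓ
    ((finrankAlong_alpha_of_coprime ℓ N (Nat.Coprime.coprime_mul_right hcop)).trans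
      (finrankAlong_alpha_of_coprime ℓ (N * s) hcop).symm) D

end Fermat.Agent.S37
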