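import Fermat.Agent.S37.BaseChange
import Fermat.Agent.S18.LevelChange

/-!
# S37 / P6 (descent part)

`b = (q ↦ q^s) : F_N → F_{Ns}`.  If `n D` is principal on `X₀(N)` and `b^* D` is principal on
`X₀(N s)`, then `D` is principal (for `s` with `[SL₂(ℤ) : Γ₀(s)] < 2 s`, e.g. `s = 4, 9`).
-/

set_option autoImplicit false
noncomputable section

namespace Fermat.Agent.S37

open ModularCurve AlgebraicCurve Fermat.Agent.S24 Fermat.Agent.GAL.FF Fermat.Agent.S18

section Abstract

variable {K F F₂ : Type*} [Field K] [Field F] [Field F₂] [Algebra K F] [Algebra K F₂]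
  [IsAlgClosed K] [FF.IsFF1 K F] [FF.IsFF1 K F₂]

/-- `b^* D = div (b f)` implies `D = div f`. -/
theorem eq_ord_of_pullbackAlong_eq_ord (b : F →ₐ[K] F₂) (hb : b.toRingHom.IsIntegral)
    (D : Divisor K F) (f : F) (h : ∀ w : Place K F₂, Divisor.pullbackAlong b hb D w = w.ord (b f))
    (v : Place K F) : D v = v.ord f := by
  obtain ⟨w, rfl⟩ := exists_restrictAlong_eq b hb v
  have h1 := h w
  rw [Divisor.pullbackAlong_apply, Place.ord_restrictAlong b hb] at h1
  have h2 : (w.ramificationIndexAlong b : ℤ) ≠ 0 := by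
    exact_mod_cast (ramificationIndexAlong_pos b hb w).ne'
  exact mul_left_cancel₀ h2 h1

theorem pullbackAlong_injective (b : F →ₐ[K] F₂) (hb : b.toRingHom.IsIntegral) :
    Function.Injective (Divisor.pullbackAlong b hb) := by
  intro D D' h
  ext v
  obtain ⟨w, rfl⟩ := exists_restrictAlong_eq b hb v
  have h1 := DFunLike.congr_fun h w
  rw [Divisor.pullbackAlong_apply, Divisor.pullbackAlong_apply] at h1
  have h2 : (w.ramificationIndexAlong b : ℤ) ≠ 0 := by
    exact_mod_cast (ramificationIndexAlong_pos b hb w).ne'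
  exact mul_left_cancel₀ h2 h1

/-- `b^* D = div y`, `n D = div u` imply `y ^ n = c * b u` with `c` a nonzero constant. -/
theorem exists_pow_eq_const_mul (b : F →ₐ[K] F₂) (hb : b.toRingHom.IsIntegral)
    (D : Divisor K F) (n : ℕ) (u : F) (hu0 : u ≠ 0) (hu : ∀ v : Place K F, (n : ℤ) * D v = v.ord u)
    (y : F₂) (hy0 : y ≠ 0) (hy : ∀ w : Place K F₂, Divisor.pullbackAlong b hb D w = w.ord y) :
    ∃ c : K, c ≠ 0 ∧ y ^ n = algebraMap K F₂ c * b u := by
  have hbu : b u ≠ 0 := by simpa using hu0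
  have hord : ∀ w : Place K F₂, w.ord (y ^ n / b u) = 0 := by
    intro w
    rw [div_eq_mul_inv, w.ord_mul (pow_ne_zero n hy0) (inv_ne_zero hbu), w.ord_inv, FF.ord_pow,
      ← hy w, Divisor.pullbackAlong_apply, Place.ord_restrictAlong b hb, ← hu]
    ring
  obtain ⟨c, hc⟩ := mem_range_of_forall_ord_nonneg (f := y ^ n / b u) fun w => (hord w).ge
  refine ⟨c, ?_, ?_⟩
  · rintro rfl
    rw [map_zero] at hc
    exact div_ne_zero (pow_ne_zero n hy0) hbu hc.symm
  · rw [hc, div_mul_cancel₀ _ hbu]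

end Abstract

/-- **S37-P6, descent**: `n D` principal at level `N` and `b^* D` principal at level `N s`
imply `D` principal. -/
theorem isPrincipal_of_pullbackAlong_beta (N s : ℕ) [NeZero N] [NeZero s]
    (hs : Nat.card (Cos s) < 2 * s) (D : Divisor Kb (FN N)) (n : ℕ) (hn : n ≠ 0)
    (hnD : (n • D).IsPrincipal)
    (hbD : (Divisor.pullbackAlong (heckeBetaBar Kb N s) (betaIntegral N s) D).IsPrincipal) :
    D.IsPrincipal := by
  obtain ⟨u, hu0, hu⟩ := hnD
  obtain ⟨y, hy0, hy⟩ := hbD
  have hu' : ∀ v : Place Kb (FN N), (n : ℤ) * D v = v.ord u := by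
    intro v
    rw [← hu v, Finsupp.smul_apply, nsmul_eq_mul]
  obtain ⟨c, hc0, hc⟩ := exists_pow_eq_const_mul (K := Kb) (F := FN N) (F₂ := FN (N * s))
    (heckeBetaBar Kb N s) (betaIntegral N s) D n u hu0 hu' y hy0 hy
  -- pass to Laurent series
  have hyL0 : (y : LaurentSeries Kb) ≠ 0 := by simpa using hy0
  have huL0 : (u : LaurentSeries Kb) ≠ 0 := by simpa using hu0
  have hcL0 : algebraMap Kb (LaurentSeries Kb) c ≠ 0 := by simpa using hc0
  have hcL : (y : LaurentSeries Kb) ^ n =
      qExpand Kb s (algebraMap Kb (LaurentSeries Kb) c * (u : LaurentSeries Kb)) := by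
    have h1 := congrArg (fun z : FN (N * s) => (z : LaurentSeries Kb)) hc
    have h2 : qExpand Kb s (algebraMap Kb (LaurentSeries Kb) c)
        = algebraMap Kb (LaurentSeries Kb) c := by
      rw [algebraMap_laurentSeries_eq_single, qExpand_single, mul_zero]
    rw [map_mul, h2]
    exact h1
  obtain ⟨vinf, hvinf⟩ := exists_placeInfty N
  have hord : (s : ℤ) ∣ (y : LaurentSeries Kb).order := by
    refine ⟨D vinf, ?_⟩
    have h1 := congrArg HahnSeries.order hcL
    rw [order_qExpand s (mul_ne_zero hcL0 huL0), HahnSeries.order_mul hcL0 huL0,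
      HahnSeries.order_pow] at h1
    have h2 : (algebraMap Kb (LaurentSeries Kb) c).order = 0 := by
      rw [algebraMap_laurentSeries_eq_single]
      exact HahnSeries.order_single hc0
    have h3 : (u : LaurentSeries Kb).order = n * D vinf := by
      rw [hu' vinf]
      exact (hvinf u hu0).symm
    rw [h2, h3, zero_add, nsmul_eq_mul] at h1
    have hn' : (n : ℤ) ≠ 0 := by exact_mod_cast hn
    apply mul_left_cancel₀ hn'
    rw [h1]
    ring
  have hrange := mem_range_qExpand_of_pow s n hn (y : LaurentSeries Kb) hyL0 ⟨_, hcL.symm⟩ hord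
  obtain ⟨w, rfl⟩ := exists_beta_eq N s hs y hrange
  have hw0 : w ≠ 0 := by
    rintro rfl
    exact hy0 (map_zero _)
  exact ⟨w, hw0, eq_ord_of_pullbackAlong_eq_ord (K := Kb) (F := FN N) (F₂ := FN (N * s))
    (heckeBetaBar Kb N s) (betaIntegral N s) D w hy⟩

end Fermat.Agent.S37
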