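import Fermat.Agent.S37.Pull
import Fermat.Agent.S37.BaseChangeMod
import Fermat.Agent.S37.Descent

/-!
# S37 / Transfer : from level `N * p` down to level `N` along `β : q ↦ q^p`
(packages S37-17, S37-18; the definitions and S37-16 are in `S37/Pull.lean`)
-/

set_option autoImplicit false

open ModularCurve AlgebraicCurve

noncomputable section

namespace Fermat.Agent.S37

open Fermat.Agent.S24 Fermat.Agent.GR Fermat.Agent.GR.HeckeField Fermat.Agent.GAL.FF
open Fermat.Agent.S24.FF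
open Fermat.Agent.S27 (val cls)

variable (N p : ℕ) [NeZero N] [NeZero p]

/-! ### package S37-17 : compatibility with `T_ℓ` -/

theorem TDiv_pullDiv (ℓ : ℕ) [NeZero ℓ] (hℓ : ℓ.Prime) (hN : ¬ ℓ ∣ N * p)
    (D : Divisor Kb (FN N)) :
    TDiv (N * p) ℓ (pullDiv (bet N p) D) = pullDiv (bet N p) (TDiv N ℓ D) :=
  TDiv_pullbackAlong_beta N p ℓ ((Nat.Prime.coprime_iff_not_dvd hℓ).mpr hN).symm D

theorem heckeOperatorAlong_cls (M ℓ : ℕ) [NeZero M] [NeZero ℓ] {D : Divisor Kb (FN M)}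
    (hD : Divisor.degree D = 0) :
    heckeOperatorAlong Kb M ℓ (cls D) = cls (TDiv M ℓ D) := by
  have hD' : Divisor.degree (TDiv M ℓ D) = 0 :=
    Divisor.mem_degZero.mp (TDiv_mem_degZero M ℓ (Divisor.mem_degZero.mpr hD))
  rw [Fermat.Agent.S27.cls_of_degree hD, Fermat.Agent.S27.cls_of_degree hD']
  exact heckeOperatorAlong_mk M ℓ ⟨D, hD⟩

theorem pullPic_hecke (ℓ : ℕ) [NeZero ℓ] (hℓ : ℓ.Prime) (hN : ¬ ℓ ∣ N * p) (x : JZero N) :
    pullPic (bet N p) (heckeOperatorAlong Kb N ℓ x) =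
      heckeOperatorAlong Kb (N * p) ℓ (pullPic (bet N p) x) := by
  obtain ⟨D, hD, rfl⟩ := Fermat.Agent.S27.cls_surjective x
  have hD' : Divisor.degree (TDiv N ℓ D) = 0 :=
    Divisor.mem_degZero.mp (TDiv_mem_degZero N ℓ (Divisor.mem_degZero.mpr hD))
  rw [heckeOperatorAlong_cls N ℓ hD, pullPic_cls _ hD', pullPic_cls _ hD,
    heckeOperatorAlong_cls (N * p) ℓ (degree_pullDiv _ hD), TDiv_pullDiv N p ℓ hℓ hN]

/-! ### package S37-18 : injectivity on torsion -/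

theorem card_Cos_prime_lt {p : ℕ} (hp : p.Prime) : Nat.card (Cos p) < 2 * p := by
  have h := Fermat.Agent.Lib.Gamma0Cosets.card_prime_pow hp 0
  rw [zero_add, pow_one, pow_zero] at h
  have h' : Nat.card (Cos p) = p + 1 := h
  have := hp.two_le
  omega

/-- `n D = div u`, `β^* D = div h` ⟹ `h^n = c u(q^p)` ⟹ `h = c' y(q^p)` (`S18` Root) ⟹ `y ∈ FN N`
(`S18` Descent) ⟹ `D = div y`. -/
theorem eq_zero_of_pullPic_eq_zero (hp : p.Prime) {n : ℕ} (hn : n ≠ 0) {x : JZero N}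
    (hnx : n • x = 0) (hx : pullPic (bet N p) x = 0) : x = 0 := by
  obtain ⟨D, hD, rfl⟩ := Fermat.Agent.S27.cls_surjective x
  have hnD : Divisor.degree (n • D) = 0 := by rw [map_nsmul, hD, smul_zero]
  rw [← Fermat.Agent.S27.cls_nsmul hD, Fermat.Agent.S27.cls_eq_zero_iff hnD] at hnx
  rw [pullPic_cls _ hD, Fermat.Agent.S27.cls_eq_zero_iff (degree_pullDiv _ hD)] at hx
  rw [Fermat.Agent.S27.cls_eq_zero_iff hD]
  exact isPrincipal_of_pullbackAlong_beta N p (card_Cos_prime_lt hp) D n hn hnx hx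

end Fermat.Agent.S37
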