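import Fermat.Agent.S37.Conc
import Fermat.Agent.S37.Transfer

/-!
# S37 / ClausesOf : the clauses (k1), (k2), (k3) from a concrete `LamSystem`

`S : LamSystem k k((q)) Div(F)` with `z ∈ S.Lam D ↔ ∃ f ∈ L(D + *∞), HasRed A f z`.
-/

set_option autoImplicit false

open ModularCurve AlgebraicCurve

noncomputable section

namespace Fermat.Agent.S37

open Fermat.Agent.S24 Fermat.Agent.GR Fermat.Agent.GR.HeckeField
open Fermat.Agent.S27 (val cls)

variable {A : ValuationSubring Kb} {M : ℕ} [NeZero M]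

set_option linter.unusedSectionVars false

/-- the residue field of a valuation subring of `ℚ̄` is algebraically closed. -/
theorem isAlgClosed_kA (A : ValuationSubring Kb) : IsAlgClosed (kA A) := by
  apply IsAlgClosed.of_exists_root
  intro p hp _
  obtain ⟨P, hP, hPdeg, hPm⟩ := Polynomial.lifts_and_degree_eq_and_monic
    ((Polynomial.mem_lifts p).mpr (Polynomial.map_surjective _ IsLocalRing.residue_surjective p)) hp
  have hdeg : (P.map A.subtype).degree ≠ 0 := by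
    rw [Polynomial.degree_map_eq_of_injective Subtype.val_injective, hPdeg]
    exact (Polynomial.degree_pos_of_irreducible ‹_›).ne'
  obtain ⟨x, hx⟩ := IsAlgClosed.exists_root (P.map A.subtype) hdeg
  have hxA : x ∈ A := by
    have hint : IsIntegral A x := ⟨P, hPm, by
      rw [Polynomial.IsRoot.def, Polynomial.eval_map] at hx
      exact hx⟩
    obtain ⟨y, hy⟩ := (IsIntegrallyClosed.isIntegral_iff (R := A) (K := Kb)).mp hint
    rw [← hy]
    exact y.2
  refine ⟨IsLocalRing.residue A ⟨x, hxA⟩, ?_⟩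
  rw [← hP, Polynomial.eval_map, Polynomial.eval₂_hom]
  have : Polynomial.eval (⟨x, hxA⟩ : A) P = 0 := by
    apply Subtype.val_injective
    rw [Polynomial.IsRoot.def, Polynomial.eval_map] at hx
    have h2 := Polynomial.hom_eval₂ P (RingHom.id A) A.subtype ⟨x, hxA⟩
    rw [RingHom.comp_id] at h2
    rw [← Polynomial.eval₂_id] 
    exact h2.trans hx
  rw [this, map_zero]

/-- `S.Lam D` is the space of reductions of `L(D + *∞)`. -/
def IsLam (S : LamSystem (kA A) (LaurentSeries (kA A)) (Divisor Kb (FN M))) : Prop :=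
  ∀ (D : Divisor Kb (FN M)) (z : LaurentSeries (kA A)), z ∈ S.Lam D ↔
    ∃ f : FN M, (f = 0 ∨ ∀ P : Place Kb (FN M), P ≠ Pinf M → -D P ≤ P.ord f) ∧
      HasRed A (f : LaurentSeries Kb) z

namespace IsLam

variable {S : LamSystem (kA A) (LaurentSeries (kA A)) (Divisor Kb (FN M))}

theorem near_of_mem_KK (hS : IsLam S) {D : Divisor Kb (FN M)} (hD : D ∈ S.KK) : Near A M D := by
  obtain ⟨h1, h2⟩ := hD
  obtain ⟨φ, hφ, hφr⟩ := (hS D 1).mp h1
  obtain ⟨ψ, hψ, hψr⟩ := (hS (-D) 1).mp h2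
  refine ⟨φ, ψ, hφr, hψr, hφ.resolve_left (Near_ne_zero hφr), ?_⟩
  intro P hP
  have := hψ.resolve_left (Near_ne_zero hψr) P hP
  rwa [Finsupp.neg_apply, neg_neg] at this

/-- the Galois action on divisors, as an additive map. -/
def galHom (M : ℕ) (σ : GQ) : Divisor Kb (FN M) →+ Divisor Kb (FN M) :=
  DistribSMul.toAddMonoidHom _ (gal M σ)

@[simp] theorem galHom_apply (σ : GQ) (D : Divisor Kb (FN M)) : galHom M σ D = gal M σ • D := rfl

theorem lam_le_of_inertia (hS : IsLam S) {σ : GQ} (hσ : σ ∈ A.inertiaSubgroupIn ℚ)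
    (D : Divisor Kb (FN M)) : S.Lam D ≤ S.Lam (gal M σ • D) := by
  intro z hz
  obtain ⟨f, hf, hfr⟩ := (hS D z).mp hz
  refine (hS _ z).mpr ⟨gal M σ • f, ?_, Conc.hasRed_gal_of_inertia hσ hfr⟩
  rcases hf with rfl | hf
  · exact Or.inl (smul_zero _)
  · exact Or.inr (Conc.ord_gal_smul_ge σ hf)

theorem lam_eq_of_inertia (hS : IsLam S) {σ : GQ} (hσ : σ ∈ A.inertiaSubgroupIn ℚ)
    (D : Divisor Kb (FN M)) : S.Lam (gal M σ • D) = S.Lam D := by
  apply le_antisymm _ (lam_le_of_inertia hS hσ D)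
  have h := lam_le_of_inertia hS (inv_mem hσ) (gal M σ • D)
  have e : gal M σ⁻¹ • gal M σ • D = D := by
    rw [gal, map_inv, inv_smul_smul]
  rwa [e] at h

/-- **(k1)** -/
theorem smul_sub_mem_K0 (hS : IsLam S) {σ : GQ} (hσ : σ ∈ A.inertiaSubgroupIn ℚ)
    (x : JZero M) : σ • x - x ∈ K0 A M := by
  obtain ⟨D, hD, rfl⟩ := Fermat.Agent.S27.cls_surjective x
  have hD' : Divisor.degree (gal M σ • D) = 0 := by rw [SemilinearAut.degree_smul, hD]
  rw [galois_smul_pic0_def, Pull_smul_cls _ hD, ← Fermat.Agent.S27.cls_sub hD' hD]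
  refine cls_mem_K0 (by rw [map_sub, hD', hD, sub_zero]) ?_
  exact near_of_mem_KK hS
    (S.sub_mem_KK_of_inertia (galHom M σ) (fun D => lam_eq_of_inertia hS hσ D) D)

end IsLam

/-- **(k2)** -/
theorem smul_mem_K0' {σ : GQ} (hσ : σ ∈ A.decompositionSubgroup ℚ) {x : JZero M}
    (hx : x ∈ K0 A M) : σ • x ∈ K0 A M := by
  obtain ⟨D, hD, ⟨φ, ψ, hφr, hψr, hφ, hψ⟩, rfl⟩ := mem_K0_iff.mp hx
  have hD' : Divisor.degree (gal M σ • D) = 0 := by rw [SemilinearAut.degree_smul, hD]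
  rw [galois_smul_pic0_def, Pull_smul_cls _ hD]
  refine cls_mem_K0 hD' ⟨gal M σ • φ, gal M σ • ψ, Conc.hasRed_gal_one_of_decomp hσ hφr,
    Conc.hasRed_gal_one_of_decomp hσ hψr, Conc.ord_gal_smul_ge σ hφ, ?_⟩
  intro P hP
  have h := Conc.ord_gal_smul_ge σ (D := -D) (f := ψ)
    (fun P hP => by rw [Finsupp.neg_apply, neg_neg]; exact hψ P hP) P hP
  rwa [smul_neg, Finsupp.neg_apply, neg_neg] at h

namespace IsLam

variable {S : LamSystem (kA A) (LaurentSeries (kA A)) (Divisor Kb (FN M))}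

theorem heckeNorm_zero (M ℓ : ℕ) [NeZero M] [NeZero ℓ] : heckeNorm M ℓ (0 : FN M) = 0 := by
  let _ : Algebra (FN M) (FN (M * ℓ)) := algFN M ℓ
  have : Module.Finite (FN M) (FN (M * ℓ)) := alphaFinite M ℓ
  have : Module.Free (FN M) (FN (M * ℓ)) := Module.Free.of_divisionRing _ _
  rw [heckeNorm, map_zero]
  exact Algebra.norm_zero

theorem frob_smul {k : Type*} [Field k] (ℓ : ℕ) [ExpChar k ℓ] (c : k) (z : LaurentSeries k) :
    coeffMap (frobenius k ℓ) (algebraMap k (LaurentSeries k) c * z) =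
      algebraMap k (LaurentSeries k) (c ^ ℓ) * coeffMap (frobenius k ℓ) z := by
  rw [map_mul, algebraMap_laurentSeries_eq_single,
    algebraMap_laurentSeries_eq_single, coeffMap_single, frobenius_def]

theorem lam_frob (hS : IsLam S) {ℓ : ℕ} [ExpChar (kA A) ℓ] {σ : GQ} (hσ : A.IsFrobeniusAt σ ℓ)
    (D : Divisor Kb (FN M)) (z : LaurentSeries (kA A)) (hz : z ∈ S.Lam D) :
    coeffMap (frobenius (kA A) ℓ) z ∈ S.Lam (galHom M σ D) := by
  obtain ⟨f, hf, hfr⟩ := (hS D z).mp hz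
  refine (hS _ _).mpr ⟨gal M σ • f, ?_, Conc.hasRed_gal_of_frobenius hσ hfr⟩
  rcases hf with rfl | hf
  · exact Or.inl (smul_zero _)
  · exact Or.inr (Conc.ord_gal_smul_ge σ hf)

theorem lam_hecke (hS : IsLam S) {ℓ : ℕ} [NeZero ℓ] [ExpChar (kA A) ℓ] (hℓ : ℓ.Prime)
    (hA : A.LiesOverPrime ℓ) (hM : ¬ ℓ ∣ M) {σ : GQ} (hσ : A.IsFrobeniusAt σ ℓ)
    (D : Divisor Kb (FN M)) (z : LaurentSeries (kA A)) (hz : z ∈ S.Lam D) :
    z ^ ℓ * coeffMap (frobenius (kA A) ℓ) (coeffMap (frobenius (kA A) ℓ) z)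
      ∈ S.Lam (TDiv M ℓ (galHom M σ D)) := by
  obtain ⟨f, hf, hfr⟩ := (hS D z).mp hz
  refine (hS _ _).mpr ⟨heckeNorm M ℓ (gal M σ • f), ?_,
    Conc.hasRed_heckeNorm_gal hℓ hA hM hσ hfr⟩
  by_cases hf0 : f = 0
  · left
    rw [hf0, smul_zero, heckeNorm_zero]
  · right
    have hf' := hf.resolve_left hf0
    have hg0 : gal M σ • f ≠ 0 := by
      intro h
      exact hf0 ((smul_eq_zero_iff_eq _).mp h)
    exact Conc.ord_heckeNorm_ge' hℓ hM hg0 (Conc.ord_gal_smul_ge σ hf')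

theorem es_near (hS : IsLam S) {ℓ : ℕ} [NeZero ℓ] (hℓ : ℓ.Prime)
    (hA : A.LiesOverPrime ℓ) (hM : ¬ ℓ ∣ M) {σ : GQ} (hσ : A.IsFrobeniusAt σ ℓ)
    (D : Divisor Kb (FN M)) :
    Near A M (gal M σ • gal M σ • D - TDiv M ℓ (gal M σ • D) + ℓ • D) := by
  have : Fact ℓ.Prime := ⟨hℓ⟩
  have : CharP (kA A) ℓ := charP_residueField hℓ hA
  have : ExpChar (kA A) ℓ := ExpChar.prime hℓ
  have : IsAlgClosed (kA A) := isAlgClosed_kA A
  have : CharP (LaurentSeries (kA A)) ℓ :=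
    charP_of_injective_algebraMap (algebraMap (kA A) (LaurentSeries (kA A))).injective ℓ
  exact near_of_mem_KK hS (S.es_mem_KK ℓ (galHom M σ) (TDiv M ℓ)
    (coeffMap (frobenius (kA A) ℓ))
    (fun c z => by rw [Algebra.smul_def, Algebra.smul_def]; exact frob_smul ℓ c z) (lam_frob hS hσ) (lam_hecke hS hℓ hA hM hσ) D)

/-- **(k3)** -/
theorem relation_mem_K0 (hS : IsLam S) {ℓ : ℕ} [NeZero ℓ] (hℓ : ℓ.Prime)
    (hA : A.LiesOverPrime ℓ) (hM : ¬ ℓ ∣ M) {σ : GQ} (hσ : A.IsFrobeniusAt σ ℓ) (x : JZero M) :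
    σ • σ • x - heckeOperatorAlong Kb M ℓ (σ • x) + ℓ • x ∈ K0 A M := by
  obtain ⟨D, hD, rfl⟩ := Fermat.Agent.S27.cls_surjective x
  have hD1 : Divisor.degree (gal M σ • D) = 0 := by rw [SemilinearAut.degree_smul, hD]
  have hD2 : Divisor.degree (gal M σ • gal M σ • D) = 0 := by rw [SemilinearAut.degree_smul, hD1]
  have hD3 : Divisor.degree (TDiv M ℓ (gal M σ • D)) = 0 := TDiv_mem_degZero M ℓ hD1
  have hD4 : Divisor.degree (ℓ • D) = 0 := by rw [map_nsmul, hD, smul_zero]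
  have hD5 : Divisor.degree (gal M σ • gal M σ • D - TDiv M ℓ (gal M σ • D)) = 0 := by
    rw [map_sub, hD2, hD3, sub_zero]
  have e1 : σ • cls D = cls (gal M σ • D) := Pull_smul_cls _ hD
  have e2 : σ • cls (gal M σ • D) = cls (gal M σ • gal M σ • D) := Pull_smul_cls _ hD1
  rw [e1, e2, heckeOperatorAlong_cls M ℓ hD1, ← Fermat.Agent.S27.cls_sub hD2 hD3,
    ← Fermat.Agent.S27.cls_nsmul hD, ← Fermat.Agent.S27.cls_add hD5 hD4]
  exact cls_mem_K0 (by rw [map_add, hD5, hD4, add_zero]) (es_near hS hℓ hA hM hσ D)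

end IsLam

end Fermat.Agent.S37
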