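import Fermat.Prelude.Def_ModularCurve_HeckeModule
import Fermat.Agent.GAL.FF.ExtAlong
import Fermat.Agent.S24.Mod.Degree

/-!
# S37 / P7 : the prelude Hecke module on `J₀(N)` is given by the correspondence `α_* β^*`

* `heckeInputsAlong N ℓ : HeckeInputsAlong ℚ̄ N ℓ`;
* `heckeGen_smul_mk` : `T_ℓ • [D] = [α_* β^* D]`;
* `heckeDivBar_apply` : `(α_* β^* D) v = ∑_{w | α = v} e_β(w) D(w | β)`.
-/

set_option autoImplicit false
noncomputable section

namespace Fermat.Agent.S37

open ModularCurve AlgebraicCurve Fermat.Agent.S24 Fermat.Agent.GAL.FF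

variable (N ℓ : ℕ) [NeZero N] [NeZero ℓ]

instance instNeZeroMulLevel : NeZero (N * ℓ) := ⟨Nat.mul_ne_zero (NeZero.ne N) (NeZero.ne ℓ)⟩

theorem alphaIntegral : HeckeAlphaBarIntegral Kb N ℓ :=
  isIntegral_toRingHom (K := Kb) (F := FN N) (F' := FN (N * ℓ)) (heckeAlphaBar Kb N ℓ)

theorem betaIntegral : HeckeBetaBarIntegral Kb N ℓ :=
  isIntegral_toRingHom (K := Kb) (F := FN N) (F' := FN (N * ℓ)) (heckeBetaBar Kb N ℓ)

theorem alphaFinite : FiniteAlong Kb (heckeAlphaBar Kb N ℓ) :=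
  finiteAlong (K := Kb) (F := FN N) (F' := FN (N * ℓ)) (heckeAlphaBar Kb N ℓ)

theorem betaFundamental :
    FundamentalIdentityAlong Kb (heckeBetaBar Kb N ℓ) (betaIntegral N ℓ) :=
  fundamentalIdentityAlong (K := Kb) (F := FN N) (F' := FN (N * ℓ)) _ _

theorem alphaNorm : NormFormulaAlong Kb (heckeAlphaBar Kb N ℓ) (alphaFinite N ℓ) :=
  normFormulaAlong (K := Kb) (F := FN N) (F' := FN (N * ℓ)) _ _

/-- all the inputs of the prelude's total Hecke operator hold. -/
theorem heckeInputsAlong : HeckeInputsAlong Kb N ℓ :=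
  heckeInputsAlong_intro (alphaIntegral N ℓ) (betaIntegral N ℓ) (betaFundamental N ℓ)
    (alphaFinite N ℓ) (alphaNorm N ℓ)

/-- the Hecke correspondence on divisors. -/
abbrev TDiv : Divisor Kb (FN N) →+ Divisor Kb (FN N) :=
  heckeDivBar (alphaIntegral N ℓ) (betaIntegral N ℓ)

theorem TDiv_mem_degZero {D : Divisor Kb (FN N)}
    (hD : D ∈ Divisor.degZero (K := Kb) (F := FN N)) :
    TDiv N ℓ D ∈ Divisor.degZero (K := Kb) (F := FN N) :=
  Divisor.correspondence_mem_degZero _ _ _ _ (betaFundamental N ℓ) hD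

theorem heckeOperatorAlong_mk (D : Divisor.degZero (K := Kb) (F := FN N)) :
    heckeOperatorAlong Kb N ℓ (Pic0.mk D) =
      Pic0.mk ⟨TDiv N ℓ D, TDiv_mem_degZero N ℓ D.2⟩ := by
  rw [heckeOperatorAlong_eq (alphaIntegral N ℓ) (betaIntegral N ℓ) (betaFundamental N ℓ)
    (alphaFinite N ℓ) (alphaNorm N ℓ)]
  rfl

/-- **the prelude's `T_ℓ` on `J₀(N)`**. -/
theorem heckeGen_smul_mk (hcomm : HeckeOperatorsCommuteBar N) (hℓ : ℓ.Prime)
    (D : Divisor.degZero (K := Kb) (F := FN N)) :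
    (letI := heckeModuleBar N; heckeGen ⟨ℓ, hℓ⟩ • (Pic0.mk D : JZero N)) =
      Pic0.mk ⟨TDiv N ℓ D, TDiv_mem_degZero N ℓ D.2⟩ := by
  refine (heckeModuleBar_heckeGen_smul hcomm ⟨ℓ, hℓ⟩ _).trans ?_
  refine (heckeOperatorBar_apply N ⟨ℓ, hℓ⟩ _).trans ?_
  exact heckeOperatorAlong_mk N ℓ D

/-- pushforward as a sum over the fibre (general function fields, `K` algebraically closed). -/
theorem pushforwardAlong_apply {K F F' : Type*} [Field K] [Field F] [Field F'] [Algebra K F]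
    [Algebra K F'] [IsAlgClosed K] [FF.IsFF1 K F] [FF.IsFF1 K F'] (φ : F →ₐ[K] F')
    (hφ : φ.toRingHom.IsIntegral) (E : Divisor K F') (v : Place K F) :
    Divisor.pushforwardAlong φ hφ E v = ∑ w ∈ Place.fiberAlong φ hφ v, E w := by
  classical
  induction E using Finsupp.induction_linear with
  | zero => simp
  | add E₁ E₂ h₁ h₂ =>
    rw [map_add, Finsupp.add_apply, h₁, h₂, ← Finset.sum_add_distrib]
    rfl
  | single w n =>
    rw [Divisor.pushforwardAlong_single, inertiaDegAlong_eq_one, Nat.cast_one, mul_one]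
    by_cases h : w.restrictAlong φ hφ = v
    · rw [h, Finsupp.single_eq_same, Finset.sum_eq_single w]
      · rw [Finsupp.single_eq_same]
      · intro b _ hb
        exact Finsupp.single_eq_of_ne hb
      · intro hw
        exact absurd (Place.mem_fiberAlong.mpr h) hw
    · rw [Finsupp.single_eq_of_ne (Ne.symm h), Finset.sum_eq_zero]
      intro b hb
      refine Finsupp.single_eq_of_ne ?_
      rintro rfl
      exact h (Place.mem_fiberAlong.mp hb)

/-- explicit formula for the Hecke correspondence. -/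
theorem TDiv_apply (D : Divisor Kb (FN N)) (v : Place Kb (FN N)) :
    TDiv N ℓ D v = ∑ w ∈ Place.fiberAlong (heckeAlphaBar Kb N ℓ) (alphaIntegral N ℓ) v,
      (w.ramificationIndexAlong (heckeBetaBar Kb N ℓ) : ℤ) *
        D (w.restrictAlong (heckeBetaBar Kb N ℓ) (betaIntegral N ℓ)) := by
  refine (pushforwardAlong_apply (K := Kb) (F := FN N) (F' := FN (N * ℓ)) (heckeAlphaBar Kb N ℓ)
    (alphaIntegral N ℓ) (Divisor.pullbackAlong (heckeBetaBar Kb N ℓ) (betaIntegral N ℓ) D) v).trans ?_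
  exact Finset.sum_congr rfl fun w _ => Divisor.pullbackAlong_apply _ _ D w

end Fermat.Agent.S37
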