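import Fermat.Agent.S18.Level.Infty
import Fermat.Agent.S18.Wiring
import Fermat.Agent.S27.A.Api
import Fermat.Agent.GAL.FF.ExtAlong
import Fermat.Agent.GR.HeckeField.Main
import Fermat.Agent.GR.GaussRed
import Fermat.Agent.S28.ToolkitGF
import Fermat.Agent.S37.HeckeDict

/-!
# S37 : shared definitions

Level `M`, `F = FN M ⊆ ℚ̄((q))`, `A` a valuation ring of `ℚ̄`, `k` its residue field.

* `Pinf M`    : the place `q = 0` (the cusp `∞`)
* `IsReg f`   : `f` is regular outside `∞`
* `IsInt A f` : `f` has a Gauss reduction (`GR.HasRed`)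
* `Near A M D`: there are `φ ∈ L(D + *∞)`, `ψ ∈ L(-D + *∞)` with Gauss reduction `1`
                ("`D` reduces to `0` away from `∞`")
* `K0 A M`    : the classes of the degree `0` divisors `D` with `Near A M D`
                (= the kernel of reduction `J₀(M)(ℚ̄) → J₀(M)(k)`)
* `IsFin A P` : the point `P` does not reduce to `∞`
* `SameRed A P P'` : `P`, `P'` have the same reduction
* `INV A M P` : the ideal of `P` is invertible integrally ("the reduction of `P` is a smooth point")
-/

set_option autoImplicit false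

open ModularCurve AlgebraicCurve

noncomputable section

namespace Fermat.Agent.S37

open Fermat.Agent.S24 Fermat.Agent.GR
open Fermat.Agent.S27 (val cls)

/-- the residue field of `A`. -/
abbrev kA (A : ValuationSubring Kb) : Type := IsLocalRing.ResidueField A

/-- `Gal(ℚ̄/ℚ)`. -/
abbrev GQ : Type := Kb ≃ₐ[ℚ] Kb

variable (A : ValuationSubring Kb) (M : ℕ) [NeZero M]

theorem order_JJ : ((JJ M : FN M) : LaurentSeries Kb).order = -1 := by
  have h : ((JJ M : FN M) : LaurentSeries Kb) = jqModC Kb := by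
    change coeffMap (algebraMap ℚ Kb) (qExpand ℚ 1 jq) = _
    rw [qExpand_one_apply]
    exact map_jqModC (K := ℚ) (algebraMap ℚ Kb)
  rw [h]
  exact Fermat.Agent.S28.order_jqModC Kb

theorem exists_Pinf :
    ∃ P : Place Kb (FN M), ∀ x : FN M, P.ord x = (x : LaurentSeries Kb).order :=
  Fermat.Agent.S18.exists_place_infty (modularFunctionFieldBar M) (JJ M) (order_JJ M)

/-- the cusp `∞`. -/
def Pinf : Place Kb (FN M) := (exists_Pinf M).choose

theorem Pinf_ord (x : FN M) : (Pinf M).ord x = (x : LaurentSeries Kb).order :=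
  (exists_Pinf M).choose_spec x

variable {M}

/-- regular outside `∞`. -/
def IsReg (f : FN M) : Prop := ∀ P : Place Kb (FN M), P ≠ Pinf M → 0 ≤ P.ord f

/-- Gauss norm `≤ 1`. -/
def IsInt (f : FN M) : Prop := ∃ z, HasRed A (f : LaurentSeries Kb) z

variable (M)

/-- `D` "reduces to `0`" away from `∞`. -/
def Near (D : Divisor Kb (FN M)) : Prop :=
  ∃ φ ψ : FN M, HasRed A (φ : LaurentSeries Kb) 1 ∧ HasRed A (ψ : LaurentSeries Kb) 1 ∧
    (∀ P : Place Kb (FN M), P ≠ Pinf M → -D P ≤ P.ord φ) ∧
    (∀ P : Place Kb (FN M), P ≠ Pinf M → D P ≤ P.ord ψ)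

/-- the kernel of reduction. -/
def K0 : AddSubgroup (JZero M) :=
  AddSubgroup.closure {x | ∃ D : Divisor Kb (FN M), Divisor.degree D = 0 ∧ Near A M D ∧ cls D = x}

variable {M}

/-- `P` does not reduce to the cusp `∞`. -/
def IsFin (P : Place Kb (FN M)) : Prop :=
  P ≠ Pinf M ∧ ∀ b : FN M, IsReg b → IsInt A b → val P b ∈ A

/-- `P` and `P'` have the same reduction (used for `IsFin` places). -/
def SameRed (P P' : Place Kb (FN M)) : Prop :=
  ∀ b : FN M, IsReg b → IsInt A b → val P b - val P' b ∈ A.nonunits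

/-- integral invertibility of the ideal of `P`: `a` has at most a simple pole at `P`, `m`, `n₀`
vanish at `P`, and `a m + n₀ ≡ 1`. -/
def INV (P : Place Kb (FN M)) : Prop :=
  ∃ (a m n₀ : FN M) (za zm zn : LaurentSeries (kA A)),
    HasRed A (a : LaurentSeries Kb) za ∧ HasRed A (m : LaurentSeries Kb) zm ∧
    HasRed A (n₀ : LaurentSeries Kb) zn ∧ za * zm + zn = 1 ∧
    IsReg m ∧ IsReg n₀ ∧ val P m = 0 ∧ val P n₀ = 0 ∧
    (∀ Q : Place Kb (FN M), Q ≠ Pinf M → Q ≠ P → 0 ≤ Q.ord a) ∧ -1 ≤ P.ord a

variable (M)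

/-- a function regular outside `∞` whose reduction has no pole at `q = 0` reduces to a constant. -/
def B1 : Prop :=
  ∀ (b : FN M) (z : LaurentSeries (kA A)), IsReg b → HasRed A (b : LaurentSeries Kb) z →
    0 ≤ z.order → ∃ c : kA A, z = HahnSeries.C c

/-- **The contract with KL**: good reduction of `X₀(M)` at `A`. -/
structure GoodRed : Prop where
  b1 : B1 A M
  inv : ∀ P : Place Kb (FN M), IsFin A P → INV A P

/-- the Galois action on `FN M`, its places, divisors, ... -/
abbrev gal (σ : GQ) : SemilinearAut Kb (FN M) := arithmeticGalois (modularFunctionFieldFull M) σ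

end Fermat.Agent.S37
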