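import Fermat.Agent.S37.InvPlaces
import Fermat.Agent.S37.Defs
import Fermat.Agent.GAL.KLC.MainOf
import Fermat.Agent.GAL.Genus.Main

/-!
# S37 / P3 : `GoodRed A M` from the contracts of KL (`SpansStatement`, `CTStatement`)
-/

set_option autoImplicit false

open ModularCurve AlgebraicCurve Polynomial

noncomputable section

namespace Fermat.Agent.S37

open Fermat.Agent.S24 Fermat.Agent.GR Fermat.Agent.S24.FF Fermat.Agent.GAL.FF
open Fermat.Agent.GAL.KL Fermat.Agent.GAL.KLC Fermat.Agent.GAL.KLB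
open Fermat.Agent.S27 (val cls)

variable (M : ℕ) [NeZero M]

theorem Pinf_ord_xF : (Pinf M).ord (xF M) = -(mX M : ℤ) := by
  rw [Pinf_ord]
  exact order_xR M Kb

theorem degree_poleDiv_xF (hSp : SpansStatement M) :
    Divisor.degree (poleDiv Kb (xF M)) = (mX M : ℤ) := by
  rw [degree_poleDiv (transcendental_xF M),
    finrank_adjoin_of_spans _ (mX_pos M) hSp (comb_xF_inj M)]

/-- contract RI2 of KL (Riemann's inequality for the divisors `a (x)_∞`). -/
theorem riStatement_of_spans (hSp : SpansStatement M) : RIStatement M := by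
  intro a
  rw [LL_eq_L (transcendental_xF M) a]
  have := Fermat.Agent.GAL.Genus.riemann_ineq_FN M (a • poleDiv Kb (xF M))
  rw [map_nsmul, degree_poleDiv_xF M hSp, nsmul_eq_mul] at this
  push_cast
  exact this

/-- the only pole of `x` is `∞`. -/
theorem poleDiv_xF (hSp : SpansStatement M) :
    poleDiv Kb (xF M) = Finsupp.single (Pinf M) (mX M : ℤ) := by
  have h0 : 0 ≤ poleDiv Kb (xF M) - Finsupp.single (Pinf M) (mX M : ℤ) := by
    intro Q
    rw [Finsupp.coe_zero, Pi.zero_apply, Finsupp.sub_apply, poleDiv_apply]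
    rcases eq_or_ne Q (Pinf M) with rfl | hQ
    · rw [Finsupp.single_eq_same, Pinf_ord_xF, neg_neg, max_eq_right (by omega), sub_self]
    · rw [Finsupp.single_eq_of_ne hQ, sub_zero]
      exact le_max_left _ _
  have h1 : Divisor.degree (poleDiv Kb (xF M) - Finsupp.single (Pinf M) (mX M : ℤ)) = 0 := by
    rw [map_sub, degree_poleDiv_xF M hSp, degree_single_one, sub_self]
  exact sub_eq_zero.mp (eq_zero_of_nonneg_of_degree_eq_zero h0 h1)

theorem ord_xF_nonneg_iff (hSp : SpansStatement M) (Q : Place Kb (FN M)) :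
    0 ≤ Q.ord (xF M) ↔ Q ≠ Pinf M := by
  constructor
  · rintro h rfl
    rw [Pinf_ord_xF] at h
    have := mX_pos M
    omega
  · intro hQ
    have h := DFunLike.congr_fun (poleDiv_xF M hSp) Q
    rw [poleDiv_apply, Finsupp.single_eq_of_ne hQ] at h
    have := le_max_right 0 (-Q.ord (xF M))
    omega

theorem isReg_iff_isInt (hSp : SpansStatement M) (b : FN M) : IsReg b ↔ Fermat.Agent.GAL.KL.IsInt Kb (xF M) b := by
  rw [isInt_iff_forall_ord (transcendental_xF M)]
  exact forall_congr' fun Q => by rw [ord_xF_nonneg_iff M hSp]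

variable (A : ValuationSubring Kb)

theorem vG_algebraMap_le_one_iff (c : Kb) : vG A M (algebraMap Kb (FN M) c) ≤ 1 ↔ c ∈ A := by
  rw [ValThm_le_one_iff]
  constructor
  · rintro ⟨zb, h⟩
    rw [ValThm_coe_algebraMap] at h
    exact ValThm_mem_of_hasRed_C A h
  · intro hc
    refine ⟨HahnSeries.C (IsLocalRing.residue A ⟨c, hc⟩), ?_⟩
    rw [ValThm_coe_algebraMap]
    exact hasRed_C A ⟨c, hc⟩

theorem b1_of (hSp : SpansStatement M) : B1 A M := by
  intro b z hb hz h0
  have hbv : b ∈ (vG A M).integer := (mem_integer_iff A M).mpr ⟨z, hz⟩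
  have hρb : rho A M ⟨b, hbv⟩ = z := rho_eq_of_hasRed A M hz
  have h1 : Fermat.Agent.GAL.KL.IsInt (kA A) (rho A M ⟨xF M, xF_mem_integer M A⟩) (rho A M ⟨b, hbv⟩) :=
    isInt_rho (isRed A M) ⟨xF M, xF_mem_integer M A⟩ (gauss_xF M A) _ (on_xF M A) hSp ⟨b, hbv⟩
      ((isReg_iff_isInt M hSp b).mp hb)
  have := b1_of_isRed (isRed A M) (xF_mem_integer M A) (xF'_mem_integer M A) (mX_pos M)
    (order_rho_xF M A) (order_rho_xF' M A) (gauss_xF M A) (on_xF M A) hSp ⟨b, hbv⟩ h1
    (by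
      intro i hi
      rw [hρb]
      exact HahnSeries.coeff_eq_zero_of_lt_order (lt_of_lt_of_le hi h0))
  rwa [hρb] at this

theorem inv_of {ℓ : ℕ} (hℓ : ℓ.Prime) (hA : A.LiesOverPrime ℓ) (hSp : SpansStatement M)
    (hCT : CTStatement M A) (P : Place Kb (FN M)) (hP : IsFin A P) : INV A P := by
  have : CharP (kA A) ℓ := charP_residueField hℓ hA
  obtain ⟨fZ, hfc, hf0, hfi⟩ := exists_cusp_basis M ℓ hℓ (kA A)
  obtain ⟨z, ν, hvz, hvν, hzP, hzQ, hν, hνP, h1, h1P⟩ :=
    inv_places (isRed A M) (xF_mem_integer M A) (xF'_mem_integer M A) (mX_pos M)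
    (order_rho_xF M A) (order_rho_xF' M A) hSp
    (fun D => Fermat.Agent.GAL.Genus.riemann_ineq_FN M D)
    (fun j => psR (kA A) (fZ j)) hfi (fun j => order_psR_pos _ (hf0 j) (hfi.ne_zero j))
    (fun z hz j => hCT _ (z : FN M).2 _ (hasRed_rho A M z)
      (by rw [rho_xF] at hz; exact hz) _ (hfc j))
    P ((ord_xF_nonneg_iff M hSp P).mpr hP.1)
    (fun b hb hvb => (vG_algebraMap_le_one_iff M A _).mpr
      (hP.2 b ((isReg_iff_isInt M hSp b).mpr hb) ((ValThm_le_one_iff A M).mp hvb)))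
  have hv1 : vG A M (1 - z * ν) ≤ 1 := by
    refine le_trans (Valuation.map_sub _ _ _) (max_le (by rw [map_one]) ?_)
    rw [map_mul]
    exact mul_le_one' hvz hvν
  refine ⟨z, ν, 1 - z * ν, rho A M ⟨z, hvz⟩, rho A M ⟨ν, hvν⟩, rho A M ⟨1 - z * ν, hv1⟩,
    hasRed_rho A M ⟨z, hvz⟩, hasRed_rho A M ⟨ν, hvν⟩, hasRed_rho A M ⟨1 - z * ν, hv1⟩, ?_,
    (isReg_iff_isInt M hSp ν).mpr hν, (isReg_iff_isInt M hSp _).mpr h1, hνP, h1P, ?_, hzP⟩
  · rw [← map_mul, ← map_add, ← map_one (rho A M)]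
    congr 1
    apply Subtype.ext
    show z * ν + (1 - z * ν) = 1
    ring
  · intro Q hQ hQP
    exact hzQ Q ((ord_xF_nonneg_iff M hSp Q).mpr hQ) hQP

/-- **good reduction of `X₀(M)` at `A`** from the contracts of KL. -/
theorem goodRed_of {ℓ : ℕ} (hℓ : ℓ.Prime) (hA : A.LiesOverPrime ℓ) (hSp : SpansStatement M)
    (hCT : CTStatement M A) : GoodRed A M where
  b1 := b1_of M A hSp
  inv := inv_of M A hℓ hA hSp hCT

end Fermat.Agent.S37
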