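import Mathlib

/-!
# S37, block P1: the abstract `Λ`-calculus

`𝔇` is a group of divisors, `Lam D ⊆ R = k((q))` the `k`-space of reductions of the functions in
`L(D + *∞)`.  From

* `Lam D * Lam D' ≤ Lam (D + D')`,
* `(INV)`: `1 ∈ Lam D * Lam (-D)`,

we get: `KK = {D | 1 ∈ Lam D ∧ 1 ∈ Lam (-D)}` is a subgroup, contains `s D - D` when `Lam (s D) = Lam D`
(inertia), is stable under Frobenius, and contains `s (s D) - T (s D) + ℓ • D`
(Eichler-Shimura; the multiplicative congruence `z ↦ z ^ ℓ * Fr (Fr z)` is polarised).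
-/

set_option autoImplicit false

namespace Fermat.Agent.S37

open Polynomial

section Poly

variable {k V : Type*} [Field k] [Infinite k] [AddCommGroup V] [Module k V]

/-- A polynomial map with values in a subspace has all its coefficients in the subspace. -/
theorem coeff_mem_of_forall_eval_mem (W : Submodule k V) (s : Finset ℕ) (u : ℕ → V)
    (h : ∀ c : k, ∑ e ∈ s, c ^ e • u e ∈ W) : ∀ e ∈ s, u e ∈ W := by
  intro e₀ he₀
  by_contra hne
  have hne' : W.mkQ (u e₀) ≠ 0 := by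
    rwa [Ne, Submodule.mkQ_apply, Submodule.Quotient.mk_eq_zero]
  obtain ⟨φ, hφ⟩ : ∃ φ : Module.Dual k (V ⧸ W), φ (W.mkQ (u e₀)) ≠ 0 := by
    by_contra hcon
    push Not at hcon
    exact hne' ((Module.forall_dual_apply_eq_zero_iff k _).1 hcon)
  let p : k[X] := ∑ e ∈ s, C (φ (W.mkQ (u e))) * X ^ e
  have hp : ∀ c : k, p.eval c = 0 := by
    intro c
    have h1 : p.eval c = φ (W.mkQ (∑ e ∈ s, c ^ e • u e)) := by
      simp only [p, eval_finsetSum, eval_mul, eval_C, eval_pow, eval_X, map_sum, map_smul,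
        smul_eq_mul]
      exact Finset.sum_congr rfl fun e _ => mul_comm _ _
    rw [h1, Submodule.mkQ_apply, (Submodule.Quotient.mk_eq_zero W).2 (h c), map_zero]
  have hp0 : p = 0 := Polynomial.funext (fun c => by rw [hp c, eval_zero])
  have hc : p.coeff e₀ = φ (W.mkQ (u e₀)) := by
    simp only [p, finsetSum_coeff, coeff_C_mul, coeff_X_pow]
    rw [Finset.sum_eq_single e₀]
    · simp
    · intro b _ hb
      rw [if_neg (Ne.symm hb), mul_zero]
    · intro hn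
      exact absurd he₀ hn
  rw [hp0, coeff_zero] at hc
  exact hφ hc.symm

end Poly

section Calc

variable {k R 𝔇 : Type*} [Field k] [CommRing R] [Algebra k R] [AddCommGroup 𝔇]

/-- The abstract system of spaces `Lam D`. -/
structure LamSystem (k R 𝔇 : Type*) [Field k] [CommRing R] [Algebra k R] [AddCommGroup 𝔇] where
  /-- reductions of `L(D + *∞)` -/
  Lam : 𝔇 → Submodule k R
  mul_le : ∀ D D', Lam D * Lam D' ≤ Lam (D + D')
  inv : ∀ D, (1 : R) ∈ Lam D * Lam (-D)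

namespace LamSystem

variable (S : LamSystem k R 𝔇)

theorem one_mem_zero : (1 : R) ∈ S.Lam 0 := by
  have h := S.mul_le 0 (-0) (S.inv 0)
  rwa [neg_zero, add_zero] at h

theorem mul_mem {D D' : 𝔇} {a b : R} (ha : a ∈ S.Lam D) (hb : b ∈ S.Lam D') :
    a * b ∈ S.Lam (D + D') :=
  S.mul_le D D' (Submodule.mul_mem_mul ha hb)

theorem pow_mem {D : 𝔇} {a : R} (ha : a ∈ S.Lam D) (n : ℕ) : a ^ n ∈ S.Lam (n • D) := by
  induction n with
  | zero => rw [pow_zero, zero_smul]; exact S.one_mem_zero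
  | succ n ih => rw [pow_succ, succ_nsmul]; exact S.mul_mem ih ha

/-- The divisors with trivial reduction. -/
def KK : AddSubgroup 𝔇 where
  carrier := {D | (1 : R) ∈ S.Lam D ∧ (1 : R) ∈ S.Lam (-D)}
  zero_mem' := ⟨S.one_mem_zero, by rw [neg_zero]; exact S.one_mem_zero⟩
  add_mem' := by
    rintro D D' ⟨h1, h2⟩ ⟨h1', h2'⟩
    refine ⟨?_, ?_⟩
    · have := S.mul_mem h1 h1'
      rwa [one_mul] at this
    · have := S.mul_mem h2 h2'
      rwa [one_mul, ← neg_add] at this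
  neg_mem' := by
    rintro D ⟨h1, h2⟩
    exact ⟨h2, by rwa [neg_neg]⟩

theorem mem_KK {D : 𝔇} : D ∈ S.KK ↔ (1 : R) ∈ S.Lam D ∧ (1 : R) ∈ S.Lam (-D) := Iff.rfl

/-- **(k1)** inertia. -/
theorem sub_mem_KK_of_inertia (s : 𝔇 →+ 𝔇) (hs : ∀ D, S.Lam (s D) = S.Lam D) (D : 𝔇) :
    s D - D ∈ S.KK := by
  refine ⟨?_, ?_⟩
  · have h := S.inv D
    rw [← hs D] at h
    have := S.mul_le _ _ h
    rwa [← sub_eq_add_neg] at this
  · have h := S.inv D
    rw [← hs (-D), map_neg] at h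
    have := S.mul_le _ _ h
    rwa [← sub_eq_add_neg, ← neg_sub (s D) D] at this

/-- **(k2)** Frobenius stability. -/
theorem map_mem_KK_of_frobenius (s : 𝔇 →+ 𝔇) (Fr : R →+* R)
    (hs : ∀ D, ∀ z ∈ S.Lam D, Fr z ∈ S.Lam (s D)) {D : 𝔇} (hD : D ∈ S.KK) : s D ∈ S.KK := by
  refine ⟨?_, ?_⟩
  · have := hs D 1 hD.1
    rwa [map_one] at this
  · have := hs (-D) 1 hD.2
    rwa [map_one, map_neg] at this

/-- image of a product of submodules under a ring homomorphism. -/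
theorem map_mem_span_mul_span (φ : R →+* R) (P Q : Submodule k R) {x : R} (hx : x ∈ P * Q) :
    φ x ∈ Submodule.span k (φ '' P) * Submodule.span k (φ '' Q) := by
  induction hx using Submodule.mul_induction_on' with
  | mem_mul_mem a ha b hb =>
    rw [map_mul]
    exact Submodule.mul_mem_mul (Submodule.subset_span ⟨a, ha, rfl⟩)
      (Submodule.subset_span ⟨b, hb, rfl⟩)
  | add x _ y _ hx hy =>
    rw [map_add]
    exact add_mem hx hy

section ES

variable [Infinite k] (ℓ : ℕ) [hℓ : Fact ℓ.Prime] [CharP R ℓ]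

/-- polarisation of `z ↦ z ^ ℓ * Fr (Fr z)`. -/
theorem polarise (Fr : R →+* R) (hFr : ∀ (c : k) (z : R), Fr (c • z) = c ^ ℓ • Fr z)
    (P W : Submodule k R) (h : ∀ z ∈ P, z ^ ℓ * Fr (Fr z) ∈ W) {a b : R} (ha : a ∈ P)
    (hb : b ∈ P) : a ^ ℓ * Fr (Fr b) ∈ W := by
  have h2 : 2 ≤ ℓ := hℓ.out.two_le
  let u : ℕ → R := fun e =>
    if e = 0 then a ^ ℓ * Fr (Fr a) else if e = ℓ then b ^ ℓ * Fr (Fr a)
    else if e = ℓ ^ 2 then a ^ ℓ * Fr (Fr b) else b ^ ℓ * Fr (Fr b)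
  have hl0 : ℓ ≠ 0 := by omega
  have hl2 : ℓ ^ 2 ≠ 0 := pow_ne_zero _ hl0
  have hl3 : ℓ ^ 2 ≠ ℓ := by
    intro h
    have : ℓ * ℓ = ℓ * 1 := by rw [mul_one, ← sq, h]
    have := Nat.eq_of_mul_eq_mul_left (by omega) this
    omega
  have hl4 : ℓ + ℓ ^ 2 ≠ 0 := by omega
  have hl5 : ℓ + ℓ ^ 2 ≠ ℓ := by omega
  have hl6 : ℓ + ℓ ^ 2 ≠ ℓ ^ 2 := by omega
  have key : ∀ c : k, ∑ e ∈ ({0, ℓ, ℓ ^ 2, ℓ + ℓ ^ 2} : Finset ℕ), c ^ e • u e ∈ W := by
    intro c
    have hz := h (a + c • b) (P.add_mem ha (P.smul_mem c hb))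
    have e1 : (a + c • b) ^ ℓ = a ^ ℓ + c ^ ℓ • b ^ ℓ := by
      rw [add_pow_char, _root_.smul_pow]
    have e2 : Fr (Fr (a + c • b)) = Fr (Fr a) + c ^ (ℓ ^ 2) • Fr (Fr b) := by
      rw [map_add, map_add, hFr, hFr, ← pow_mul, ← sq]
    rw [e1, e2] at hz
    have e3 : ∑ e ∈ ({0, ℓ, ℓ ^ 2, ℓ + ℓ ^ 2} : Finset ℕ), c ^ e • u e =
        (a ^ ℓ + c ^ ℓ • b ^ ℓ) * (Fr (Fr a) + c ^ (ℓ ^ 2) • Fr (Fr b)) := by
      have m1 : (0 : ℕ) ∉ ({ℓ, ℓ ^ 2, ℓ + ℓ ^ 2} : Finset ℕ) := by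
        simp only [Finset.mem_insert, Finset.mem_singleton, not_or]
        exact ⟨hl0.symm, hl2.symm, hl4.symm⟩
      have m2 : ℓ ∉ ({ℓ ^ 2, ℓ + ℓ ^ 2} : Finset ℕ) := by
        simp only [Finset.mem_insert, Finset.mem_singleton, not_or]
        exact ⟨hl3.symm, hl5.symm⟩
      have m3 : ℓ ^ 2 ∉ ({ℓ + ℓ ^ 2} : Finset ℕ) := by
        simp only [Finset.mem_singleton]
        exact hl6.symm
      rw [Finset.sum_insert m1, Finset.sum_insert m2, Finset.sum_insert m3, Finset.sum_singleton]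
      simp only [u, if_true, if_neg hl0, if_neg hl2, if_neg hl3, if_neg hl4, if_neg hl5,
        if_neg hl6, pow_zero, one_smul]
      rw [add_mul, mul_add, mul_add, smul_mul_assoc, mul_smul_comm, smul_mul_smul_comm, pow_add]
      abel
    rw [e3]
    exact hz
  have := coeff_mem_of_forall_eval_mem W _ u key (ℓ ^ 2) (by simp)
  simpa only [u, if_neg hl2, if_neg hl3, if_true] using this

/-- **(k3)** Eichler-Shimura. -/
theorem es_mem_KK (s T : 𝔇 →+ 𝔇) (Fr : R →+* R)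
    (hFr : ∀ (c : k) (z : R), Fr (c • z) = c ^ ℓ • Fr z)
    (hs : ∀ D, ∀ z ∈ S.Lam D, Fr z ∈ S.Lam (s D))
    (hT : ∀ D, ∀ z ∈ S.Lam D, z ^ ℓ * Fr (Fr z) ∈ S.Lam (T (s D))) (D : 𝔇) :
    s (s D) - T (s D) + ℓ • D ∈ S.KK := by
  -- the two kinds of bounds
  have b1 : ∀ D, Submodule.span k ((frobenius R ℓ) '' (S.Lam D : Set R)) *
      Submodule.span k ((Fr.comp Fr) '' (S.Lam D : Set R)) ≤ S.Lam (ℓ • D + s (s D)) := by
    intro D
    rw [Submodule.span_mul_span, Submodule.span_le]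
    rintro _ ⟨_, ⟨a, ha, rfl⟩, _, ⟨b, hb, rfl⟩, rfl⟩
    exact S.mul_mem (S.pow_mem ha ℓ) (hs _ _ (hs _ _ hb))
  have b2 : ∀ D, Submodule.span k ((frobenius R ℓ) '' (S.Lam D : Set R)) *
      Submodule.span k ((Fr.comp Fr) '' (S.Lam D : Set R)) ≤ S.Lam (T (s D)) := by
    intro D
    rw [Submodule.span_mul_span, Submodule.span_le]
    rintro _ ⟨_, ⟨a, ha, rfl⟩, _, ⟨b, hb, rfl⟩, rfl⟩
    exact polarise ℓ Fr hFr (S.Lam D) _ (hT D) ha hb
  have h1 := map_mem_span_mul_span (k := k) (frobenius R ℓ) _ _ (S.inv D)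
  have h2 := map_mem_span_mul_span (k := k) (Fr.comp Fr) _ _ (S.inv D)
  rw [map_one] at h1 h2
  have h3 := Submodule.mul_mem_mul h1 h2
  rw [one_mul, mul_mul_mul_comm] at h3
  refine ⟨?_, ?_⟩
  · have h4 := S.mul_le _ _ (mul_le_mul' (b1 D) (b2 (-D)) h3)
    have e : ℓ • D + s (s D) + T (s (-D)) = s (s D) - T (s D) + ℓ • D := by
      rw [map_neg, map_neg]; abel
    rwa [e] at h4
  · have h4 := S.mul_le _ _ (mul_le_mul' (b2 D) (b1 (-D)) h3)
    have e : T (s D) + (ℓ • (-D) + s (s (-D))) = -(s (s D) - T (s D) + ℓ • D) := by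
      rw [map_neg, map_neg, smul_neg]; abel
    rwa [e] at h4

end ES

end LamSystem

end Calc

end Fermat.Agent.S37
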