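import Fermat.Agent.S37.Near

/-!
# S37 / Torsion : `K0 A M` has no `n`-torsion (`ℓ ∤ n`), from the key lemma   (package S37-02)

`D` near `0` via `φ, ψ`; `n D = div u`.  Normalise `u` (`GR.exists_hasRed_C_mul_of_mem_FL`):
`HasRed A u ū`, `ū ≠ 0`.  `b₁ = φ^n u` and `b₂ = ψ^n u⁻¹` are regular outside `∞` and reduce to `ū`,
`ū⁻¹`; one of them has order `≥ 0`, so by `B1` `ū` is a constant `c̄`; `W = u / c` reduces to `1` and
`n ∣ div W`, so `W = y^n` by the key lemma and `D = div y`.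
-/

set_option autoImplicit false

open ModularCurve AlgebraicCurve

noncomputable section

namespace Fermat.Agent.S37

open Fermat.Agent.S24 Fermat.Agent.GR
open Fermat.Agent.S27 (val cls)

variable {A : ValuationSubring Kb} {M : ℕ} [NeZero M]

omit [NeZero M] in
theorem Torsion_coe_algebraMap (c : Kb) :
    ((algebraMap Kb (FN M) c : FN M) : LaurentSeries Kb) = HahnSeries.C c := by
  rw [HahnSeries.C_apply, ← algebraMap_laurentSeries_eq_single]
  rfl

theorem Torsion_hasRed_C (a : A) :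
    HasRed A (HahnSeries.C (a : Kb)) (HahnSeries.C (IsLocalRing.residue A a)) := by
  have h := HasRed.of_int (A := A) (HahnSeries.C a)
  rw [HahnSeries.C_apply, coeffMap_single, coeffMap_single] at h
  exact h

/-- the reduction `z ≠ 0` of a function `u'` with `n D = div u'`, `D` near `0`, is constant. -/
theorem Torsion_const (hb1 : B1 A M) {n : ℕ} {D : Divisor Kb (FN M)} (hD : Near A M D)
    (u : FN M) (hu : u ≠ 0) (hdiv : ∀ P : Place Kb (FN M), (n : ℤ) * D P = P.ord u)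
    (z : LaurentSeries (kA A)) (hz : z ≠ 0) (hred : HasRed A (u : LaurentSeries Kb) z) :
    ∃ c : kA A, c ≠ 0 ∧ z = HahnSeries.C c := by
  obtain ⟨φ, ψ, hφ, hψ, hφD, hψD⟩ := hD
  have hφ0 : φ ≠ 0 := by
    intro h
    exact hφ.ne_zero one_ne_zero (by rw [h]; rfl)
  have hψ0 : ψ ≠ 0 := by
    intro h
    exact hψ.ne_zero one_ne_zero (by rw [h]; rfl)
  have hn0 : (0 : ℤ) ≤ n := Int.natCast_nonneg n
  rcases le_or_gt 0 z.order with h0 | h0
  · -- `b₁ = φ ^ n * u`
    have hreg : IsReg (φ ^ n * u) := by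
      intro P hP
      rw [P.ord_mul (pow_ne_zero n hφ0) hu, FF.ord_pow, ← hdiv P]
      have := mul_le_mul_of_nonneg_left (hφD P hP) hn0
      linarith
    have hr : HasRed A ((φ ^ n * u : FN M) : LaurentSeries Kb) z := by
      have := (hφ.pow n).mul hred
      rw [one_pow, one_mul] at this
      exact this
    obtain ⟨c, hc⟩ := hb1 _ z hreg hr h0
    refine ⟨c, ?_, hc⟩
    rintro rfl
    exact hz (by rw [hc, map_zero])
  · -- `b₂ = ψ ^ n * u⁻¹`
    have hreg : IsReg (ψ ^ n * u⁻¹) := by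
      intro P hP
      rw [P.ord_mul (pow_ne_zero n hψ0) (inv_ne_zero hu), FF.ord_pow, P.ord_inv, ← hdiv P]
      have := mul_le_mul_of_nonneg_left (hψD P hP) hn0
      linarith
    have hr : HasRed A ((ψ ^ n * u⁻¹ : FN M) : LaurentSeries Kb) z⁻¹ := by
      have := (hψ.pow n).mul (hred.inv hz)
      rw [one_pow, one_mul] at this
      exact this
    have hord : 0 ≤ (z⁻¹).order := by
      have h1 : (z * z⁻¹).order = z.order + (z⁻¹).order :=
        HahnSeries.order_mul hz (inv_ne_zero hz)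
      rw [mul_inv_cancel₀ hz, HahnSeries.order_one] at h1
      omega
    obtain ⟨c, hc⟩ := hb1 _ z⁻¹ hreg hr hord
    have hc0 : c ≠ 0 := by
      rintro rfl
      exact inv_ne_zero hz (by rw [hc, map_zero])
    refine ⟨c⁻¹, inv_ne_zero hc0, ?_⟩
    rw [map_inv₀, ← hc, inv_inv]

theorem principal_of_near (hb1 : B1 A M) {n : ℕ} (hn : n ≠ 0)
    (hkey : Fermat.Agent.S18.KeyLemmaAt A M n) {D : Divisor Kb (FN M)} (hD : Near A M D)
    (u : FN M) (hu : u ≠ 0) (hdiv : ∀ P : Place Kb (FN M), (n : ℤ) * D P = P.ord u) :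
    ∃ y : FN M, y ≠ 0 ∧ ∀ P : Place Kb (FN M), D P = P.ord y := by
  have hu' : (u : LaurentSeries Kb) ≠ 0 := by
    intro h
    exact hu (Subtype.ext h)
  obtain ⟨c, hc, z, hz, hred⟩ := exists_hasRed_C_mul_of_mem_FL A M u.2 hu'
  -- normalise `u`
  have hcF : algebraMap Kb (FN M) c ≠ 0 := by
    rw [Ne, map_eq_zero]; exact hc
  have hu1 : algebraMap Kb (FN M) c * u ≠ 0 := mul_ne_zero hcF hu
  have hord1 : ∀ P : Place Kb (FN M), P.ord (algebraMap Kb (FN M) c * u) = P.ord u := by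
    intro P
    rw [P.ord_mul hcF hu, FF.ord_algebraMap, zero_add]
  have hred1 : HasRed A ((algebraMap Kb (FN M) c * u : FN M) : LaurentSeries Kb) z := by
    have : ((algebraMap Kb (FN M) c * u : FN M) : LaurentSeries Kb)
        = HahnSeries.C c * (u : LaurentSeries Kb) := by
      rw [← Torsion_coe_algebraMap (M := M) c]; rfl
    rw [this]; exact hred
  obtain ⟨c0, hc0, rfl⟩ := Torsion_const hb1 hD _ hu1
    (fun P => by rw [hord1 P]; exact hdiv P) z hz hred1
  obtain ⟨a, rfl⟩ := IsLocalRing.residue_surjective c0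
  have ha0 : (a : Kb) ≠ 0 := by
    intro h
    apply hc0
    have : a = 0 := Subtype.ext h
    rw [this, map_zero]
  have haF : algebraMap Kb (FN M) (a : Kb) ≠ 0 := by
    rw [Ne, map_eq_zero]; exact ha0
  -- `W = u' / a`
  set W : FN M := algebraMap Kb (FN M) c * u / algebraMap Kb (FN M) (a : Kb) with hW
  have hW0 : W ≠ 0 := div_ne_zero hu1 haF
  have hWred : HasRed A (W : LaurentSeries Kb) 1 := by
    have h := hred1.div (Torsion_hasRed_C a) hz
    rw [div_self hz, ← Torsion_coe_algebraMap (M := M) (a : Kb)] at h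
    exact h
  have hWord : ∀ P : Place Kb (FN M), P.ord W = (n : ℤ) * D P := by
    intro P
    rw [hW, div_eq_mul_inv, P.ord_mul hu1 (inv_ne_zero haF), P.ord_inv, FF.ord_algebraMap,
      hord1, hdiv P]
    ring
  obtain ⟨y, hy, hyW⟩ := hkey (W : LaurentSeries Kb) W.2 hWred
    (fun v => ⟨D v, hWord v⟩)
  have hyW' : (⟨y, hy⟩ : FN M) ^ n = W := Subtype.ext hyW
  have hy0 : (⟨y, hy⟩ : FN M) ≠ 0 := by
    intro h
    rw [h, zero_pow hn] at hyW'
    exact hW0 hyW'.symm
  refine ⟨⟨y, hy⟩, hy0, fun P => ?_⟩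
  have h1 := hWord P
  rw [← hyW', FF.ord_pow] at h1
  have hn' : (n : ℤ) ≠ 0 := by exact_mod_cast hn
  exact (mul_left_cancel₀ hn' h1).symm

theorem eq_zero_of_mem_K0 (hb1 : B1 A M) {n : ℕ} (hn : n ≠ 0)
    (hkey : Fermat.Agent.S18.KeyLemmaAt A M n) {x : JZero M} (hx : x ∈ K0 A M)
    (hnx : n • x = 0) : x = 0 := by
  obtain ⟨D, hdeg, hD, rfl⟩ := mem_K0_iff.mp hx
  have hdeg' : Divisor.degree (n • D) = 0 := by rw [map_nsmul, hdeg, smul_zero]
  rw [← Fermat.Agent.S27.cls_nsmul hdeg, Fermat.Agent.S27.cls_eq_zero_iff hdeg'] at hnx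
  obtain ⟨u, hu, hdiv⟩ := hnx
  obtain ⟨y, hy, hyD⟩ := principal_of_near hb1 hn hkey hD u hu (fun P => by
    rw [← hdiv P]
    simp)
  exact (Fermat.Agent.S27.cls_eq_zero_iff hdeg).mpr ⟨y, hy, hyD⟩

end Fermat.Agent.S37
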