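import Fermat.Agent.S37.Near
import Fermat.Agent.S37.Calculus
import Fermat.Agent.S37.Torsion

/-!
# S37 / P2 : the concrete `Λ`-system of level `M` at `A`

`Lam A M D` = the reductions of the functions of `L(D + *∞)`; `(INV)` for every divisor from
`GoodRed A M`.
-/

set_option autoImplicit false

open ModularCurve AlgebraicCurve

noncomputable section

namespace Fermat.Agent.S37

open Fermat.Agent.S24 Fermat.Agent.GR Fermat.Agent.S24.FF
open Fermat.Agent.S27 (val cls)

/-! ## generic lemmas on submodules of an algebra -/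

section Generic

/-- `Submodule k R` for the module structure of the algebra `R`. -/
abbrev SubAlg (k R : Type*) [Field k] [CommRing R] [Algebra k R] : Type _ := Submodule k R

variable {k R ι : Type*} [Field k] [CommRing R] [Algebra k R]

/-- constructor of a submodule of an algebra. -/
def SubAlg.mk' (S : Set R) (h0 : (0 : R) ∈ S) (hadd : ∀ a ∈ S, ∀ b ∈ S, a + b ∈ S)
    (hsmul : ∀ (c : k), ∀ a ∈ S, algebraMap k R c * a ∈ S) : SubAlg k R where
  carrier := S
  add_mem' := fun ha hb => hadd _ ha _ hb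
  zero_mem' := h0
  smul_mem' := fun c a ha => by
    rw [Algebra.smul_def]
    exact hsmul c a ha

theorem SubAlg.mem_mk' {S : Set R} {h0 : (0 : R) ∈ S} {hadd : ∀ a ∈ S, ∀ b ∈ S, a + b ∈ S}
    {hsmul : ∀ (c : k), ∀ a ∈ S, algebraMap k R c * a ∈ S} {z : R} :
    z ∈ SubAlg.mk' S h0 hadd hsmul ↔ z ∈ S := Iff.rfl

theorem SubAlg.mul_le_of {L₁ L₂ L₃ : SubAlg k R} (h : ∀ a ∈ L₁, ∀ b ∈ L₂, a * b ∈ L₃) :
    L₁ * L₂ ≤ L₃ := Submodule.mul_le.mpr h

theorem SubAlg.one_mem_mul_of {L₁ L₂ : SubAlg k R} {a m n : R} (h1 : (1 : R) ∈ L₁) (ha : a ∈ L₁)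
    (hm : m ∈ L₂) (hn : n ∈ L₂) (h : a * m + n = 1) : (1 : R) ∈ L₁ * L₂ := by
  rw [← h]
  refine add_mem (Submodule.mul_mem_mul ha hm) ?_
  have := Submodule.mul_mem_mul h1 hn
  rwa [one_mul] at this

theorem SubAlg.inv_of_single (L : (ι →₀ ℤ) → SubAlg k R) (hmul : ∀ D D', L D * L D' ≤ L (D + D'))
    (h0 : (1 : R) ∈ L 0)
    (h1 : ∀ P : ι, (1 : R) ∈ L (Finsupp.single P 1) * L (-Finsupp.single P 1)) (D : ι →₀ ℤ) :
    (1 : R) ∈ L D * L (-D) := by
  let G : AddSubgroup (ι →₀ ℤ) :=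
    { carrier := {D | (1 : R) ∈ L D * L (-D)}
      zero_mem' := by
        have := Submodule.mul_mem_mul h0 h0
        rw [one_mul] at this
        show (1 : R) ∈ L 0 * L (-0)
        rwa [neg_zero]
      add_mem' := by
        intro D D' h h'
        have h1 := Submodule.mul_mem_mul (show (1 : R) ∈ L D * L (-D) from h)
          (show (1 : R) ∈ L D' * L (-D') from h')
        rw [one_mul, mul_mul_mul_comm] at h1
        have h2 := mul_le_mul' (hmul D D') (hmul (-D) (-D')) h1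
        show (1 : R) ∈ L (D + D') * L (-(D + D'))
        rwa [neg_add]
      neg_mem' := by
        intro D h
        show (1 : R) ∈ L (-D) * L (- -D)
        rw [neg_neg, mul_comm]
        exact h }
  have hG : ∀ D, D ∈ G := by
    intro D
    induction D using Finsupp.induction_linear with
    | zero => exact G.zero_mem
    | add D D' h h' => exact G.add_mem h h'
    | single P n =>
      have : (Finsupp.single P n : ι →₀ ℤ) = n • Finsupp.single P 1 := by
        rw [Finsupp.smul_single, smul_eq_mul, mul_one]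
      rw [this]
      exact G.zsmul_mem (h1 P) n
  exact hG D

end Generic

variable {A : ValuationSubring Kb} {M : ℕ} [NeZero M]

/-- `f ∈ L(D + *∞)`. -/
def InLL (D : Divisor Kb (FN M)) (f : FN M) : Prop :=
  f = 0 ∨ ∀ P : Place Kb (FN M), P ≠ Pinf M → -D P ≤ P.ord f

theorem InLL.add {D : Divisor Kb (FN M)} {f g : FN M} (hf : InLL D f) (hg : InLL D g) :
    InLL D (f + g) := by
  rcases hf with rfl | hf
  · rwa [zero_add]
  rcases hg with rfl | hg
  · rw [add_zero]; exact Or.inr hf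
  by_cases h : f + g = 0
  · exact Or.inl h
  · exact Or.inr fun P hP => le_trans (le_min (hf P hP) (hg P hP)) (min_ord_le_ord_add P h)

theorem InLL.mul {D D' : Divisor Kb (FN M)} {f g : FN M} (hf : InLL D f) (hg : InLL D' g) :
    InLL (D + D') (f * g) := by
  rcases eq_or_ne f 0 with rfl | hf0
  · left; rw [zero_mul]
  rcases eq_or_ne g 0 with rfl | hg0
  · left; rw [mul_zero]
  right
  intro P hP
  have h1 := hf.resolve_left hf0 P hP
  have h2 := hg.resolve_left hg0 P hP
  rw [P.ord_mul hf0 hg0, Finsupp.add_apply]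
  omega

theorem InLL.const_mul {D : Divisor Kb (FN M)} {f : FN M} (hf : InLL D f) (c : Kb) :
    InLL D (algebraMap Kb (FN M) c * f) := by
  rcases eq_or_ne f 0 with rfl | hf0
  · left; rw [mul_zero]
  rcases eq_or_ne c 0 with rfl | hc0
  · left; rw [map_zero, zero_mul]
  right
  intro P hP
  rw [P.ord_mul ((map_ne_zero _).mpr hc0) hf0, ord_algebraMap, zero_add]
  exact hf.resolve_left hf0 P hP

theorem inLL_one_of_nonneg {D : Divisor Kb (FN M)}
    (h : ∀ P : Place Kb (FN M), P ≠ Pinf M → 0 ≤ D P) : InLL D (1 : FN M) :=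
  Or.inr fun P hP => by
    rw [Place.ord_one]
    have := h P hP
    omega

variable (A M) in
/-- the reductions of the functions of `L(D + *∞)`. -/
def Lam (D : Divisor Kb (FN M)) : SubAlg (kA A) (LaurentSeries (kA A)) :=
  SubAlg.mk' {z | ∃ f : FN M, InLL D f ∧ HasRed A (f : LaurentSeries Kb) z}
    ⟨0, Or.inl rfl, by
      have := HasRed.of_int (A := A) 0
      rwa [map_zero, map_zero] at this⟩
    (by
      rintro _ ⟨f, hf, hfz⟩ _ ⟨g, hg, hgz⟩
      exact ⟨f + g, hf.add hg, hfz.add hgz⟩)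
    (by
      rintro c _ ⟨f, hf, hfz⟩
      obtain ⟨a, rfl⟩ := IsLocalRing.residue_surjective c
      refine ⟨algebraMap Kb (FN M) (a : Kb) * f, hf.const_mul _, ?_⟩
      have h := (Torsion_hasRed_C a).mul hfz
      rw [← Torsion_coe_algebraMap (M := M) (a : Kb)] at h
      rw [algebraMap_laurentSeries_eq_single]
      exact h)

theorem mem_Lam {D : Divisor Kb (FN M)} {z : LaurentSeries (kA A)} :
    z ∈ Lam A M D ↔ ∃ f : FN M, InLL D f ∧ HasRed A (f : LaurentSeries Kb) z := Iff.rfl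

theorem Lam_mul_le (D D' : Divisor Kb (FN M)) : Lam A M D * Lam A M D' ≤ Lam A M (D + D') := by
  apply SubAlg.mul_le_of
  rintro _ ⟨f, hf, hfz⟩ _ ⟨g, hg, hgz⟩
  exact ⟨f * g, hf.mul hg, hfz.mul hgz⟩

theorem one_mem_Lam_of_nonneg {D : Divisor Kb (FN M)}
    (h : ∀ P : Place Kb (FN M), P ≠ Pinf M → 0 ≤ D P) : (1 : LaurentSeries (kA A)) ∈ Lam A M D :=
  ⟨1, inLL_one_of_nonneg h, HasRed.one⟩

/-- a regular function vanishing at `P` lies in `L(-P + *∞)`. -/
theorem inLL_neg_single {P : Place Kb (FN M)} {b : FN M} (hb : IsReg b) (hP : P ≠ Pinf M)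
    (hbP : val P b = 0) : InLL (-Finsupp.single P 1) b := by
  rcases eq_or_ne b 0 with rfl | hb0
  · exact Or.inl rfl
  right
  intro Q hQ
  rw [Finsupp.neg_apply, neg_neg]
  rcases eq_or_ne Q P with rfl | hQP
  · rw [Finsupp.single_eq_same]
    have := ((Fermat.Agent.S27.val_eq_zero_iff Q (hb Q hQ)).mp hbP).resolve_left hb0
    omega
  · rw [Finsupp.single_eq_of_ne hQP]
    exact hb Q hQ

/-- `(INV)` at one place. -/
theorem one_mem_Lam_mul_single (hgr : GoodRed A M) (P : Place Kb (FN M)) :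
    (1 : LaurentSeries (kA A)) ∈ Lam A M (Finsupp.single P 1) * Lam A M (-Finsupp.single P 1) := by
  have h1 : (1 : LaurentSeries (kA A)) ∈ Lam A M (Finsupp.single P 1) :=
    one_mem_Lam_of_nonneg fun Q _ => by
      rcases eq_or_ne Q P with rfl | hQP
      · rw [Finsupp.single_eq_same]; omega
      · rw [Finsupp.single_eq_of_ne hQP]
  rcases eq_or_ne P (Pinf M) with rfl | hP
  · have h2 : (1 : LaurentSeries (kA A)) ∈ Lam A M (-Finsupp.single (Pinf M) 1) :=
      one_mem_Lam_of_nonneg fun Q hQ => by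
        rw [Finsupp.neg_apply, Finsupp.single_eq_of_ne hQ, neg_zero]
    exact SubAlg.one_mem_mul_of h1 h1 h2 (Lam A M _).zero_mem (by rw [one_mul, add_zero])
  by_cases hfin : IsFin A P
  · obtain ⟨a, m, n₀, za, zm, zn, ha, hm, hn, hsum, hmr, hnr, hmP, hnP, haQ, haP⟩ := hgr.inv P hfin
    refine SubAlg.one_mem_mul_of h1 (a := za) (m := zm) (n := zn) ⟨a, ?_, ha⟩
      ⟨m, inLL_neg_single hmr hP hmP, hm⟩ ⟨n₀, inLL_neg_single hnr hP hnP, hn⟩ hsum
    right
    intro Q hQ
    rcases eq_or_ne Q P with rfl | hQP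
    · rw [Finsupp.single_eq_same]; exact haP
    · rw [Finsupp.single_eq_of_ne hQP, neg_zero]; exact haQ Q hQ hQP
  · -- `P` reduces to `∞`
    have hex : ∃ b : FN M, IsReg b ∧ IsInt A b ∧ val P b ∉ A := by
      by_contra hcon
      push Not at hcon
      exact hfin ⟨hP, hcon⟩
    obtain ⟨b, hbr, ⟨zb, hbz⟩, hbA⟩ := hex
    set e : Kb := val P b with he
    have he' : e⁻¹ ∈ A := (A.mem_or_inv_mem e).resolve_left hbA
    have he0 : e ≠ 0 := fun h => hbA (h ▸ A.zero_mem)
    have hres : IsLocalRing.residue A ⟨e⁻¹, he'⟩ = 0 := by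
      rw [IsLocalRing.residue_eq_zero_iff, IsLocalRing.mem_maximalIdeal, mem_nonunits_iff]
      intro hu
      apply hbA
      have := (ValuationSubring.valuation_eq_one_iff A ⟨e⁻¹, he'⟩).mp hu
      have h2 : A.valuation e = 1 := by
        have h3 : A.valuation (e⁻¹) = 1 := this
        rw [map_inv₀, inv_eq_one] at h3
        exact h3
      exact (A.valuation_le_one_iff e).mp h2.le
    set u : FN M := 1 - algebraMap Kb (FN M) e⁻¹ * b with hu
    have hur : IsReg u := fun Q hQ =>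
      Fermat.Agent.S27.ord_sub_nonneg Q (by rw [Place.ord_one])
        (Fermat.Agent.S27.ord_mul_nonneg Q (Fermat.Agent.S27.ord_algebraMap_nonneg Q _) (hbr Q hQ))
    have huP : val P u = 0 := by
      rw [hu, Fermat.Agent.S27.val_sub P (by rw [Place.ord_one])
        (Fermat.Agent.S27.ord_mul_nonneg P (Fermat.Agent.S27.ord_algebraMap_nonneg P _) (hbr P hP)),
        Fermat.Agent.S27.val_one,
        Fermat.Agent.S27.val_mul P (Fermat.Agent.S27.ord_algebraMap_nonneg P _) (hbr P hP),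
        Fermat.Agent.S27.val_algebraMap, ← he, inv_mul_cancel₀ he0, sub_self]
    have hured : HasRed A (u : LaurentSeries Kb) 1 := by
      have h3 := (Torsion_hasRed_C (⟨e⁻¹, he'⟩ : A)).mul hbz
      rw [hres, map_zero, zero_mul, ← Torsion_coe_algebraMap (M := M) e⁻¹] at h3
      have h4 := HasRed.of_int (A := A) (-1)
      rw [map_neg, map_neg, map_one, map_one] at h4
      have h5 := (HasRed.one (A := A)).add (h4.mul h3)
      rw [mul_zero, add_zero] at h5
      have e5 : (u : LaurentSeries Kb) = 1 + -1 * (((algebraMap Kb (FN M) e⁻¹ : FN M) :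
          LaurentSeries Kb) * (b : LaurentSeries Kb)) := by
        rw [hu, neg_one_mul, ← sub_eq_add_neg]
        rfl
      rw [e5]
      exact h5
    exact SubAlg.one_mem_mul_of h1 h1 ⟨u, inLL_neg_single hur hP huP, hured⟩
      (Lam A M _).zero_mem (by rw [one_mul, add_zero])

/-- **(INV)** for every divisor. -/
theorem one_mem_Lam_mul (hgr : GoodRed A M) (D : Divisor Kb (FN M)) :
    (1 : LaurentSeries (kA A)) ∈ Lam A M D * Lam A M (-D) :=
  SubAlg.inv_of_single (Lam A M) Lam_mul_le (one_mem_Lam_of_nonneg fun _ _ => le_rfl)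
    (one_mem_Lam_mul_single hgr) D

/-- the concrete `Λ`-system. -/
def lamSystem (hgr : GoodRed A M) :
    LamSystem (kA A) (LaurentSeries (kA A)) (Divisor Kb (FN M)) where
  Lam := Lam A M
  mul_le := Lam_mul_le
  inv := one_mem_Lam_mul hgr

theorem one_mem_Lam_iff {D : Divisor Kb (FN M)} :
    (1 : LaurentSeries (kA A)) ∈ Lam A M D ↔ ∃ φ : FN M, HasRed A (φ : LaurentSeries Kb) 1 ∧
      ∀ P : Place Kb (FN M), P ≠ Pinf M → -D P ≤ P.ord φ := by
  constructor
  · rintro ⟨f, hf, hfz⟩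
    exact ⟨f, hfz, hf.resolve_left (Near_ne_zero hfz)⟩
  · rintro ⟨f, hfz, hf⟩
    exact ⟨f, Or.inr hf, hfz⟩

theorem mem_KK_iff_near (hgr : GoodRed A M) {D : Divisor Kb (FN M)} :
    D ∈ (lamSystem hgr).KK ↔ Near A M D := by
  rw [LamSystem.mem_KK]
  show (1 : LaurentSeries (kA A)) ∈ Lam A M D ∧ (1 : LaurentSeries (kA A)) ∈ Lam A M (-D) ↔ _
  rw [one_mem_Lam_iff, one_mem_Lam_iff]
  constructor
  · rintro ⟨⟨φ, hφ, h1⟩, ψ, hψ, h2⟩
    refine ⟨φ, ψ, hφ, hψ, h1, fun P hP => ?_⟩
    have := h2 P hP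
    rwa [Finsupp.neg_apply, neg_neg] at this
  · rintro ⟨φ, ψ, hφ, hψ, h1, h2⟩
    refine ⟨⟨φ, hφ, h1⟩, ψ, hψ, fun P hP => ?_⟩
    rw [Finsupp.neg_apply, neg_neg]
    exact h2 P hP

end Fermat.Agent.S37
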