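import Fermat.Agent.S37.ClausesOf
import Fermat.Agent.S37.LamSys

/-!
# S37 / Clauses : the clauses (k1), (k2), (k3) at a level `M` with good reduction
-/

set_option autoImplicit false

open ModularCurve AlgebraicCurve

noncomputable section

namespace Fermat.Agent.S37

open Fermat.Agent.S24 Fermat.Agent.GR
open Fermat.Agent.S27 (val cls)

variable {A : ValuationSubring Kb} {M : ℕ} [NeZero M]

theorem isLam_lamSystem (hgr : GoodRed A M) : IsLam (lamSystem hgr) := fun _ _ => Iff.rfl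

/-- **(k1)** -/
theorem smul_sub_mem_K0 (hgr : GoodRed A M) {σ : GQ} (hσ : σ ∈ A.inertiaSubgroupIn ℚ)
    (x : JZero M) : σ • x - x ∈ K0 A M :=
  (isLam_lamSystem hgr).smul_sub_mem_K0 hσ x

/-- **(k2)** -/
theorem smul_mem_K0 {σ : GQ} (hσ : σ ∈ A.decompositionSubgroup ℚ) {x : JZero M}
    (hx : x ∈ K0 A M) : σ • x ∈ K0 A M :=
  smul_mem_K0' hσ hx

/-- **(k3)** -/
theorem relation_mem_K0 {ℓ : ℕ} [NeZero ℓ] (hgr : GoodRed A M) (hℓ : ℓ.Prime)
    (hA : A.LiesOverPrime ℓ) (hM : ¬ ℓ ∣ M) {σ : GQ} (hσ : A.IsFrobeniusAt σ ℓ) (x : JZero M) :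
    σ • σ • x - heckeOperatorAlong Kb M ℓ (σ • x) + ℓ • x ∈ K0 A M :=
  (isLam_lamSystem hgr).relation_mem_K0 hℓ hA hM hσ x

end Fermat.Agent.S37
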