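import Fermat.Agent.S37.Wiring
import Fermat.Agent.S37.Torsion
import Fermat.Agent.S37.Clauses
import Fermat.Agent.S37.Transfer
import Fermat.Agent.GAL.ModuleDefs
import Fermat.Agent.S37.GoodRed
import Fermat.Agent.GAL.KLC.RI

/-!
# S37 / Main : assembly

S37 from the two contracts `GAL.KeyLemmaStatement` and `GoodRedStatement`.
-/

set_option autoImplicit false

open ModularCurve AlgebraicCurve

noncomputable section

namespace Fermat.Agent.S37

open Fermat.Agent.S24 Fermat.Agent.GR Fermat.Agent.GR.HeckeField Fermat.Agent.GAL.FF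
open Fermat.Agent.S27 (val cls)

/-- **Contract with KL**: good reduction at admissible levels. -/
def GoodRedStatement : Prop :=
  ∀ (M ℓ : ℕ) [NeZero M], Fermat.Agent.GAL.AdmLevel M → ℓ.Prime → ¬ ℓ ∣ M →
    ∀ A : ValuationSubring Kb, A.LiesOverPrime ℓ → GoodRed A M

/-- the single open input of KL: the constant term statement (b2) at admissible levels. -/
def CTContract : Prop :=
  ∀ (M ℓ : ℕ) [NeZero M], Fermat.Agent.GAL.AdmLevel M → ℓ.Prime → ¬ ℓ ∣ M →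
    ∀ A : ValuationSubring Kb, A.LiesOverPrime ℓ → Fermat.Agent.GAL.KLC.CTStatement M A

theorem goodRedStatement_of_ct (hCT : CTContract) : GoodRedStatement :=
  fun M ℓ _ hM hℓ hℓM A hA =>
    goodRed_of M A hℓ hA (Fermat.Agent.GAL.KLC.spansStatement M) (hCT M ℓ hM hℓ hℓM A hA)

theorem keyLemmaStatement_of_ct (hCT : CTContract) : Fermat.Agent.GAL.KeyLemmaStatement :=
  Fermat.Agent.GAL.KLC.keyLemmaStatement_of (fun M _ => Fermat.Agent.GAL.KLC.spansStatement M)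
    (fun M _ => Fermat.Agent.GAL.KLC.riStatement M) hCT

/-- the four clauses of `IsGoodKernel`, at level `N`, with the concrete Hecke operator. -/
structure LevelKernel (A : ValuationSubring Kb) (ℓ r N : ℕ) [NeZero N] [NeZero ℓ]
    (K : AddSubgroup (JZero N)) : Prop where
  inertia : ∀ σ ∈ A.inertiaSubgroupIn ℚ, ∀ x : JZero N, σ • x - x ∈ K
  frob_stable : ∀ σ : GQ, A.IsFrobeniusAt σ ℓ → ∀ x ∈ K, σ • x ∈ K
  relation : ∀ σ : GQ, A.IsFrobeniusAt σ ℓ → ∀ x : JZero N,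
    σ • σ • x - heckeOperatorAlong Kb N ℓ (σ • x) + ℓ • x ∈ K
  torsion : ∀ x ∈ K, (∃ n : ℕ, r ^ n • x = 0) → x = 0

theorem levelKernel_K0 {A : ValuationSubring Kb} {ℓ r M : ℕ} [NeZero M] [NeZero ℓ]
    (hgr : GoodRed A M) (hℓ : ℓ.Prime) (hA : A.LiesOverPrime ℓ) (hM : ¬ ℓ ∣ M) (hr : r ≠ 0)
    (hkey : ∀ n : ℕ, Fermat.Agent.S18.KeyLemmaAt A M (r ^ n)) :
    LevelKernel A ℓ r M (K0 A M) where
  inertia σ hσ x := smul_sub_mem_K0 hgr hσ x
  frob_stable σ hσ x hx := smul_mem_K0 hσ.mem_decompositionSubgroup hx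
  relation σ hσ x := relation_mem_K0 hgr hℓ hA hM hσ x
  torsion := by
    rintro x hx ⟨n, hn⟩
    exact eq_zero_of_mem_K0 hgr.b1 (pow_ne_zero n hr) (hkey n) hx hn

theorem LevelKernel.comap {A : ValuationSubring Kb} {ℓ r N p : ℕ} [NeZero N] [NeZero p] [NeZero ℓ]
    (hℓ : ℓ.Prime) (hp : p.Prime) (hN : ¬ ℓ ∣ N * p) (hr : r ≠ 0)
    {K : AddSubgroup (JZero (N * p))} (h : LevelKernel A ℓ r (N * p) K) :
    LevelKernel A ℓ r N (K.comap (pullPic (bet N p))) where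
  inertia σ hσ x := by
    rw [AddSubgroup.mem_comap, map_sub, pullPic_smul]
    exact h.inertia σ hσ _
  frob_stable σ hσ x hx := by
    rw [AddSubgroup.mem_comap, pullPic_smul]
    exact h.frob_stable σ hσ _ hx
  relation σ hσ x := by
    rw [AddSubgroup.mem_comap, map_add, map_sub, map_nsmul, pullPic_smul, pullPic_smul,
      pullPic_hecke N p ℓ hℓ hN, pullPic_smul]
    exact h.relation σ hσ _
  torsion := by
    rintro x hx ⟨n, hn⟩
    have h1 : pullPic (bet N p) x = 0 :=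
      h.torsion _ hx ⟨n, by rw [← map_nsmul, hn, map_zero]⟩
    exact eq_zero_of_pullPic_eq_zero N p hp (pow_ne_zero n hr) hn h1

theorem keyLemmaAt_of_statement (hKL : Fermat.Agent.GAL.KeyLemmaStatement) {M n ℓ : ℕ} [NeZero M]
    (hM : Fermat.Agent.GAL.AdmLevel M) (hℓ : ℓ.Prime) (hℓM : ¬ ℓ ∣ M) (hℓn : ¬ ℓ ∣ n)
    {A : ValuationSubring Kb} (hA : A.LiesOverPrime ℓ) : Fermat.Agent.S18.KeyLemmaAt A M n := by
  intro W hW hred hdiv
  exact hKL M n ℓ (NeZero.ne M) hM hℓ hℓM hℓn A hA W hW (hred.ne_zero one_ne_zero) hred hdiv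

theorem exists_levelKernel (hKL : Fermat.Agent.GAL.KeyLemmaStatement) (hGR : GoodRedStatement)
    (N r ℓ : ℕ) [NeZero N] [NeZero ℓ] (hℓ : ℓ.Prime) (hℓN : ¬ ℓ ∣ N * r)
    (A : ValuationSubring Kb) (hA : A.LiesOverPrime ℓ) :
    ∃ K : AddSubgroup (JZero N), LevelKernel A ℓ r N K := by
  have hN : ¬ ℓ ∣ N := fun h => hℓN (h.mul_right r)
  have hr' : ¬ ℓ ∣ r := fun h => hℓN (h.mul_left N)
  have hr : r ≠ 0 := by
    rintro rfl
    exact hr' (dvd_zero _)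
  -- an auxiliary prime `q ∈ {2, 3}` different from `ℓ`
  obtain ⟨q, hq, hqℓ, hq23⟩ : ∃ q : ℕ, q.Prime ∧ q ≠ ℓ ∧ (q = 2 ∨ q = 3) := by
    by_cases h2 : ℓ = 2
    · exact ⟨3, Nat.prime_three, by omega, Or.inr rfl⟩
    · exact ⟨2, Nat.prime_two, fun h => h2 h.symm, Or.inl rfl⟩
  haveI : NeZero q := ⟨hq.ne_zero⟩
  have hℓq : ¬ ℓ ∣ q := fun h => hqℓ ((Nat.prime_dvd_prime_iff_eq hℓ hq).mp h).symm
  have h1 : ¬ ℓ ∣ N * q := fun h => (hℓ.dvd_mul.mp h).elim hN hℓq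
  have h2 : ¬ ℓ ∣ N * q * q := fun h => (hℓ.dvd_mul.mp h).elim h1 hℓq
  have hadm : Fermat.Agent.GAL.AdmLevel (N * q * q) := by
    rcases hq23 with rfl | rfl
    · exact Or.inl ⟨N, by ring⟩
    · exact Or.inr ⟨N, by ring⟩
  have hK := levelKernel_K0 (r := r) (hGR (N * q * q) ℓ hadm hℓ h2 A hA) hℓ hA h2 hr
    (fun n => keyLemmaAt_of_statement hKL hadm hℓ h2 (fun h => hr' (hℓ.dvd_of_dvd_pow h)) hA)
  exact ⟨_, (hK.comap hℓ hq h2 hr).comap hℓ hq h1 hr⟩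

/-- **S37 from the contracts.** -/
theorem S37_of_contracts (hKL : Fermat.Agent.GAL.KeyLemmaStatement) (hGR : GoodRedStatement)
    (N p : ℕ) [NeZero N] (hcomm : HeckeOperatorsCommuteBar N) :
    letI := heckeModuleBar N
    ∀ (_ : SMulCommClass (AlgebraicClosure ℚ ≃ₐ[ℚ] AlgebraicClosure ℚ) HeckeAlg (JZero N)),
      SpecializationExists (K := ℚ) (L := AlgebraicClosure ℚ) N p (JZero N) := by
  letI := heckeModuleBar N
  intro _
  refine specializationExists_of_kernel N p (JZero N) ?_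
  intro ℓ hℓ hℓN _ A hA
  haveI : NeZero ℓ := ⟨hℓ.ne_zero⟩
  obtain ⟨K, hK⟩ := exists_levelKernel hKL hGR N p ℓ hℓ hℓN A hA
  refine ⟨K, hK.inertia, hK.frob_stable, ?_, hK.torsion⟩
  intro σ hσ x
  have h1 := hK.relation σ hσ x
  have h2 : heckeGen ⟨ℓ, hℓ⟩ • (σ • x) = heckeOperatorAlong Kb N ℓ (σ • x) :=
    heckeModuleBar_heckeGen_smul hcomm ⟨ℓ, hℓ⟩ (σ • x)
  rw [h2]
  exact h1

/-- **S37 from the constant term statement.** -/
theorem S37_of_ct (hCT : CTContract) (N p : ℕ) [NeZero N] (hcomm : HeckeOperatorsCommuteBar N) :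
    letI := heckeModuleBar N
    ∀ (_ : SMulCommClass (AlgebraicClosure ℚ ≃ₐ[ℚ] AlgebraicClosure ℚ) HeckeAlg (JZero N)),
      SpecializationExists (K := ℚ) (L := AlgebraicClosure ℚ) N p (JZero N) :=
  S37_of_contracts (keyLemmaStatement_of_ct hCT) (goodRedStatement_of_ct hCT) N p hcomm

end Fermat.Agent.S37
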