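import Fermat.Agent.S37.HeckeDict

/-!
# S37 / P5 : base change for correspondences (abstract part)

For a commutative square of function fields over an algebraically closed field `K`

```
      a
  F  ---> F₁
  |b      |b'
  v   a'  v
  F₂ ---> Z
```
with `N_{Z/F₂}(b' h) = b (N_{F₁/F} h)` (e.g. `Z = F₂ ⊗_F F₁`) one has `a'_* b'^* = b^* a_*` on
divisors.
-/

set_option autoImplicit false
noncomputable section

namespace Fermat.Agent.S37

open AlgebraicCurve Fermat.Agent.S24 Fermat.Agent.GAL.FF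

section General

variable {K F F₁ Z : Type*} [Field K] [Field F] [Field F₁] [Field Z]
  [Algebra K F] [Algebra K F₁] [Algebra K Z]

theorem restrictAlong_comp (φ : F →ₐ[K] F₁) (ψ : F₁ →ₐ[K] Z) (hφ : φ.toRingHom.IsIntegral)
    (hψ : ψ.toRingHom.IsIntegral) (hψφ : (ψ.comp φ).toRingHom.IsIntegral) (w : Place K Z) :
    w.restrictAlong (ψ.comp φ) hψφ = (w.restrictAlong ψ hψ).restrictAlong φ hφ :=
  Place.ext rfl

/-- the norm along an algebra homomorphism. -/
def normAlong (φ : F →ₐ[K] F₁) : F₁ →* F :=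
  letI := algebraAlong φ
  Algebra.norm F

theorem ramificationIndexAlong_pos (φ : F →ₐ[K] F₁) (hφ : φ.toRingHom.IsIntegral)
    (w : Place K F₁) : 0 < w.ramificationIndexAlong φ := by
  letI := algebraAlong φ
  haveI := isScalarTower_along φ
  haveI := isIntegral_along φ hφ
  exact w.ramificationIndex_pos

/-- multiplicativity of ramification indices. -/
theorem ramificationIndexAlong_comp (φ : F →ₐ[K] F₁) (ψ : F₁ →ₐ[K] Z)
    (hφ : φ.toRingHom.IsIntegral) (hψ : ψ.toRingHom.IsIntegral)
    (hψφ : (ψ.comp φ).toRingHom.IsIntegral) (w : Place K Z) :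
    w.ramificationIndexAlong (ψ.comp φ) =
      w.ramificationIndexAlong ψ * (w.restrictAlong ψ hψ).ramificationIndexAlong φ := by
  obtain ⟨f, hf⟩ := FF.exists_ord_eq_one ((w.restrictAlong ψ hψ).restrictAlong φ hφ)
  have h1 := Place.ord_restrictAlong (ψ.comp φ) hψφ w f
  have h2 := Place.ord_restrictAlong ψ hψ w (φ f)
  have h3 := Place.ord_restrictAlong φ hφ (w.restrictAlong ψ hψ) f
  rw [restrictAlong_comp φ ψ hφ hψ hψφ, hf, mul_one] at h1
  rw [hf, mul_one] at h3
  rw [h3] at h2
  have h4 : (ψ.comp φ) f = ψ (φ f) := rfl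
  rw [h4, h2] at h1
  exact_mod_cast h1.symm

/-- functoriality of the pull-back of divisors. -/
theorem pullbackAlong_comp [HasPrincipalDivisors K F₁] [HasPrincipalDivisors K Z]
    (φ : F →ₐ[K] F₁) (ψ : F₁ →ₐ[K] Z)
    (hφ : φ.toRingHom.IsIntegral) (hψ : ψ.toRingHom.IsIntegral)
    (hψφ : (ψ.comp φ).toRingHom.IsIntegral) (D : Divisor K F) :
    Divisor.pullbackAlong (ψ.comp φ) hψφ D =
      Divisor.pullbackAlong ψ hψ (Divisor.pullbackAlong φ hφ D) := by
  ext w
  rw [Divisor.pullbackAlong_apply, Divisor.pullbackAlong_apply, Divisor.pullbackAlong_apply,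
    ramificationIndexAlong_comp φ ψ hφ hψ hψφ, restrictAlong_comp φ ψ hφ hψ hψφ]
  push_cast
  ring

theorem pullbackAlong_congr [HasPrincipalDivisors K F₁] {φ φ' : F →ₐ[K] F₁} (h : φ = φ')
    (hφ : φ.toRingHom.IsIntegral) (hφ' : φ'.toRingHom.IsIntegral) (D : Divisor K F) :
    Divisor.pullbackAlong φ hφ D = Divisor.pullbackAlong φ' hφ' D := by
  subst h
  rfl

end General

section Square

variable {K F F₁ F₂ Z : Type*} [Field K] [Field F] [Field F₁] [Field F₂] [Field Z]
  [Algebra K F] [Algebra K F₁] [Algebra K F₂] [Algebra K Z]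
  [IsAlgClosed K] [FF.IsFF1 K F] [FF.IsFF1 K F₁] [FF.IsFF1 K F₂] [FF.IsFF1 K Z]

theorem ord_normAlong (φ : F →ₐ[K] F₁) (hφ : φ.toRingHom.IsIntegral) (v : Place K F) {f : F₁}
    (hf : f ≠ 0) : v.ord (normAlong φ f) = ∑ w ∈ Place.fiberAlong φ hφ v, w.ord f := by
  letI := algebraAlong φ
  haveI := isScalarTower_along φ
  haveI : Module.Finite F F₁ := finite_of_isFF1 K F F₁
  exact ord_norm v hf

/-- **base change**: `a'_* b'^* = b^* a_*`. -/
theorem pushforwardAlong_pullbackAlong_square (a : F →ₐ[K] F₁) (b : F →ₐ[K] F₂)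
    (a' : F₂ →ₐ[K] Z) (b' : F₁ →ₐ[K] Z) (hcomm : a'.comp b = b'.comp a)
    (hnorm : ∀ h : F₁, normAlong a' (b' h) = b (normAlong a h))
    (ha : a.toRingHom.IsIntegral) (hb : b.toRingHom.IsIntegral)
    (ha' : a'.toRingHom.IsIntegral) (hb' : b'.toRingHom.IsIntegral) (E : Divisor K F₁) :
    Divisor.pushforwardAlong a' ha' (Divisor.pullbackAlong b' hb' E) =
      Divisor.pullbackAlong b hb (Divisor.pushforwardAlong a ha E) := by
  ext Q
  rw [pushforwardAlong_apply, Divisor.pullbackAlong_apply, pushforwardAlong_apply]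
  obtain ⟨h, hh0, hh⟩ := exists_ord_eq (Place.fiberAlong a ha (Q.restrictAlong b hb)) E
  have hres : ∀ R ∈ Place.fiberAlong a' ha' Q,
      R.restrictAlong b' hb' ∈ Place.fiberAlong a ha (Q.restrictAlong b hb) := by
    intro R hR
    rw [Place.mem_fiberAlong] at hR ⊢
    rw [← hR, ← restrictAlong_comp a b' ha hb' (isIntegral_toRingHom _),
      ← restrictAlong_comp b a' hb ha' (isIntegral_toRingHom _)]
    exact (Place.restrictAlong_congr hcomm _ _ R).symm
  have hb'h : b' h ≠ 0 := by simpa using hh0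
  calc ∑ R ∈ Place.fiberAlong a' ha' Q, Divisor.pullbackAlong b' hb' E R
      = ∑ R ∈ Place.fiberAlong a' ha' Q, R.ord (b' h) := by
        refine Finset.sum_congr rfl fun R hR => ?_
        rw [Divisor.pullbackAlong_apply, Place.ord_restrictAlong b' hb', hh _ (hres R hR)]
    _ = Q.ord (normAlong a' (b' h)) := (ord_normAlong a' ha' Q hb'h).symm
    _ = Q.ord (b (normAlong a h)) := by rw [hnorm]
    _ = Q.ramificationIndexAlong b * (Q.restrictAlong b hb).ord (normAlong a h) :=
        Place.ord_restrictAlong b hb Q _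
    _ = Q.ramificationIndexAlong b * ∑ w ∈ Place.fiberAlong a ha (Q.restrictAlong b hb), E w := by
        rw [ord_normAlong a ha _ hh0]
        congr 1
        exact Finset.sum_congr rfl hh

end Square

section NormSquare

variable {F F₁ F₂ Z : Type*} [Field F] [Field F₁] [Field F₂] [Field Z]
  [Algebra F F₁] [Algebra F₂ Z]

/-- the image of a basis of `F₁/F` spans `Z/F₂` when `Z = F₂(b' x)`. -/
theorem span_image_basis_eq_top {ι : Type*} [Finite ι] (β : Module.Basis ι F F₁) (b : F →+* F₂)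
    (b' : F₁ →+* Z) (hcomm : ∀ f : F, algebraMap F₂ Z (b f) = b' (algebraMap F F₁ f))
    (x : F₁) (hx : IsIntegral F₂ (b' x)) (hgen : IntermediateField.adjoin F₂ {b' x} = ⊤) :
    ⊤ ≤ Submodule.span F₂ (Set.range fun i => b' (β i)) := by
  classical
  have := Fintype.ofFinite ι
  have hb' : ∀ y : F₁, b' y ∈ Submodule.span F₂ (Set.range fun i => b' (β i)) := by
    intro y
    have hy : b' y = ∑ i, b (β.repr y i) • b' (β i) := by
      conv_lhs => rw [← β.sum_repr y]
      rw [map_sum]
      refine Finset.sum_congr rfl fun i _ => ?_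
      rw [Algebra.smul_def, Algebra.smul_def, map_mul, hcomm]
    rw [hy]
    exact Submodule.sum_mem _ fun i _ =>
      Submodule.smul_mem _ _ (Submodule.subset_span ⟨i, rfl⟩)
  intro z _
  have hz : z ∈ (IntermediateField.adjoin F₂ {b' x}).toSubalgebra := by
    rw [hgen]; exact Algebra.mem_top
  rw [IntermediateField.adjoin_simple_toSubalgebra_of_isAlgebraic hx.isAlgebraic,
    Algebra.adjoin_singleton_eq_range_aeval] at hz
  obtain ⟨P, rfl⟩ := hz
  show Polynomial.aeval (b' x) P ∈ _
  rw [Polynomial.aeval_eq_sum_range]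
  refine Submodule.sum_mem _ fun k _ => Submodule.smul_mem _ _ ?_
  rw [← map_pow]
  exact hb' _

/-- **norm identity** for a square with `Z = F₂ ⊗_F F₁`. -/
theorem norm_square [FiniteDimensional F F₁] (b : F →+* F₂)
    (b' : F₁ →+* Z) (hcomm : ∀ f : F, algebraMap F₂ Z (b f) = b' (algebraMap F F₁ f))
    (x : F₁) (hx : IsIntegral F₂ (b' x)) (hgen : IntermediateField.adjoin F₂ {b' x} = ⊤)
    (hdeg : Module.finrank F F₁ = Module.finrank F₂ Z) (h : F₁) :
    Algebra.norm F₂ (b' h) = b (Algebra.norm F h) := by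
  classical
  let β := Module.finBasis F F₁
  let β' : Module.Basis (Fin (Module.finrank F F₁)) F₂ Z :=
    basisOfTopLeSpanOfCardEqFinrank (fun i => b' (β i))
      (span_image_basis_eq_top β b b' hcomm x hx hgen) (by rw [Fintype.card_fin, hdeg])
  have hβ' : ∀ i, β' i = b' (β i) := fun i => by
    simp only [β', coe_basisOfTopLeSpanOfCardEqFinrank]
  have hrepr : ∀ (y : F₁) (i), β'.repr (b' y) i = b (β.repr y i) := by
    intro y i
    have hy : b' y = ∑ i, b (β.repr y i) • β' i := by
      conv_lhs => rw [← β.sum_repr y]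
      rw [map_sum]
      refine Finset.sum_congr rfl fun i _ => ?_
      rw [Algebra.smul_def, Algebra.smul_def, map_mul, hcomm, hβ']
    rw [hy, β'.repr_sum_self]
  rw [Algebra.norm_eq_matrix_det β', Algebra.norm_eq_matrix_det β, RingHom.map_det]
  congr 1
  ext i j
  rw [Algebra.leftMulMatrix_eq_repr_mul, hβ', ← map_mul, hrepr, RingHom.mapMatrix_apply,
    Matrix.map_apply, Algebra.leftMulMatrix_eq_repr_mul]

end NormSquare

section Final

variable {K F F₁ F₂ Z : Type*} [Field K] [Field F] [Field F₁] [Field F₂] [Field Z]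
  [Algebra K F] [Algebra K F₁] [Algebra K F₂] [Algebra K Z]

/-- `norm_square` in the `…Along` language. -/
theorem normAlong_square (a : F →ₐ[K] F₁) (b : F →ₐ[K] F₂)
    (a' : F₂ →ₐ[K] Z) (b' : F₁ →ₐ[K] Z) (hcomm : a'.comp b = b'.comp a)
    (hfin : FiniteAlong K a) (ha' : a'.toRingHom.IsIntegral) (x : F₁)
    (hgen : letI := algebraAlong a'; IntermediateField.adjoin F₂ {b' x} = ⊤)
    (hdeg : finrankAlong K a = finrankAlong K a') (h : F₁) :
    normAlong a' (b' h) = b (normAlong a h) := by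
  let _ := algebraAlong a
  let _ := algebraAlong a'
  have : FiniteDimensional F F₁ := hfin
  exact norm_square b.toRingHom b'.toRingHom (fun f => congrArg (fun φ : F →ₐ[K] Z => φ f) hcomm)
    x (ha' _) hgen hdeg h

variable [IsAlgClosed K] [FF.IsFF1 K F] [FF.IsFF1 K F₁] [FF.IsFF1 K F₂] [FF.IsFF1 K Z]

/-- **base change for correspondences**: `(α'_* β'^*) b^* = b^* (α_* β^*)`. -/
theorem correspondence_pullbackAlong (α β : F →ₐ[K] F₁) (b : F →ₐ[K] F₂)
    (α' β' : F₂ →ₐ[K] Z) (b' : F₁ →ₐ[K] Z) (hcα : α'.comp b = b'.comp α)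
    (hcβ : β'.comp b = b'.comp β)
    (hnorm : ∀ h : F₁, normAlong α' (b' h) = b (normAlong α h))
    (hα : α.toRingHom.IsIntegral) (hβ : β.toRingHom.IsIntegral) (hb : b.toRingHom.IsIntegral)
    (hα' : α'.toRingHom.IsIntegral) (hβ' : β'.toRingHom.IsIntegral) (D : Divisor K F) :
    Divisor.correspondence β' α' hβ' hα' (Divisor.pullbackAlong b hb D) =
      Divisor.pullbackAlong b hb (Divisor.correspondence β α hβ hα D) := by
  have hb' : b'.toRingHom.IsIntegral := isIntegral_toRingHom b'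
  rw [Divisor.correspondence_apply, Divisor.correspondence_apply,
    ← pushforwardAlong_pullbackAlong_square α b α' b' hcα hnorm hα hb hα' hb',
    ← pullbackAlong_comp b β' hb hβ' (isIntegral_toRingHom _),
    ← pullbackAlong_comp β b' hβ hb' (isIntegral_toRingHom _)]
  exact congrArg _ (pullbackAlong_congr hcβ _ _ D)

end Final

end Fermat.Agent.S37
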