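import Fermat.Agent.S37.HeckeDict
import Fermat.Agent.GR.HeckeField.Main
import Fermat.Agent.S18.LevelChange

/-!
# S37 / P4 : the divisor of `heckeNorm f` is `T_ℓ (div f)`; behaviour at the place `q = 0`
-/

set_option autoImplicit false
noncomputable section

namespace Fermat.Agent.S37

open ModularCurve AlgebraicCurve Fermat.Agent.S24 Fermat.Agent.GAL.FF Fermat.Agent.GR.HeckeField

variable (N ℓ : ℕ) [NeZero N] [NeZero ℓ]

/-- (a) `div (N_α (β f)) = α_* β^* div f`. -/
theorem ord_heckeNorm (f : FN N) (hf : f ≠ 0) (D : Divisor Kb (FN N)) (hD : ∀ v, D v = v.ord f)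
    (v : Place Kb (FN N)) : v.ord (heckeNorm N ℓ f) = TDiv N ℓ D v := by
  have h := alphaNorm N ℓ
  have h2 := h (heckeBetaBar Kb N ℓ f) (by simpa using hf)
    (Divisor.pullbackAlong (heckeBetaBar Kb N ℓ) (betaIntegral N ℓ) D) (fun w =>
      (Divisor.pullbackAlong_apply (heckeBetaBar Kb N ℓ) (betaIntegral N ℓ) D w).trans (by
        rw [hD]
        exact (Place.ord_restrictAlong (heckeBetaBar Kb N ℓ) (betaIntegral N ℓ) w f).symm)) v
  exact h2.symm

/-- (b) `T_ℓ` is monotone. -/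
theorem TDiv_mono {D D' : Divisor Kb (FN N)} (h : ∀ v, D v ≤ D' v) (v : Place Kb (FN N)) :
    TDiv N ℓ D v ≤ TDiv N ℓ D' v := by
  rw [TDiv_apply, TDiv_apply]
  exact Finset.sum_le_sum fun w _ => mul_le_mul_of_nonneg_left (h _) (Int.natCast_nonneg _)

/-! ## orders of Laurent series -/

theorem hnd_order_coeffMap {R S : Type*} [CommRing R] [CommRing S] (f : R →+* S)
    (hf : Function.Injective f) (x : LaurentSeries R) : (coeffMap f x).order = x.order := by
  by_cases hx : x = 0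
  · simp [hx]
  have hx' : coeffMap f x ≠ 0 := by
    intro h
    apply hx
    ext n
    apply hf
    have := congrArg (fun z : LaurentSeries S => z.coeff n) h
    simpa using this
  apply le_antisymm
  · apply HahnSeries.order_le_of_coeff_ne_zero
    rw [coeffMap_coeff]
    intro h
    exact hx (HahnSeries.coeff_order_eq_zero.mp (hf (by rw [h, map_zero])))
  · apply HahnSeries.order_le_of_coeff_ne_zero
    intro h
    have h2 : (coeffMap f x).coeff (coeffMap f x).order = 0 := by rw [coeffMap_coeff, h, map_zero]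
    exact hx' (HahnSeries.coeff_order_eq_zero.mp h2)

theorem hnd_order_twist {K : Type*} [CommRing K] (ξ : Kˣ) (x : LaurentSeries K) :
    (S28.twist ξ x).order = x.order := by
  have hc : ∀ n, (S28.twist ξ x).coeff n = 0 ↔ x.coeff n = 0 := by
    intro n
    rw [S28.twist_coeff]
    exact Units.mul_right_eq_zero _
  by_cases hx : x = 0
  · simp [hx]
  have hx' : S28.twist ξ x ≠ 0 := by
    intro h
    apply hx
    ext n
    have := congrArg (fun z : LaurentSeries K => z.coeff n) h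
    exact (hc n).mp (by simpa using this)
  apply le_antisymm
  · apply HahnSeries.order_le_of_coeff_ne_zero
    rw [Ne, hc, HahnSeries.coeff_order_eq_zero]
    exact hx
  · apply HahnSeries.order_le_of_coeff_ne_zero
    rw [Ne, ← hc, HahnSeries.coeff_order_eq_zero]
    exact hx'

theorem hnd_order_qExpand {K : Type*} [CommRing K] (s : ℕ) [NeZero s] (x : LaurentSeries K) :
    (qExpand K s x).order = (s : ℤ) * x.order := by
  by_cases hx : x = 0
  · simp [hx]
  · exact S18.order_qExpand s hx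

theorem hnd_order_inv {K : Type*} [Field K] {x : LaurentSeries K} (hx : x ≠ 0) :
    x⁻¹.order = - x.order := by
  have h1 := HahnSeries.order_mul hx (inv_ne_zero hx)
  rw [mul_inv_cancel₀ hx, HahnSeries.order_one] at h1
  omega

/-- the valuation subring `{y | 0 ≤ order (ε y)}` attached to an embedding into Laurent series. -/
def ordSubringOf {F K : Type*} [Field F] [Field K] (ε : F →+* LaurentSeries K) :
    ValuationSubring F where
  carrier := {y | 0 ≤ (ε y).order}
  mul_mem' := by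
    intro a b ha hb
    simp only [Set.mem_ofPred_eq] at ha hb ⊢
    rcases eq_or_ne a 0 with rfl | ha0
    · simp
    rcases eq_or_ne b 0 with rfl | hb0
    · simp
    rw [map_mul, HahnSeries.order_mul ((map_ne_zero ε).mpr ha0) ((map_ne_zero ε).mpr hb0)]
    omega
  one_mem' := by simp
  add_mem' := by
    intro a b ha hb
    simp only [Set.mem_ofPred_eq] at ha hb ⊢
    rw [map_add]
    rcases eq_or_ne (ε a + ε b) 0 with h0 | h0
    · rw [h0]; simp
    · exact le_trans (le_min ha hb) (HahnSeries.min_order_le_order_add h0)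
  zero_mem' := by simp
  neg_mem' := by
    intro a ha
    simp only [Set.mem_ofPred_eq] at ha ⊢
    rw [map_neg, HahnSeries.order_neg]
    exact ha
  mem_or_inv_mem' := by
    intro a
    simp only [Set.mem_ofPred_eq]
    rcases eq_or_ne a 0 with rfl | ha0
    · left; simp
    rw [map_inv₀, hnd_order_inv ((map_ne_zero ε).mpr ha0)]
    omega

theorem mem_ordSubringOf {F K : Type*} [Field F] [Field K] (ε : F →+* LaurentSeries K) (y : F) :
    y ∈ ordSubringOf ε ↔ 0 ≤ (ε y).order := Iff.rfl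

/-! ## the place `q = 0` -/

/-- `v` is the place `q = 0` of `F_M`. -/
def IsInf {M : ℕ} (v : Place Kb (FN M)) : Prop :=
  ∀ x : FN M, x ≠ 0 → v.ord x = (x : LaurentSeries Kb).order

theorem exists_isInf (M : ℕ) : ∃ v : Place Kb (FN M), IsInf v := S18.exists_placeInfty M

theorem IsInf.mem_iff {M : ℕ} {v : Place Kb (FN M)} (h : IsInf v) (x : FN M) :
    x ∈ v.toValuationSubring ↔ 0 ≤ (x : LaurentSeries Kb).order := by
  rcases eq_or_ne x 0 with rfl | hx
  · simp [zero_mem]
  · rw [FF.mem_toValuationSubring_iff v hx, h x hx]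

theorem IsInf.unique {M : ℕ} {v v' : Place Kb (FN M)} (h : IsInf v) (h' : IsInf v') : v = v' :=
  Place.ext (SetLike.ext fun x => by rw [h.mem_iff, h'.mem_iff])

/-- criterion for a restriction to be the place `q = 0`. -/
theorem restrictAlong_eq_of_order {M M' : ℕ} (φ : FN M →ₐ[Kb] FN M')
    (hφ : φ.toRingHom.IsIntegral) (w : Place Kb (FN M')) (o : FN M' → ℤ)
    (how : ∀ y, y ∈ w.toValuationSubring ↔ 0 ≤ o y) (c : ℤ) (hc : 0 < c)
    (hφo : ∀ x, o (φ x) = c * (x : LaurentSeries Kb).order)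
    {v : Place Kb (FN M)} (hv : IsInf v) : w.restrictAlong φ hφ = v := by
  refine Place.ext (SetLike.ext fun x => ?_)
  have h1 : x ∈ (w.restrictAlong φ hφ).toValuationSubring ↔ φ x ∈ w.toValuationSubring := Iff.rfl
  rw [h1, how, hφo, hv.mem_iff, mul_nonneg_iff_of_pos_left hc]

/-! ## the fibre of `β` over `q = 0` -/

theorem hnd_finrankAlong_beta_le (hℓ : ℓ.Prime) :
    finrankAlong Kb (heckeBetaBar Kb N ℓ) ≤ ℓ + 1 := by
  let _ : Algebra (FN N) (FN (N * ℓ)) := (heckeBetaBar Kb N ℓ).toRingHom.toAlgebra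
  obtain ⟨htop, P, hP, hPn, hPJ⟩ := S18.beta_generation N ℓ
  have hint : IsIntegral (FN N) (JJ (N * ℓ)) := ⟨P, hP, hPJ⟩
  have h1 : Module.finrank (FN N) (FN (N * ℓ)) = (minpoly (FN N) (JJ (N * ℓ))).natDegree := by
    rw [← IntermediateField.adjoin.finrank hint, htop, IntermediateField.finrank_top']
  have h2 : (minpoly (FN N) (JJ (N * ℓ))).natDegree ≤ P.natDegree :=
    Polynomial.natDegree_le_of_dvd (minpoly.dvd _ _ hPJ) hP.ne_zero
  have h3 : Nat.card (Cos ℓ) = ℓ + 1 := by
    rw [Fermat.Agent.Lib.Gamma0Cosets.card_quotient]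
    simpa using Fermat.Agent.Lib.Gamma0Cosets.dedekindPsi_prime_pow hℓ 0
  show Module.finrank (FN N) (FN (N * ℓ)) ≤ ℓ + 1
  omega

theorem hnd_order_JJ (M : ℕ) : ((JJ M : FN M) : LaurentSeries Kb).order = -1 :=
  S18.order_JdL_one

theorem hnd_JJ_ne_zero (M : ℕ) : JJ M ≠ 0 := by
  intro h
  have := hnd_order_JJ M
  rw [h] at this
  simp at this

theorem hnd_order_algebraMap (M : ℕ) (a : Kb) :
    ((algebraMap Kb (FN M) a : FN M) : LaurentSeries Kb).order = 0 := by
  have h : ((algebraMap Kb (FN M) a : FN M) : LaurentSeries Kb) = HahnSeries.single 0 a :=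
    algebraMap_laurentSeries_eq_single Kb a
  rw [h]
  by_cases ha : a = 0
  · simp [ha]
  · exact HahnSeries.order_single ha

/-- the second place of `F_{Nℓ}` above `q = 0` (the one which is ramified for `α`). -/
theorem exists_other_place (hℓ : ℓ.Prime) (hN : ¬ ℓ ∣ N) {v : Place Kb (FN N)} (hv : IsInf v)
    {v' : Place Kb (FN (N * ℓ))} (hv' : IsInf v') :
    ∃ R : Place Kb (FN (N * ℓ)), R ≠ v' ∧
      R.restrictAlong (heckeAlphaBar Kb N ℓ) (alphaIntegral N ℓ) = v ∧
      R.restrictAlong (heckeBetaBar Kb N ℓ) (betaIntegral N ℓ) = v := by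
  have hcop : IsCoprime (ℓ : ℤ) (N : ℤ) :=
    Nat.isCoprime_iff_coprime.mpr ((Nat.Prime.coprime_iff_not_dvd hℓ).mpr hN)
  obtain ⟨a, b, hab⟩ := hcop
  have h : a * ℓ - (-b) * N = 1 := by linarith
  set ε : FN (N * ℓ) →+* LaurentSeries ℂ := emb N ℓ (gamB N ℓ a (-b) h 0) with hε
  have hNpos : (0 : ℤ) < (N : ℤ) := by exact_mod_cast Nat.pos_of_ne_zero (NeZero.ne N)
  have hℓpos : (0 : ℤ) < (ℓ : ℤ) := by exact_mod_cast Nat.pos_of_ne_zero (NeZero.ne ℓ)
  have hεα : ∀ x : FN N, (ε (heckeAlphaBar Kb N ℓ x)).order =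
      ((N : ℤ) * ℓ) * (x : LaurentSeries Kb).order := by
    intro x
    have e1 : ε (heckeAlphaBar Kb N ℓ x) = kap (N * ℓ) (alp N ℓ x) :=
      emb_alp N ℓ (gamB_mem N ℓ a (-b) h 0) x
    rw [e1, kap_apply, hnd_order_qExpand, hnd_order_coeffMap iota iota.injective]
    have e2 : ((alp N ℓ x : FN (N * ℓ)) : LaurentSeries Kb) = (x : LaurentSeries Kb) :=
      coe_heckeAlphaBar N ℓ x
    rw [e2]
    push_cast
    ring
  have hεβ : ∀ x : FN N, (ε (heckeBetaBar Kb N ℓ x)).order =
      (N : ℤ) * (x : LaurentSeries Kb).order := by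
    intro x
    have e1 : ε (heckeBetaBar Kb N ℓ x) = _ := emb_gamB_bet N ℓ a (-b) h 0 x
    rw [e1, hnd_order_qExpand, hnd_order_twist, hnd_order_coeffMap iota iota.injective]
  obtain ⟨R, hR⟩ := exists_place_of_valuationSubring (K := Kb) (ordSubringOf ε)
    (by
      intro c
      rw [mem_ordSubringOf, ← (heckeAlphaBar Kb N ℓ).commutes c, hεα, hnd_order_algebraMap,
        mul_zero])
    (by
      intro htop
      have h1 : heckeAlphaBar Kb N ℓ (JJ N) ∈ ordSubringOf ε := by
        rw [htop]; exact ValuationSubring.mem_top _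
      rw [mem_ordSubringOf, hεα, hnd_order_JJ] at h1
      nlinarith)
  have how : ∀ y, y ∈ R.toValuationSubring ↔ 0 ≤ (ε y).order := by
    intro y
    rw [hR]
    exact Iff.rfl
  refine ⟨R, ?_, ?_, ?_⟩
  · rintro rfl
    set y : FN (N * ℓ) := heckeBetaBar Kb N ℓ (JJ N) * (heckeAlphaBar Kb N ℓ (JJ N))⁻¹ with hy
    have hα0 : heckeAlphaBar Kb N ℓ (JJ N) ≠ 0 := by simpa using hnd_JJ_ne_zero N
    have hβ0 : heckeBetaBar Kb N ℓ (JJ N) ≠ 0 := by simpa using hnd_JJ_ne_zero N
    have h1 : y ∈ R.toValuationSubring := by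
      rw [how, hy, map_mul, map_inv₀,
        HahnSeries.order_mul ((map_ne_zero ε).mpr hβ0) (inv_ne_zero ((map_ne_zero ε).mpr hα0)),
        hnd_order_inv ((map_ne_zero ε).mpr hα0), hεα, hεβ, hnd_order_JJ]
      have : (1 : ℤ) ≤ ℓ := by omega
      nlinarith
    rw [hv'.mem_iff, hy] at h1
    have hα0' : ((heckeAlphaBar Kb N ℓ (JJ N) : FN (N * ℓ)) : LaurentSeries Kb) ≠ 0 := by
      simpa using hα0
    have hβ0' : ((heckeBetaBar Kb N ℓ (JJ N) : FN (N * ℓ)) : LaurentSeries Kb) ≠ 0 := by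
      simpa using hβ0
    rw [IntermediateField.coe_mul, IntermediateField.coe_inv,
      HahnSeries.order_mul hβ0' (inv_ne_zero hα0'), hnd_order_inv hα0', coe_heckeAlphaBar,
      coe_heckeBetaBar, hnd_order_qExpand, hnd_order_JJ] at h1
    have : (2 : ℤ) ≤ ℓ := by exact_mod_cast hℓ.two_le
    omega
  · exact restrictAlong_eq_of_order _ _ R (fun y => (ε y).order) how _ (by positivity) hεα hv
  · exact restrictAlong_eq_of_order _ _ R (fun y => (ε y).order) how _ hNpos hεβ hv

theorem hnd_ramificationIndexAlong_pos {K F F' : Type*} [Field K] [Field F] [Field F']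
    [Algebra K F] [Algebra K F'] (φ : F →ₐ[K] F') (hφ : φ.toRingHom.IsIntegral) (w : Place K F') :
    0 < w.ramificationIndexAlong φ := by
  let _ := algebraAlong φ
  have := isScalarTower_along φ
  have := isIntegral_along φ hφ
  exact w.ramificationIndex_pos (F := F)

/-- the place `q = 0` of `F_{Nℓ}` restricts to `q = 0` along `α` and `β`, with `e_β = ℓ`. -/
theorem IsInf.restrict_alpha {v : Place Kb (FN N)} (hv : IsInf v)
    {v' : Place Kb (FN (N * ℓ))} (hv' : IsInf v') :
    v'.restrictAlong (heckeAlphaBar Kb N ℓ) (alphaIntegral N ℓ) = v :=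
  restrictAlong_eq_of_order _ _ v' (fun y => (y : LaurentSeries Kb).order) hv'.mem_iff 1
    one_pos (fun x => by rw [coe_heckeAlphaBar, one_mul]) hv

theorem IsInf.restrict_beta {v : Place Kb (FN N)} (hv : IsInf v)
    {v' : Place Kb (FN (N * ℓ))} (hv' : IsInf v') :
    v'.restrictAlong (heckeBetaBar Kb N ℓ) (betaIntegral N ℓ) = v :=
  restrictAlong_eq_of_order _ _ v' (fun y => (y : LaurentSeries Kb).order) hv'.mem_iff ℓ
    (by exact_mod_cast Nat.pos_of_ne_zero (NeZero.ne ℓ))
    (fun x => by rw [coe_heckeBetaBar, hnd_order_qExpand]) hv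

theorem IsInf.ramificationIndex_beta {v : Place Kb (FN N)} (hv : IsInf v)
    {v' : Place Kb (FN (N * ℓ))} (hv' : IsInf v') :
    v'.ramificationIndexAlong (heckeBetaBar Kb N ℓ) = ℓ := by
  have h := Place.ord_restrictAlong (heckeBetaBar Kb N ℓ) (betaIntegral N ℓ) v' (JJ N)
  have hβ0 : heckeBetaBar Kb N ℓ (JJ N) ≠ 0 := by simpa using hnd_JJ_ne_zero N
  rw [hv.restrict_beta N ℓ hv', hv _ (hnd_JJ_ne_zero N), hv' _ hβ0, coe_heckeBetaBar,
    hnd_order_qExpand, hnd_order_JJ] at h
  have : ((v'.ramificationIndexAlong (heckeBetaBar Kb N ℓ) : ℕ) : ℤ) = ℓ := by linarith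
  exact_mod_cast this

/-- (c) **a place of `F_{Nℓ}` lying over `q = 0` along `β` lies over `q = 0` along `α`.** -/
theorem restrictAlong_alpha_of_beta (hℓ : ℓ.Prime) (hN : ¬ ℓ ∣ N) {v : Place Kb (FN N)}
    (hv : IsInf v) (w : Place Kb (FN (N * ℓ)))
    (hw : w.restrictAlong (heckeBetaBar Kb N ℓ) (betaIntegral N ℓ) = v) :
    w.restrictAlong (heckeAlphaBar Kb N ℓ) (alphaIntegral N ℓ) = v := by
  classical
  obtain ⟨v', hv'⟩ := exists_isInf (N * ℓ)
  obtain ⟨R, hRv', hRα, hRβ⟩ := exists_other_place N ℓ hℓ hN hv hv'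
  by_cases h1 : w = v'
  · rw [h1]; exact hv.restrict_alpha N ℓ hv'
  by_cases h2 : w = R
  · rw [h2]; exact hRα
  exfalso
  have hsum := sum_ramificationIndexAlong (K := Kb) (F := FN N) (F' := FN (N * ℓ))
    (heckeBetaBar Kb N ℓ) (betaIntegral N ℓ) v
  have hle := hnd_finrankAlong_beta_le N ℓ hℓ
  have hsub : ({v', R, w} : Finset (Place Kb (FN (N * ℓ)))) ⊆
      Place.fiberAlong (heckeBetaBar Kb N ℓ) (betaIntegral N ℓ) v := by
    intro x hx
    simp only [Finset.mem_insert, Finset.mem_singleton] at hx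
    refine Place.mem_fiberAlong.mpr ?_
    rcases hx with rfl | rfl | rfl
    · exact hv.restrict_beta N ℓ hv'
    · exact hRβ
    · exact hw
  have h3 := Finset.sum_le_sum_of_subset_of_nonneg (f := fun x : Place Kb (FN (N * ℓ)) =>
    ((x.ramificationIndexAlong (heckeBetaBar Kb N ℓ) : ℕ) : ℤ)) hsub
    (fun _ _ _ => Int.natCast_nonneg _)
  rw [hsum, Finset.sum_insert (by
      simp only [Finset.mem_insert, Finset.mem_singleton, not_or]
      exact ⟨fun h => hRv' h.symm, fun h => h1 h.symm⟩),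
    Finset.sum_insert (by
      simp only [Finset.mem_singleton]
      exact fun h => h2 h.symm), Finset.sum_singleton, hv.ramificationIndex_beta N ℓ hv'] at h3
  have h4 := hnd_ramificationIndexAlong_pos (heckeBetaBar Kb N ℓ) (betaIntegral N ℓ) R
  have h5 := hnd_ramificationIndexAlong_pos (heckeBetaBar Kb N ℓ) (betaIntegral N ℓ) w
  have h6 : ((finrankAlong Kb (heckeBetaBar Kb N ℓ) : ℕ) : ℤ) ≤ ℓ + 1 := by exact_mod_cast hle
  omega

/-- (d) **`f ∈ LL(D) ⟹ heckeNorm f ∈ LL(T_ℓ D)`** (no condition at `q = 0`). -/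
theorem ord_heckeNorm_ge (hℓ : ℓ.Prime) (hN : ¬ ℓ ∣ N) {vinf : Place Kb (FN N)}
    (hinf : IsInf vinf) (D : Divisor Kb (FN N)) (f : FN N) (hf0 : f ≠ 0)
    (hf : ∀ P : Place Kb (FN N), P ≠ vinf → -D P ≤ P.ord f)
    (P : Place Kb (FN N)) (hP : P ≠ vinf) :
    -(TDiv N ℓ D P) ≤ P.ord (heckeNorm N ℓ f) := by
  obtain ⟨E, hE, -⟩ := HasPrincipalDivisors.exists_divisor (K := Kb) f hf0
  rw [ord_heckeNorm N ℓ f hf0 E hE, TDiv_apply, TDiv_apply, ← Finset.sum_neg_distrib]
  refine Finset.sum_le_sum fun w hw => ?_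
  replace hw := Place.mem_fiberAlong.mp hw
  have hne : w.restrictAlong (heckeBetaBar Kb N ℓ) (betaIntegral N ℓ) ≠ vinf := by
    intro h
    exact hP (hw.symm.trans (restrictAlong_alpha_of_beta N ℓ hℓ hN hinf w h))
  have := hf _ hne
  rw [hE, ← mul_neg]
  exact mul_le_mul_of_nonneg_left this (Int.natCast_nonneg _)

/-- `heckeNorm` of a nonzero function is nonzero. -/
theorem heckeNorm_ne_zero (f : FN N) (hf0 : f ≠ 0) : heckeNorm N ℓ f ≠ 0 := by
  let _ : Algebra (FN N) (FN (N * ℓ)) := algFN N ℓ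
  have : Module.Finite (FN N) (FN (N * ℓ)) := alphaFinite N ℓ
  have : Module.Free (FN N) (FN (N * ℓ)) := Module.Free.of_divisionRing _ _
  have hβ0 : heckeBetaBar Kb N ℓ f ≠ 0 := by simpa using hf0
  exact Algebra.norm_ne_zero_iff.mpr hβ0

end Fermat.Agent.S37
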