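import Fermat.Agent.S37.Defs
import Fermat.Prelude.Thm_ModularCurve_coeffMap_qExpand

/-!
# S37 / Pull : pull-back of divisors and divisor classes along `φ`, Galois equivariance
(package S37-16)
-/

set_option autoImplicit false

open ModularCurve AlgebraicCurve

noncomputable section

namespace Fermat.Agent.S37

open Fermat.Agent.S24 Fermat.Agent.GR Fermat.Agent.GR.HeckeField Fermat.Agent.GAL.FF
open Fermat.Agent.S24.FF
open Fermat.Agent.S27 (val cls)

section generic

variable {K F F' : Type*} [Field K] [Field F] [Field F'] [Algebra K F] [Algebra K F']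
  [IsAlgClosed K] [IsFF1 K F] [IsFF1 K F']

/-- pull-back of divisors along `φ`. -/
def pullDiv (φ : F →ₐ[K] F') : Divisor K F →+ Divisor K F' :=
  Divisor.pullbackAlong φ (isIntegral_toRingHom φ)

/-- pull-back of divisor classes of degree `0` along `φ`. -/
def pullPic (φ : F →ₐ[K] F') : Pic0 K F →+ Pic0 K F' :=
  QuotientAddGroup.map _ _
    (((pullDiv φ).domRestrict (Divisor.degZero (K := K) (F := F))).codRestrict
      (Divisor.degZero (K := K) (F := F'))
      (fun D => Divisor.pullbackAlong_mem_degZero φ (isIntegral_toRingHom φ)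
        (fundamentalIdentityAlong φ _) D.2))
    (by
      rintro ⟨D, hD0⟩ hD
      simp only [AddSubgroup.mem_addSubgroupOf] at hD ⊢
      exact Divisor.isPrincipal_pullbackAlong φ (isIntegral_toRingHom φ) hD)

/-! ### package S37-16 -/

theorem pullDiv_apply (φ : F →ₐ[K] F') (D : Divisor K F) (w : Place K F') :
    pullDiv φ D w =
      w.ramificationIndexAlong φ * D (w.restrictAlong φ (isIntegral_toRingHom φ)) :=
  Divisor.pullbackAlong_apply φ _ D w

theorem pullDiv_divOf (φ : F →ₐ[K] F') (f : F) : pullDiv φ (divOf K f) = divOf K (φ f) := by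
  ext w
  rw [pullDiv_apply, divOf_apply, divOf_apply, Place.ord_restrictAlong φ (isIntegral_toRingHom φ)]

theorem degree_pullDiv (φ : F →ₐ[K] F') {D : Divisor K F} (hD : Divisor.degree D = 0) :
    Divisor.degree (pullDiv φ D) = 0 := by
  unfold pullDiv
  rw [Divisor.degree_pullbackAlong φ _ (fundamentalIdentityAlong φ _), hD, mul_zero]

theorem pullPic_cls (φ : F →ₐ[K] F') {D : Divisor K F} (hD : Divisor.degree D = 0) :
    pullPic φ (cls D) = cls (pullDiv φ D) := by
  rw [Fermat.Agent.S27.cls_of_degree hD, Fermat.Agent.S27.cls_of_degree (degree_pullDiv φ hD)]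
  rfl

/-! ### semilinear automorphisms intertwined by `φ` -/

theorem Pull_restrictAlong_smul (φ : F →ₐ[K] F') (g : SemilinearAut K F)
    (g' : SemilinearAut K F') (h : ∀ x : F, g' • φ x = φ (g • x)) (w : Place K F') :
    (g' • w).restrictAlong φ (isIntegral_toRingHom φ) =
      g • w.restrictAlong φ (isIntegral_toRingHom φ) := by
  have hinv : ∀ x : F, g'⁻¹ • φ x = φ (g⁻¹ • x) := by
    intro x
    have hx := h (g⁻¹ • x)
    rw [smul_inv_smul] at hx
    rw [← hx, inv_smul_smul]
  refine Place.ext (SetLike.ext fun x => ?_)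
  have h1 : x ∈ ((g' • w).restrictAlong φ (isIntegral_toRingHom φ)).toValuationSubring ↔
      φ x ∈ (g' • w).toValuationSubring := Iff.rfl
  have h2 : g⁻¹ • x ∈ (w.restrictAlong φ (isIntegral_toRingHom φ)).toValuationSubring ↔
      φ (g⁻¹ • x) ∈ w.toValuationSubring := Iff.rfl
  rw [h1, SemilinearAut.smul_toValuationSubring, SemilinearAut.smul_toValuationSubring,
    ValuationSubring.mem_pointwise_smul_iff_inv_smul_mem,
    ValuationSubring.mem_pointwise_smul_iff_inv_smul_mem, h2, hinv]

theorem Pull_ramificationIndexAlong_smul (φ : F →ₐ[K] F') (g : SemilinearAut K F)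
    (g' : SemilinearAut K F') (h : ∀ x : F, g' • φ x = φ (g • x)) (w : Place K F') :
    (g' • w).ramificationIndexAlong φ = w.ramificationIndexAlong φ := by
  obtain ⟨π, hπ⟩ := exists_ord_eq_one (w.restrictAlong φ (isIntegral_toRingHom φ))
  have h1 := Place.ord_restrictAlong φ (isIntegral_toRingHom φ) w π
  have h2 := Place.ord_restrictAlong φ (isIntegral_toRingHom φ) (g' • w) (g • π)
  rw [Pull_restrictAlong_smul φ g g' h w, SemilinearAut.ord_smul, ← h, SemilinearAut.ord_smul,
    h1, hπ, mul_one, mul_one] at h2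
  exact_mod_cast h2.symm

theorem Pull_pullDiv_smul (φ : F →ₐ[K] F') (g : SemilinearAut K F)
    (g' : SemilinearAut K F') (h : ∀ x : F, g' • φ x = φ (g • x)) (D : Divisor K F) :
    pullDiv φ (g • D) = g' • pullDiv φ D := by
  have hinv : ∀ x : F, g'⁻¹ • φ x = φ (g⁻¹ • x) := by
    intro x
    have hx := h (g⁻¹ • x)
    rw [smul_inv_smul] at hx
    rw [← hx, inv_smul_smul]
  ext w
  rw [pullDiv_apply, SemilinearAut.divisor_smul_apply, SemilinearAut.divisor_smul_apply,
    pullDiv_apply, Pull_restrictAlong_smul φ g⁻¹ g'⁻¹ hinv w,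
    Pull_ramificationIndexAlong_smul φ g⁻¹ g'⁻¹ hinv w]

omit [IsAlgClosed K] [IsFF1 K F] in
theorem Pull_smul_cls (g : SemilinearAut K F) {D : Divisor K F} (hD : Divisor.degree D = 0) :
    g • cls D = cls (g • D) := by
  have hD' : Divisor.degree (g • D) = 0 := by rw [SemilinearAut.degree_smul, hD]
  rw [Fermat.Agent.S27.cls_of_degree hD, Fermat.Agent.S27.cls_of_degree hD',
    SemilinearAut.pic0_smul_mk]
  rfl

theorem Pull_pullPic_smul (φ : F →ₐ[K] F') (g : SemilinearAut K F)
    (g' : SemilinearAut K F') (h : ∀ x : F, g' • φ x = φ (g • x)) (x : Pic0 K F) :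
    pullPic φ (g • x) = g' • pullPic φ x := by
  obtain ⟨D, hD, rfl⟩ := Fermat.Agent.S27.cls_surjective x
  have hD' : Divisor.degree (g • D) = 0 := by rw [SemilinearAut.degree_smul, hD]
  rw [Pull_smul_cls g hD, pullPic_cls φ hD', pullPic_cls φ hD,
    Pull_smul_cls g' (degree_pullDiv φ hD), Pull_pullDiv_smul φ g g' h]

end generic

variable (N p : ℕ) [NeZero N] [NeZero p]

omit [NeZero N] in
/-- the coefficientwise Galois action commutes with `q ↦ q^p`. -/
theorem Pull_gal_smul_bet (σ : GQ) (f : FN N) :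
    gal (N * p) σ • bet N p f = bet N p (gal N σ • f) := by
  apply Subtype.ext
  rw [coe_arithmeticGalois_smul, coe_heckeBetaBar, coe_heckeBetaBar, coe_arithmeticGalois_smul,
    ModularCurve.coeffMap_qExpand]

theorem pullDiv_gal_smul (σ : GQ) (D : Divisor Kb (FN N)) :
    pullDiv (bet N p) (gal N σ • D) = gal (N * p) σ • pullDiv (bet N p) D :=
  Pull_pullDiv_smul (bet N p) (gal N σ) (gal (N * p) σ) (Pull_gal_smul_bet N p σ) D

theorem pullPic_smul (σ : GQ) (x : JZero N) :
    pullPic (bet N p) (σ • x) = σ • pullPic (bet N p) x := by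
  rw [galois_smul_pic0_def, galois_smul_pic0_def]
  exact Pull_pullPic_smul (bet N p) (gal N σ) (gal (N * p) σ) (Pull_gal_smul_bet N p σ) x

end Fermat.Agent.S37
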