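import Fermat.Agent.S37.Near
import Fermat.Agent.S37.Pull
import Fermat.Agent.S37.HeckeNormDiv
import Fermat.Agent.S37.Calculus

/-!
# S37 / Conc : concrete facts for the clauses (k1), (k2), (k3)

Raw facts on `FN M` (no `Lam`): Galois action and the place `∞`, `L(D + *∞)` under Galois and under the
Hecke norm, Gauss reductions under inertia / decomposition group / Frobenius / Hecke norm.
-/

set_option autoImplicit false

open ModularCurve AlgebraicCurve

noncomputable section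

namespace Fermat.Agent.S37.Conc

open Fermat.Agent.S24 Fermat.Agent.GR Fermat.Agent.GR.HeckeField Fermat.Agent.S37
open Fermat.Agent.S27 (val cls)

variable {A : ValuationSubring Kb} {M : ℕ} [NeZero M]

set_option linter.unusedSectionVars false

/-! ## Galois and `∞` -/

theorem order_coeffMap_galois (σ : GQ) (x : LaurentSeries Kb) :
    (coeffMap (σ : Kb →+* Kb) x).order = x.order := by
  by_cases hx : x = 0
  · rw [hx, map_zero]
  have hx' : coeffMap (σ : Kb →+* Kb) x ≠ 0 :=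
    coeffMap_ne_zero_of_injective (RingHom.injective _) hx
  apply le_antisymm
  · apply HahnSeries.order_le_of_coeff_ne_zero
    rw [coeffMap_coeff]
    exact (map_ne_zero _).mpr (HahnSeries.coeff_order_eq_zero.not.mpr hx)
  · apply HahnSeries.order_le_of_coeff_ne_zero
    have := HahnSeries.coeff_order_eq_zero.not.mpr hx'
    rw [coeffMap_coeff] at this
    exact (map_ne_zero _).mp this

theorem isInf_Pinf : IsInf (Pinf M) := fun x _ => Pinf_ord M x

theorem gal_smul_Pinf (σ : GQ) : gal M σ • Pinf M = Pinf M := by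
  apply IsInf.unique _ isInf_Pinf
  intro x _
  have h := SemilinearAut.ord_smul (gal M σ) (Pinf M) ((gal M σ)⁻¹ • x)
  rw [smul_inv_smul] at h
  rw [h, Pinf_ord]
  have h2 := order_coeffMap_galois σ (((gal M σ)⁻¹ • x : FN M) : LaurentSeries Kb)
  rw [← coe_arithmeticGalois_smul] at h2
  change (((gal M σ • (gal M σ)⁻¹ • x : FN M)) : LaurentSeries Kb).order = _ at h2
  rw [smul_inv_smul] at h2
  exact h2.symm

theorem gal_smul_ne_Pinf (σ : GQ) {P : Place Kb (FN M)} (hP : P ≠ Pinf M) :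
    (gal M σ)⁻¹ • P ≠ Pinf M := by
  intro h
  apply hP
  rw [← gal_smul_Pinf σ, ← h, smul_inv_smul]

/-- `L(D + *∞)` is Galois stable. -/
theorem ord_gal_smul_ge (σ : GQ) {D : Divisor Kb (FN M)} {f : FN M}
    (hf : ∀ P : Place Kb (FN M), P ≠ Pinf M → -D P ≤ P.ord f) (P : Place Kb (FN M))
    (hP : P ≠ Pinf M) : -(gal M σ • D) P ≤ P.ord (gal M σ • f) := by
  have h := SemilinearAut.ord_smul (gal M σ) ((gal M σ)⁻¹ • P) f
  rw [smul_inv_smul] at h
  rw [h, SemilinearAut.divisor_smul_apply]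
  exact hf _ (gal_smul_ne_Pinf σ hP)

/-! ## Gauss reductions -/

theorem hasRed_gal_of_inertia {σ : GQ} (hσ : σ ∈ A.inertiaSubgroupIn ℚ) {f : FN M}
    {z : LaurentSeries (kA A)} (h : HasRed A (f : LaurentSeries Kb) z) :
    HasRed A ((gal M σ • f : FN M) : LaurentSeries Kb) z := by
  obtain ⟨hd, hred⟩ := red_decompHom_of_inertia hσ
  rw [coe_arithmeticGalois_smul]
  exact h.map (coeffMap (decompHom σ hd)) (coeffMap (σ : Kb →+* Kb)) id (map_mul _)
    (fun _ _ => rfl) (incl_decompHom σ hd) hred (fun _ hw => hw)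

theorem hasRed_gal_one_of_decomp {σ : GQ} (hσ : σ ∈ A.decompositionSubgroup ℚ) {f : FN M}
    (h : HasRed A (f : LaurentSeries Kb) 1) :
    HasRed A ((gal M σ • f : FN M) : LaurentSeries Kb) 1 := by
  rw [coe_arithmeticGalois_smul]
  let τ : kA A →+* kA A :=
    MulSemiringAction.toRingHom (A.decompositionSubgroup ℚ) (kA A) ⟨σ, hσ⟩
  have := h.map (coeffMap (decompHom σ hσ)) (coeffMap (σ : Kb →+* Kb)) (coeffMap τ) (map_mul _)
    (map_mul _) (incl_decompHom σ hσ)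
    (fun y => by
      ext n
      simp only [coeffMap_coeff]
      exact residue_decompHom σ hσ _)
    (fun _ hw => coeffMap_ne_zero_of_injective (RingHom.injective _) hw)
  rwa [map_one] at this

theorem hasRed_gal_of_frobenius {ℓ : ℕ} [ExpChar (kA A) ℓ] {σ : GQ} (hσ : A.IsFrobeniusAt σ ℓ)
    {f : FN M} {z : LaurentSeries (kA A)} (h : HasRed A (f : LaurentSeries Kb) z) :
    HasRed A ((gal M σ • f : FN M) : LaurentSeries Kb) (coeffMap (frobenius (kA A) ℓ) z) := by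
  rw [coe_arithmeticGalois_smul]
  exact h.map_frobenius hσ

variable (M) in
theorem coe_heckeNorm {ℓ : ℕ} [NeZero ℓ] (hℓ : ℓ.Prime) (hM : ¬ ℓ ∣ M) {ζ : Kbˣ}
    (hζ : IsPrimitiveRoot ζ ℓ) (f : FN M) :
    ((heckeNorm M ℓ f : FN M) : LaurentSeries Kb) = formalT ℓ ζ (f : LaurentSeries Kb) := by
  apply qExpand_injective (R := Kb) ℓ
  rw [qExpand_heckeNorm M ℓ hℓ hM ζ hζ f, formalT, map_mul, qExpand_normU ℓ hζ]
  rfl

theorem hasRed_heckeNorm_gal {ℓ : ℕ} [NeZero ℓ] [ExpChar (kA A) ℓ] (hℓ : ℓ.Prime)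
    (hA : A.LiesOverPrime ℓ) (hM : ¬ ℓ ∣ M) {σ : GQ} (hσ : A.IsFrobeniusAt σ ℓ) {f : FN M}
    {z : LaurentSeries (kA A)} (h : HasRed A (f : LaurentSeries Kb) z) :
    HasRed A ((heckeNorm M ℓ (gal M σ • f) : FN M) : LaurentSeries Kb)
      (z ^ ℓ * coeffMap (frobenius (kA A) ℓ) (coeffMap (frobenius (kA A) ℓ) z)) := by
  obtain ⟨ζ, hζ⟩ : ∃ ζ : Kbˣ, IsPrimitiveRoot ζ ℓ := by
    obtain ⟨ζ, hζ⟩ := HasEnoughRootsOfUnity.exists_primitiveRoot Kb ℓ
    exact ⟨hζ.isUnit (NeZero.ne ℓ) |>.unit, by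
      rw [← IsPrimitiveRoot.coe_units_iff]; exact hζ⟩
  rw [coe_heckeNorm M hℓ hM hζ, ← formalT_one_root_frobenius]
  exact (hasRed_gal_of_frobenius hσ h).map_formalT hℓ hA hζ

/-- `L(D + *∞) → L(T_ℓ D + *∞)`. -/
theorem ord_heckeNorm_ge' {ℓ : ℕ} [NeZero ℓ] (hℓ : ℓ.Prime) (hM : ¬ ℓ ∣ M)
    {D : Divisor Kb (FN M)} {f : FN M} (hf0 : f ≠ 0)
    (hf : ∀ P : Place Kb (FN M), P ≠ Pinf M → -D P ≤ P.ord f) (P : Place Kb (FN M))
    (hP : P ≠ Pinf M) : -(TDiv M ℓ D) P ≤ P.ord (heckeNorm M ℓ f) :=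
  ord_heckeNorm_ge M ℓ hℓ hM isInf_Pinf D f hf0 hf P hP

end Fermat.Agent.S37.Conc
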