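import Fermat.Agent.GAL.KLB.Count

/-!
# S37 / P3 (abstract half) : integral invertibility of the ideal of a point

Setting of `GAL/KLB/Count.lean`: `F/K`, a valuation `v` with reduction map `ρ : O_v → k((q))`, `x` with
`ρ x = q^{-m}(…)`, the dimension count.  `c = x(P)` is integral, `W a = L(a m ∞ + P)`,
`𝔫 = {b regular outside ∞, b(P) = 0}`.  Then there are `z ∈ W a`, `ν ∈ 𝔫`, both of norm `≤ 1`, with
`1 - z ν ∈ 𝔫`.
-/

set_option autoImplicit false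

open Polynomial

noncomputable section

namespace Fermat.Agent.S37

open Fermat.Agent.GAL.KL Fermat.Agent.GAL.KLC Fermat.Agent.GAL.KLB

/-! ## two algebraic lemmas -/

section Alg

variable {k E : Type*} [Field k] [Field E] [Algebra k E]

/-- comaximality of `τ ^ m₀` and `1 - c τ`. -/
theorem invAbs_isInt_of_comax {τ u : E} (c : k) (m₀ : ℕ) (h1 : IsInt k τ (τ ^ m₀ * u))
    (h2 : IsInt k τ ((1 - algebraMap k E c * τ) * u)) : IsInt k τ u := by
  have hcop : IsCoprime ((X : k[X]) ^ m₀) (1 - C c * X) :=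
    IsCoprime.pow_left ⟨C c, 1, by ring⟩
  obtain ⟨α, β, hαβ⟩ := hcop
  have h3 := congrArg (aeval τ) hαβ
  simp only [map_add, map_mul, map_pow, aeval_X, map_sub, map_one, aeval_C] at h3
  have h4 : u = aeval τ α * (τ ^ m₀ * u) + aeval τ β * ((1 - algebraMap k E c * τ) * u) := by
    calc u = 1 * u := (one_mul u).symm
      _ = (aeval τ α * τ ^ m₀ + aeval τ β * (1 - algebraMap k E c * τ)) * u := by rw [h3]
      _ = _ := by ring
  rw [h4]
  exact ((IsInt.aeval α).mul h1).add ((IsInt.aeval β).mul h2)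

/-- the determinant trick. -/
theorem invAbs_isInt_of_mul_mem {ξ θ : E} (N : Set E) (h0 : (0 : E) ∈ N)
    (hadd : ∀ a ∈ N, ∀ b ∈ N, a + b ∈ N)
    (hmul : ∀ (p : k[X]), ∀ n ∈ N, aeval ξ p * n ∈ N) {d : ℕ} (e : Fin d → E)
    (hspan : ∀ n ∈ N, ∃ p : Fin d → k[X], n = comb k ξ p e) (hne : ∃ n ∈ N, n ≠ 0)
    (hθ : ∀ n ∈ N, θ * n ∈ N) : IsInt k ξ θ := by
  letI : Algebra k[X] E := ((aeval ξ : k[X] →ₐ[k] E) : k[X] →+* E).toAlgebra
  have hA : ∀ p : k[X], algebraMap k[X] E p = aeval ξ p := fun _ => rfl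
  rw [LatticeFree.isInt_iff hA]
  let N' : Submodule k[X] E :=
    { carrier := N
      add_mem' := fun ha hb => hadd _ ha _ hb
      zero_mem' := h0
      smul_mem' := fun p n hn => by
        rw [Algebra.smul_def, hA]
        exact hmul p n hn }
  have hle : N' ≤ Submodule.span k[X] (Set.range e) := by
    intro n hn
    obtain ⟨p, rfl⟩ := hspan n hn
    rw [LatticeFree.comb_eq hA]
    exact Submodule.sum_mem _ fun i _ =>
      Submodule.smul_mem _ _ (Submodule.subset_span ⟨i, rfl⟩)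
  have hfg : N'.FG :=
    isNoetherian_submodule.mp (isNoetherian_span_of_finite k[X] (Set.finite_range e)) N' hle
  have hbot : N' ≠ ⊥ := by
    obtain ⟨n, hn, hn0⟩ := hne
    intro h
    have : n ∈ N' := hn
    rw [h, Submodule.mem_bot] at this
    exact hn0 this
  exact isIntegral_of_smul_mem_submodule N' hbot hfg θ (fun n hn => hθ n hn)

end Alg

section Main

variable {K F k Γ₀ : Type*} [Field K] [Field F] [Algebra K F] [Field k]
  [LinearOrderedCommGroupWithZero Γ₀] {v : Valuation F Γ₀} {ρ : v.integer →+* LaurentSeries k}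

/-- `v (x - c) = 1`. -/
theorem invAbs_v_sub {x : F} (hG : Gauss K v x) {c : K} (hc : v (algebraMap K F c) ≤ 1) :
    v (x - algebraMap K F c) = 1 := by
  have h : aeval x (X - C c : K[X]) = x - algebraMap K F c := by simp
  apply le_antisymm
  · exact le_trans (Valuation.map_sub v _ _) (max_le hG.v_t.le hc)
  · have h1 := (hG (X - C c) (v (aeval x (X - C c : K[X])))).mp le_rfl 1
    rw [h] at h1
    simpa [coeff_X, coeff_C] using h1

/-- `{z | (x - c) z ∈ B}`. -/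
def invAbsU (x : F) (c : K) : Submodule K F :=
  (BBs K x).comap (LinearMap.mulLeft K (x - algebraMap K F c))

theorem invAbs_hasFun {x : F} (hG : Gauss K v x) (hfun : HasFun K v (BBs K x)) {c : K}
    (hc : v (algebraMap K F c) ≤ 1) : HasFun K v (invAbsU x c) := by
  intro z hz hz0
  have h1 := invAbs_v_sub hG hc
  have hne : x - algebraMap K F c ≠ 0 := by
    intro h
    rw [h, map_zero] at h1
    exact zero_ne_one h1
  obtain ⟨lam, hl1, hl2⟩ := hfun ((x - algebraMap K F c) * z) hz (mul_ne_zero hne hz0)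
  refine ⟨lam ∘ₗ LinearMap.mulLeft K (x - algebraMap K F c), ?_, ?_⟩
  · simp only [LinearMap.comp_apply, LinearMap.mulLeft_apply]
    rw [hl1, map_mul, h1, one_mul]
  · intro z' hz'
    simp only [LinearMap.comp_apply, LinearMap.mulLeft_apply]
    have := hl2 ((x - algebraMap K F c) * z') hz'
    rwa [Valuation.map_mul, h1, one_mul] at this

variable [IsAlgClosed K] [CharZero K] (hρ : IsRed K v ρ) {x x' : F}
    (hx : x ∈ v.integer) (hx' : x' ∈ v.integer) {m : ℕ} (hm : 0 < m)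
    (hxo : (ρ ⟨x, hx⟩).order = -(m : ℤ)) (hxo' : (ρ ⟨x', hx'⟩).order = -(m : ℤ) + 1)
    (hSp : Spans K x (fun i : Fin m => x' ^ (i : ℕ))) {g : ℕ}
    (hRI : ∀ a : ℕ, ((a * m + 1 : ℕ) : ℤ) - g ≤ Module.finrank K (LL K x a))
    (f : Fin g → LaurentSeries k) (hf : LinearIndependent k f) (hf0 : ∀ j, 0 < (f j).order)
    (hb2 : ∀ z : v.integer, IsInt k (ρ ⟨x, hx⟩) (ρ z) → ∀ j, (ρ z * f j).coeff 0 = 0)
    {c : K} (hc : v (algebraMap K F c) ≤ 1)
    (W : ℕ → Submodule K F)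
    (hW1 : ∀ a, ∀ z ∈ W a, IsInt K x ((x - algebraMap K F c) * z))
    (hW2 : ∀ a, ∀ z ∈ W a, IsInt K x⁻¹ (x⁻¹ ^ a * ((1 - algebraMap K F c * x⁻¹) * z)))
    (hW3 : ∀ a : ℕ, ((a * m + 2 : ℕ) : ℤ) - g ≤ Module.finrank K (W a))

include hρ hx' hm hxo hxo' hSp hRI hf hf0 hb2 hc hW1 hW2 hW3 in
/-- some element of `W a ∩ O_v` has a reduction which is not integral over `k[ξ]`. -/
theorem invAbs_exists_not_isInt :
    ∃ (a : ℕ) (z : v.integer), (z : F) ∈ W a ∧ ¬ IsInt k (ρ ⟨x, hx⟩) (ρ z) := by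
  have hG : Gauss K v x := gauss_of_isRed hρ hx (by rw [hxo]; omega)
  have hON := on_of_isRed hρ hx hx' hm hxo hxo'
  obtain ⟨a₀, ha₀⟩ := exists_redW_LL_eq hρ hx hx' hm hxo hxo' hSp hRI f hf hf0 hb2
  obtain ⟨-, hfin, hdim, -⟩ := ha₀ a₀ le_rfl
  refine ⟨a₀, ?_⟩
  by_contra hcon
  push Not at hcon
  have hW3a := hW3 a₀
  have hpos : 0 < Module.finrank K (W a₀) := by
    push_cast at hW3a
    have : (Module.finrank k (Bbar hρ (ρ ⟨x, hx⟩) a₀) : ℤ) + g = a₀ * m + 1 := by exact_mod_cast hdim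
    omega
  haveI : FiniteDimensional K (W a₀) := Module.finite_of_finrank_pos hpos
  obtain ⟨z, hzW, hzli⟩ := exists_linearIndependent_red hρ
    (invAbs_hasFun hG (hasFun_BBs hG _ hON hSp) hc) (W a₀) (fun z hz => hW1 a₀ z hz)
  set X : v.integer := ⟨x, hx⟩ with hX
  have hξ0 : ρ X ≠ 0 := by
    intro h
    rw [h, HahnSeries.order_zero] at hxo
    omega
  have hmem : ∀ i, ρ (z i) ∈ Bbar hρ (ρ X) a₀ := by
    intro i
    have h3 : IsInt k (ρ X) (ρ (z i)) := hcon (z i) (hzW i)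
    refine ⟨⟨h3, ?_⟩, z i, rfl⟩
    obtain ⟨m₀, hm₀⟩ := IsInt.shift (t := (ρ X)⁻¹) (inv_ne_zero hξ0) (by rw [inv_inv]; exact h3)
    have h1 := isInt_rho hρ (invInt X hG.v_t) hG.inv _ (hON.inv hG) (hSp.inv hG.ne_zero)
      (invInt X hG.v_t ^ a₀ * ((1 - toInt K v ⟨c, hc⟩ * invInt X hG.v_t) * z i))
      (hW2 a₀ _ (hzW i))
    rw [map_mul, map_pow, map_mul, map_sub, map_one, map_mul, rho_invInt, rho_toInt' hρ] at h1
    apply invAbs_isInt_of_comax (resK hρ ⟨c, hc⟩) m₀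
    · have := hm₀ (m₀ + a₀) (Nat.le_add_right _ _)
      rwa [pow_add, mul_assoc] at this
    · have e : algebraMap k (LaurentSeries k) (resK hρ ⟨c, hc⟩) = HahnSeries.C (resK hρ ⟨c, hc⟩) :=
        ModularCurve.algebraMap_laurentSeries_eq_single k _
      rw [e, mul_left_comm]
      exact h1
  have hle : Submodule.span k (Set.range fun i => ρ (z i)) ≤ Bbar hρ (ρ X) a₀ :=
    Submodule.span_le.mpr (by rintro _ ⟨i, rfl⟩; exact hmem i)
  have h1 := Submodule.finrank_mono hle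
  rw [finrank_span_eq_card hzli, Fintype.card_fin] at h1
  push_cast at hW3a
  have : (Module.finrank k (Bbar hρ (ρ X) a₀) : ℤ) + g = a₀ * m + 1 := by exact_mod_cast hdim
  omega

variable (𝔫 : Submodule K F) (hn1 : ∀ ν ∈ 𝔫, IsInt K x ν)
    (hn2 : ∀ b, IsInt K x b → ∀ ν ∈ 𝔫, b * ν ∈ 𝔫)
    (hn3 : x - algebraMap K F c ∈ 𝔫)
    (hn4 : ∀ b, IsInt K x b → v b ≤ 1 →
      ∃ e : K, v (algebraMap K F e) ≤ 1 ∧ b - algebraMap K F e ∈ 𝔫)
    (hn5 : ∀ a, ∀ z ∈ W a, ∀ ν ∈ 𝔫, IsInt K x (z * ν))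

include hn2 in
theorem invAbs_mul_mem (p : k[X]) : ∀ n ∈ redW hρ 𝔫, aeval (ρ ⟨x, hx⟩) p * n ∈ redW hρ 𝔫 := by
  rintro _ ⟨ν, hν, rfl⟩
  obtain ⟨P, rfl⟩ := Polynomial.map_surjective _ (resK_surjective hρ) p
  refine ⟨eval₂ (toInt K v) ⟨x, hx⟩ P * ν, ?_, ?_⟩
  · have : ((eval₂ (toInt K v) ⟨x, hx⟩ P * ν : v.integer) : F)
        = aeval x (P.map (AK K v).subtype) * (ν : F) := by
      rw [← coe_eval₂_toInt (K := K) (v := v) ⟨x, hx⟩ P]; rfl
    rw [this]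
    exact hn2 _ (IsInt.aeval _) _ hν
  · rw [map_mul, rho_aeval]

include hρ hx' hm hxo hxo' hSp hn1 in
theorem invAbs_exists_span : ∃ e : Fin m → LaurentSeries k, ∀ n ∈ redW hρ 𝔫,
    ∃ p : Fin m → k[X], n = comb k (ρ ⟨x, hx⟩) p e := by
  have hG : Gauss K v x := gauss_of_isRed hρ hx (by rw [hxo]; omega)
  have hON := on_of_isRed hρ hx hx' hm hxo hxo'
  obtain ⟨b, hb⟩ := exists_basis_BB hG.inj _ (hON.inj hG) hSp
  obtain ⟨e, he, heON⟩ := exists_ON_basis hG _ hON hSp _ b hb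
  refine ⟨fun i => ρ ⟨e i, (heON.v_eq_one i).le⟩, ?_⟩
  rintro _ ⟨ν, hν, rfl⟩
  obtain ⟨p, hp⟩ := (he.2 (ν : F)).mp (hn1 _ hν)
  have h1 : ∀ i, v (aeval x (p i)) ≤ 1 := (heON p 1).mp (hp ▸ ν.2)
  have h2 : ∀ i, ∃ P : (AK K v)[X], P.map (AK K v).subtype = p i := fun i =>
    Fermat.Agent.GAL.KLB.exists_lift_poly (p i) ((hG (p i) 1).mp (h1 i))
  choose P hP using h2
  refine ⟨fun i => (P i).map (resK hρ), ?_⟩
  have h3 : ν = ∑ i, eval₂ (toInt K v) ⟨x, hx⟩ (P i) * ⟨e i, (heON.v_eq_one i).le⟩ := by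
    apply Subtype.ext
    rw [hp, comb]
    push_cast
    refine Finset.sum_congr rfl fun i _ => ?_
    rw [coe_eval₂_toInt, hP]
  rw [h3, map_sum, comb]
  refine Finset.sum_congr rfl fun i _ => ?_
  rw [map_mul, rho_aeval]

include hρ hx' hm hxo hxo' hSp hRI hf hf0 hb2 hc hW1 hW2 hW3 hn1 hn2 hn3 hn4 hn5 in
/-- **(INV), abstract form.** -/
theorem inv_abs : ∃ a : ℕ, ∃ z ∈ W a, ∃ ν ∈ 𝔫, v z ≤ 1 ∧ v ν ≤ 1 ∧ 1 - z * ν ∈ 𝔫 := by
  have hG : Gauss K v x := gauss_of_isRed hρ hx (by rw [hxo]; omega)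
  obtain ⟨a, z, hzW, hzint⟩ := invAbs_exists_not_isInt hρ hx hx' hm hxo hxo' hSp hRI f hf hf0 hb2
    hc W hW1 hW2 hW3
  by_contra hcon
  push Not at hcon
  apply hzint
  obtain ⟨e, he⟩ := invAbs_exists_span hρ hx hx' hm hxo hxo' hSp 𝔫 hn1
  refine invAbs_isInt_of_mul_mem (redW hρ 𝔫 : Set (LaurentSeries k)) (redW hρ 𝔫).zero_mem
    (fun a ha b hb => (redW hρ 𝔫).add_mem ha hb) (invAbs_mul_mem hρ hx 𝔫 hn2) e he ?_ ?_
  · have h1 := invAbs_v_sub hG hc
    refine ⟨ρ ⟨x - algebraMap K F c, h1.le⟩, ⟨_, hn3, rfl⟩, ?_⟩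
    intro h
    have := (hρ.ker _).mp h
    rw [h1] at this
    exact lt_irrefl _ this
  · rintro _ ⟨ν, hν, rfl⟩
    obtain ⟨e₀, he₀, hmem⟩ := hn4 ((z : F) * (ν : F)) (hn5 a _ hzW _ hν) (z * ν).2
    rcases lt_or_eq_of_le he₀ with hlt | heq
    · refine ⟨z * ν - toInt K v ⟨e₀, he₀⟩, hmem, ?_⟩
      rw [map_sub, map_mul, rho_toInt' hρ, (resK_eq_zero_iff hρ ⟨e₀, he₀⟩).mpr hlt, map_zero,
        sub_zero]
    · exfalso
      have he0 : algebraMap K F e₀ ≠ 0 := by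
        intro h
        rw [h, map_zero] at heq
        exact zero_ne_one heq
      have he0' : e₀ ≠ 0 := by
        rintro rfl
        exact he0 (map_zero _)
      refine hcon a z hzW (e₀⁻¹ • (ν : F)) (𝔫.smul_mem _ hν) z.2 ?_ ?_
      · rw [Algebra.smul_def, map_mul, map_inv₀, map_inv₀, heq, inv_one, one_mul]
        exact ν.2
      · have : 1 - (z : F) * (e₀⁻¹ • (ν : F)) = (-e₀⁻¹) • ((z : F) * (ν : F) - algebraMap K F e₀) := by
          rw [Algebra.smul_def, Algebra.smul_def, map_neg, map_inv₀]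
          field_simp
          ring
        rw [this]
        exact 𝔫.smul_mem _ hmem

end Main

end Fermat.Agent.S37
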