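import Fermat.Agent.S37.InvAbs
import Fermat.Agent.GAL.KLC.LLeqL
import Fermat.Agent.GAL.FF.Riemann
import Fermat.Agent.S27.A.Api

/-!
# S37 / P3 : (INV) for a place `P` of a function field (`inv_abs` + the dictionary with places)
-/

set_option autoImplicit false

open Polynomial AlgebraicCurve

noncomputable section

namespace Fermat.Agent.S37

open Fermat.Agent.GAL.KL Fermat.Agent.GAL.KLC Fermat.Agent.GAL.KLB Fermat.Agent.S24.FF
open Fermat.Agent.GAL.FF
open Fermat.Agent.S27 (val)

variable {K F k Γ₀ : Type*} [Field K] [Field F] [Algebra K F] [Field k]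
  [LinearOrderedCommGroupWithZero Γ₀] {v : Valuation F Γ₀} {ρ : v.integer →+* LaurentSeries k}

section Places

variable [IsAlgClosed K] [IsFF1 K F] {x : F} (P : Place K F)

/-- `L(a (x)_∞ + P)`. -/
def invW (x : F) (P : Place K F) (a : ℕ) : Submodule K F :=
  riemannRochSpace (a • poleDiv K x + Finsupp.single P 1)

theorem invW_ord_self {a : ℕ} {z : F} (hz : z ∈ invW x P a) (hz0 : z ≠ 0) :
    -((a : ℤ) * max 0 (-P.ord x) + 1) ≤ P.ord z := by
  have h := (mem_riemannRochSpace_iff.mp hz P).resolve_left hz0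
  rwa [Finsupp.add_apply, Finsupp.smul_apply, poleDiv_apply, nsmul_eq_mul,
    Finsupp.single_eq_same] at h

theorem invW_ord_ne {a : ℕ} {z : F} (hz : z ∈ invW x P a) (hz0 : z ≠ 0) {Q : Place K F}
    (hQ : Q ≠ P) : -((a : ℤ) * max 0 (-Q.ord x)) ≤ Q.ord z := by
  have h := (mem_riemannRochSpace_iff.mp hz Q).resolve_left hz0
  rwa [Finsupp.add_apply, Finsupp.smul_apply, poleDiv_apply, nsmul_eq_mul,
    Finsupp.single_eq_of_ne hQ, add_zero] at h

/-- the ideal of `P` in the chart ring. -/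
def invN (x : F) (P : Place K F) (hP : 0 ≤ P.ord x)
    (H : ∀ z : F, IsInt K x z ↔ ∀ Q : Place K F, 0 ≤ Q.ord x → 0 ≤ Q.ord z) : Submodule K F where
  carrier := {b | IsInt K x b ∧ val P b = 0}
  add_mem' := by
    rintro a b ⟨ha, ha0⟩ ⟨hb, hb0⟩
    refine ⟨ha.add hb, ?_⟩
    rw [Fermat.Agent.S27.val_add P ((H a).mp ha P hP) ((H b).mp hb P hP), ha0, hb0, add_zero]
  zero_mem' := ⟨IsInt.zero, Fermat.Agent.S27.val_zero P⟩
  smul_mem' := by
    rintro c b ⟨hb, hb0⟩
    refine ⟨by rw [Algebra.smul_def]; exact (IsInt.algebraMap c).mul hb, ?_⟩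
    rw [Fermat.Agent.S27.val_smul P c ((H b).mp hb P hP), hb0, mul_zero]

end Places

section Main

variable [IsAlgClosed K] [CharZero K] [IsFF1 K F]

/-- **(INV) at a place `P`** (not a pole of `x`) at which integral regular functions take integral
values. -/
theorem inv_places (hρ : IsRed K v ρ) {x x' : F}
    (hx : x ∈ v.integer) (hx' : x' ∈ v.integer) {m : ℕ} (hm : 0 < m)
    (hxo : (ρ ⟨x, hx⟩).order = -(m : ℤ)) (hxo' : (ρ ⟨x', hx'⟩).order = -(m : ℤ) + 1)
    (hSp : Spans K x (fun i : Fin m => x' ^ (i : ℕ))) {g : ℕ}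
    (hRiem : ∀ D : Divisor K F, Divisor.degree D + 1 - (g : ℤ) ≤ ell D)
    (f : Fin g → LaurentSeries k) (hf : LinearIndependent k f) (hf0 : ∀ j, 0 < (f j).order)
    (hb2 : ∀ z : v.integer, IsInt k (ρ ⟨x, hx⟩) (ρ z) → ∀ j, (ρ z * f j).coeff 0 = 0)
    (P : Place K F) (hP : 0 ≤ P.ord x)
    (hfin : ∀ b : F, IsInt K x b → v b ≤ 1 → v (algebraMap K F (val P b)) ≤ 1) :
    ∃ z ν : F, v z ≤ 1 ∧ v ν ≤ 1 ∧ -1 ≤ P.ord z ∧
      (∀ Q : Place K F, 0 ≤ Q.ord x → Q ≠ P → 0 ≤ Q.ord z) ∧
      IsInt K x ν ∧ val P ν = 0 ∧ IsInt K x (1 - z * ν) ∧ val P (1 - z * ν) = 0 := by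
  have hG : Gauss K v x := gauss_of_isRed hρ hx (by rw [hxo]; omega)
  have hON := on_of_isRed hρ hx hx' hm hxo hxo'
  have ht : Transcendental K x := by
    rw [transcendental_iff]
    exact fun p hp => hG.inj p hp
  have ht' : Transcendental K x⁻¹ := transcendental_inv ht
  have hx0 : x ≠ 0 := hG.ne_zero
  have H := isInt_iff_forall_ord ht
  have H' := isInt_iff_forall_ord ht'
  have hdeg : Divisor.degree (poleDiv K x) = (m : ℤ) := by
    rw [degree_poleDiv ht, finrank_adjoin_of_spans _ hm hSp (hON.inj hG)]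
  set c : K := val P x with hc
  have hcv : v (algebraMap K F c) ≤ 1 := hfin x (by simpa using IsInt.aeval (L := K) (t := x) X) hx
  have hxc : x - algebraMap K F c ≠ 0 := by
    intro h
    apply ht
    rw [sub_eq_zero.mp h]
    exact isAlgebraic_algebraMap c
  have hxcP : 0 < P.ord (x - algebraMap K F c) :=
    (Fermat.Agent.S27.val_spec' P hP).resolve_left hxc
  have hRI : ∀ a : ℕ, ((a * m + 1 : ℕ) : ℤ) - g ≤ Module.finrank K (LL K x a) := by
    intro a
    rw [LL_eq_L ht a]
    have := hRiem (a • poleDiv K x)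
    rw [map_nsmul, hdeg, nsmul_eq_mul] at this
    push_cast
    exact this
  have hW1 : ∀ a, ∀ z ∈ invW x P a, IsInt K x ((x - algebraMap K F c) * z) := by
    intro a z hz
    rw [H]
    intro Q hQ
    rcases eq_or_ne z 0 with rfl | hz0
    · rw [mul_zero, Place.ord_zero]
    rw [Q.ord_mul hxc hz0]
    rcases eq_or_ne Q P with rfl | hQP
    · have := invW_ord_self Q hz hz0
      rw [max_eq_left (by omega)] at this
      omega
    · have := invW_ord_ne P hz hz0 hQP
      rw [max_eq_left (by omega)] at this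
      have h2 := Fermat.Agent.S27.ord_sub_nonneg Q hQ (Fermat.Agent.S27.ord_algebraMap_nonneg Q c)
      omega
  have hW2 : ∀ a, ∀ z ∈ invW x P a,
      IsInt K x⁻¹ (x⁻¹ ^ a * ((1 - algebraMap K F c * x⁻¹) * z)) := by
    intro a z hz
    rw [H']
    intro Q hQ
    rw [Q.ord_inv] at hQ
    rcases eq_or_ne z 0 with rfl | hz0
    · rw [mul_zero, mul_zero, Place.ord_zero]
    have e1 : 1 - algebraMap K F c * x⁻¹ = x⁻¹ * (x - algebraMap K F c) := by
      field_simp
    have hne1 : x⁻¹ * (x - algebraMap K F c) ≠ 0 := mul_ne_zero (inv_ne_zero hx0) hxc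
    rw [e1, Q.ord_mul (pow_ne_zero _ (inv_ne_zero hx0)) (mul_ne_zero hne1 hz0),
      Q.ord_mul hne1 hz0, Q.ord_mul (inv_ne_zero hx0) hxc, ord_pow, Q.ord_inv]
    rcases eq_or_ne Q P with rfl | hQP
    · have h0 : Q.ord x = 0 := le_antisymm (by omega) hP
      have := invW_ord_self Q hz hz0
      rw [h0] at this ⊢
      simp only [neg_zero, max_self, mul_zero, zero_add] at this ⊢
      omega
    · have := invW_ord_ne P hz hz0 hQP
      rw [max_eq_right (by omega)] at this
      rcases lt_or_eq_of_le (show Q.ord x ≤ 0 by omega) with hlt | heq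
      · rw [ord_sub_algebraMap_of_pole Q hlt c]
        linarith
      · have h2 := Fermat.Agent.S27.ord_sub_nonneg Q heq.ge
          (Fermat.Agent.S27.ord_algebraMap_nonneg Q c)
        rw [heq] at this ⊢
        simp only [neg_zero, mul_zero] at this ⊢
        omega
  have hW3 : ∀ a : ℕ, ((a * m + 2 : ℕ) : ℤ) - g ≤ Module.finrank K (invW x P a) := by
    intro a
    have := hRiem (a • poleDiv K x + Finsupp.single P 1)
    rw [map_add, map_nsmul, hdeg, nsmul_eq_mul, degree_single_one] at this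
    push_cast
    have e : (ell (a • poleDiv K x + Finsupp.single P 1) : ℤ)
        = (Module.finrank K (invW x P a) : ℤ) := rfl
    rw [e] at this
    linarith
  obtain ⟨a, z, hz, ν, hν, hvz, hvν, h1⟩ := inv_abs hρ hx hx' hm hxo hxo' hSp hRI f hf hf0 hb2 hcv
    (invW x P) hW1 hW2 hW3 (invN x P hP H) (fun ν hν => hν.1)
    (by
      rintro b hb ν ⟨hν, hν0⟩
      refine ⟨hb.mul hν, ?_⟩
      rw [Fermat.Agent.S27.val_mul P ((H b).mp hb P hP) ((H ν).mp hν P hP), hν0, mul_zero])
    (by
      refine ⟨(by simpa using IsInt.aeval (L := K) (t := x) X : IsInt K x x).sub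
        (IsInt.algebraMap c), ?_⟩
      exact Fermat.Agent.S27.val_eq_zero_of_ord_pos P hxcP)
    (by
      intro b hb hvb
      refine ⟨val P b, hfin b hb hvb, hb.sub (IsInt.algebraMap _), ?_⟩
      rw [Fermat.Agent.S27.val_sub P ((H b).mp hb P hP)
        (Fermat.Agent.S27.ord_algebraMap_nonneg P _), Fermat.Agent.S27.val_algebraMap, sub_self])
    (by
      rintro a z hz ν ⟨hν, hν0⟩
      rw [H]
      intro Q hQ
      rcases eq_or_ne z 0 with rfl | hz0
      · rw [zero_mul, Place.ord_zero]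
      rcases eq_or_ne ν 0 with rfl | hν00
      · rw [mul_zero, Place.ord_zero]
      rw [Q.ord_mul hz0 hν00]
      rcases eq_or_ne Q P with rfl | hQP
      · have := invW_ord_self Q hz hz0
        rw [max_eq_left (by omega)] at this
        have h2 := ((Fermat.Agent.S27.val_eq_zero_iff Q ((H ν).mp hν Q hQ)).mp hν0).resolve_left
          hν00
        omega
      · have := invW_ord_ne P hz hz0 hQP
        rw [max_eq_left (by omega)] at this
        have h2 := (H ν).mp hν Q hQ
        omega)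
  refine ⟨z, ν, hvz, hvν, ?_, ?_, hν.1, hν.2, h1.1, h1.2⟩
  · rcases eq_or_ne z 0 with rfl | hz0
    · rw [Place.ord_zero]; omega
    have := invW_ord_self P hz hz0
    rw [max_eq_left (by omega)] at this
    omega
  · intro Q hQ hQP
    rcases eq_or_ne z 0 with rfl | hz0
    · rw [Place.ord_zero]
    have := invW_ord_ne P hz hz0 hQP
    rw [max_eq_left (by omega)] at this
    omega

end Main

end Fermat.Agent.S37
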