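import Fermat.Agent.S37.Defs

/-!
# S37 / Near : calculus of the relation `Near A M D`, the subgroup `K0 A M`   (package S37-01)
-/

set_option autoImplicit false

open ModularCurve AlgebraicCurve

noncomputable section

namespace Fermat.Agent.S37

open Fermat.Agent.S24 Fermat.Agent.GR
open Fermat.Agent.S27 (val cls)

variable {A : ValuationSubring Kb} {M : ℕ} [NeZero M]

omit [NeZero M] in
theorem Near_ne_zero {φ : FN M} (h : HasRed A (φ : LaurentSeries Kb) 1) : φ ≠ 0 := by
  rintro rfl
  exact h.ne_zero one_ne_zero rfl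

theorem Near.zero : Near A M 0 :=
  ⟨1, 1, HasRed.one, HasRed.one, fun P _ => by simp, fun P _ => by simp⟩

theorem Near.add {D D' : Divisor Kb (FN M)} (h : Near A M D) (h' : Near A M D') :
    Near A M (D + D') := by
  obtain ⟨φ, ψ, hφ, hψ, h1, h2⟩ := h
  obtain ⟨φ', ψ', hφ', hψ', h1', h2'⟩ := h'
  refine ⟨φ * φ', ψ * ψ', ?_, ?_, fun P hP => ?_, fun P hP => ?_⟩
  · have := hφ.mul hφ'
    rwa [one_mul] at this
  · have := hψ.mul hψ'
    rwa [one_mul] at this
  · rw [P.ord_mul (Near_ne_zero hφ) (Near_ne_zero hφ'), Finsupp.add_apply]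
    have := h1 P hP
    have := h1' P hP
    omega
  · rw [P.ord_mul (Near_ne_zero hψ) (Near_ne_zero hψ'), Finsupp.add_apply]
    have := h2 P hP
    have := h2' P hP
    omega

theorem Near.neg {D : Divisor Kb (FN M)} (h : Near A M D) : Near A M (-D) := by
  obtain ⟨φ, ψ, hφ, hψ, h1, h2⟩ := h
  refine ⟨ψ, φ, hψ, hφ, fun P hP => ?_, fun P hP => ?_⟩
  · rw [Finsupp.neg_apply, neg_neg]
    exact h2 P hP
  · rw [Finsupp.neg_apply]
    exact h1 P hP

theorem Near.sub {D D' : Divisor Kb (FN M)} (h : Near A M D) (h' : Near A M D') :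
    Near A M (D - D') := by
  rw [sub_eq_add_neg]
  exact h.add h'.neg

theorem Near.nsmul {D : Divisor Kb (FN M)} (h : Near A M D) (n : ℕ) : Near A M (n • D) := by
  induction n with
  | zero => rw [zero_smul]; exact Near.zero
  | succ n ih => rw [succ_nsmul]; exact ih.add h

theorem Near.zsmul {D : Divisor Kb (FN M)} (h : Near A M D) (n : ℤ) : Near A M (n • D) := by
  obtain ⟨m, rfl | rfl⟩ := n.eq_nat_or_neg
  · rw [natCast_zsmul]
    exact h.nsmul m
  · rw [neg_smul, natCast_zsmul]
    exact (h.nsmul m).neg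

theorem Near.sum {ι : Type*} (s : Finset ι) (D : ι → Divisor Kb (FN M))
    (h : ∀ i ∈ s, Near A M (D i)) : Near A M (∑ i ∈ s, D i) := by
  classical
  induction s using Finset.induction_on with
  | empty => rw [Finset.sum_empty]; exact Near.zero
  | insert a s ha ih =>
    rw [Finset.sum_insert ha]
    exact (h a (Finset.mem_insert_self a s)).add
      (ih fun i hi => h i (Finset.mem_insert_of_mem hi))

/-- `Near` does not see the coefficient at `∞`. -/
theorem Near.congr {D D' : Divisor Kb (FN M)} (h : Near A M D)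
    (hDD' : ∀ P : Place Kb (FN M), P ≠ Pinf M → D P = D' P) : Near A M D' := by
  obtain ⟨φ, ψ, hφ, hψ, h1, h2⟩ := h
  refine ⟨φ, ψ, hφ, hψ, fun P hP => ?_, fun P hP => ?_⟩
  · rw [← hDD' P hP]
    exact h1 P hP
  · rw [← hDD' P hP]
    exact h2 P hP

theorem near_single_Pinf (n : ℤ) : Near A M (Finsupp.single (Pinf M) n) := by
  refine Near.zero.congr fun P hP => ?_
  rw [Finsupp.single_eq_of_ne hP]
  rfl

/-- additivity: it suffices to check a `Near` statement for an additive map on single places. -/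
theorem near_of_forall_single {Φ : Divisor Kb (FN M) →+ Divisor Kb (FN M)}
    (h : ∀ P : Place Kb (FN M), Near A M (Φ (Finsupp.single P 1))) (D : Divisor Kb (FN M)) :
    Near A M (Φ D) := by
  induction D using Finsupp.induction_linear with
  | zero => rw [map_zero]; exact Near.zero
  | add D D' hD hD' => rw [map_add]; exact hD.add hD'
  | single P n =>
    have h1 : (Finsupp.single P n : Divisor Kb (FN M)) = n • Finsupp.single P 1 := by
      rw [Finsupp.smul_single, smul_eq_mul, mul_one]
    rw [h1, map_zsmul]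
    exact (h P).zsmul n

theorem mem_K0_iff {x : JZero M} :
    x ∈ K0 A M ↔ ∃ D : Divisor Kb (FN M), Divisor.degree D = 0 ∧ Near A M D ∧ cls D = x := by
  constructor
  · intro hx
    unfold K0 at hx
    induction hx using AddSubgroup.closure_induction with
    | mem x hx => exact hx
    | zero => exact ⟨0, map_zero _, Near.zero, Fermat.Agent.S27.cls_zero⟩
    | add x y _ _ hx hy =>
      obtain ⟨D, hD, hN, rfl⟩ := hx
      obtain ⟨D', hD', hN', rfl⟩ := hy
      exact ⟨D + D', by rw [map_add, hD, hD', add_zero], hN.add hN',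
        Fermat.Agent.S27.cls_add hD hD'⟩
    | neg x _ hx =>
      obtain ⟨D, hD, hN, rfl⟩ := hx
      exact ⟨-D, by rw [map_neg, hD, neg_zero], hN.neg, Fermat.Agent.S27.cls_neg D⟩
  · intro hx
    exact AddSubgroup.subset_closure hx

theorem cls_mem_K0 {D : Divisor Kb (FN M)} (hD : Divisor.degree D = 0) (h : Near A M D) :
    cls D ∈ K0 A M :=
  mem_K0_iff.mpr ⟨D, hD, h, rfl⟩

end Fermat.Agent.S37
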