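import Fermat.Prelude.Def_HeckeGalois_EichlerShimura
import Fermat.Agent.Lib.FrobeniusExists

/-!
# S37: abstract wiring

`SpecializationExists N p J` follows from the existence, for every place `A` over `ℓ ∤ N p`, of
ONE subgroup `K₀ ≤ J` (think: the kernel of a reduction map) such that

* `σ • x - x ∈ K₀` for `σ` in the inertia group (all `x`),
* `K₀` is stable under Frobenius elements,
* `σ • σ • x - T_ℓ • σ • x + ℓ • x ∈ K₀` for Frobenius elements `σ` (all `x`),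
* `K₀` contains no nonzero `p`-power torsion.
-/

set_option autoImplicit false

namespace Fermat.Agent.S37

open ModularCurve

/-- Two Frobenius elements at the same place differ by an element of the inertia group. -/
theorem inv_mul_mem_inertia {K L : Type*} [Field K] [Field L] [Algebra K L]
    (A : ValuationSubring L) {σ τ : L ≃ₐ[K] L} {q : ℕ}
    (hσ : A.IsFrobeniusAt σ q) (hτ : A.IsFrobeniusAt τ q) :
    σ⁻¹ * τ ∈ A.inertiaSubgroupIn K := by
  obtain ⟨hσ', hσx⟩ := hσ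
  obtain ⟨hτ', hτx⟩ := hτ
  refine ⟨(⟨σ, hσ'⟩ : A.decompositionSubgroup K)⁻¹ * ⟨τ, hτ'⟩, ?_, rfl⟩
  show _ ∈ A.inertiaSubgroup K
  rw [ValuationSubring.inertiaSubgroup, MonoidHom.mem_ker]
  ext x
  show ((⟨σ, hσ'⟩ : A.decompositionSubgroup K)⁻¹ * ⟨τ, hτ'⟩) • x = x
  rw [mul_smul, hτx, ← hσx, inv_smul_smul]

/-- the kernel contract for one place. -/
structure IsGoodKernel {K L : Type*} [Field K] [Field L] [Algebra K L] (p : ℕ) {J : Type*}
    [AddCommGroup J] [Module HeckeAlg J] [DistribMulAction (L ≃ₐ[K] L) J]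
    (A : ValuationSubring L) (ℓ : ℕ) (hℓ : ℓ.Prime) (K₀ : AddSubgroup J) : Prop where
  inertia : ∀ σ ∈ A.inertiaSubgroupIn K, ∀ x : J, σ • x - x ∈ K₀
  frob_stable : ∀ σ : L ≃ₐ[K] L, A.IsFrobeniusAt σ ℓ → ∀ x ∈ K₀, σ • x ∈ K₀
  relation : ∀ σ : L ≃ₐ[K] L, A.IsFrobeniusAt σ ℓ → ∀ x : J,
    σ • σ • x - heckeGen ⟨ℓ, hℓ⟩ • (σ • x) + ℓ • x ∈ K₀
  torsion : ∀ x ∈ K₀, (∃ n : ℕ, p ^ n • x = 0) → x = 0

section

variable {K L : Type*} [Field K] [Field L] [Algebra K L] {J : Type*}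
  [AddCommGroup J] [Module HeckeAlg J] [DistribMulAction (L ≃ₐ[K] L) J]

/-- the largest Hecke submodule contained in `K₀`. -/
def heckeCore (K₀ : AddSubgroup J) : Submodule HeckeAlg J where
  carrier := {x | ∀ T : HeckeAlg, T • x ∈ K₀}
  add_mem' := by
    intro x y hx hy T
    rw [smul_add]
    exact K₀.add_mem (hx T) (hy T)
  zero_mem' := by
    intro T
    rw [smul_zero]
    exact K₀.zero_mem
  smul_mem' := by
    intro c x hx T
    rw [smul_smul]
    exact hx _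

theorem mem_heckeCore {K₀ : AddSubgroup J} {x : J} :
    x ∈ heckeCore K₀ ↔ ∀ T : HeckeAlg, T • x ∈ K₀ := Iff.rfl

theorem heckeCore_le {K₀ : AddSubgroup J} {x : J} (hx : x ∈ heckeCore K₀) : x ∈ K₀ := by
  simpa using hx 1

end

/-- One place: a good kernel and one Frobenius element give a specialization datum. -/
theorem exists_specialization_of_kernel {K L : Type*} [Field K] [Field L] [Algebra K L] (p : ℕ)
    {J : Type} [AddCommGroup J] [Module HeckeAlg J] [DistribMulAction (L ≃ₐ[K] L) J]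
    [SMulCommClass (L ≃ₐ[K] L) HeckeAlg J]
    (A : ValuationSubring L) (ℓ : ℕ) (hℓ : ℓ.Prime) (K₀ : AddSubgroup J)
    (hK : IsGoodKernel (K := K) p A ℓ hℓ K₀) (σ₀ : L ≃ₐ[K] L) (hσ₀ : A.IsFrobeniusAt σ₀ ℓ) :
    ∃ (J' : Type) (_ : AddCommGroup J') (_ : Module HeckeAlg J') (sp : J →+ J') (F : J' →+ J'),
      IsSpecialization (K := K) p J J' A ℓ sp F ∧ SpecialFibreRelation J' ℓ hℓ F := by
  have hstab : ∀ σ : L ≃ₐ[K] L, A.IsFrobeniusAt σ ℓ → ∀ x ∈ heckeCore K₀, σ • x ∈ heckeCore K₀ := by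
    intro σ hσ x hx T
    rw [← smul_comm σ T x]
    exact hK.frob_stable σ hσ _ (hx T)
  have hin : ∀ σ ∈ A.inertiaSubgroupIn K, ∀ x : J, σ • x - x ∈ heckeCore K₀ := by
    intro σ hσ x T
    rw [smul_sub, ← smul_comm σ T x]
    exact hK.inertia σ hσ _
  have hrel : ∀ σ : L ≃ₐ[K] L, A.IsFrobeniusAt σ ℓ → ∀ x : J,
      σ • σ • x - heckeGen ⟨ℓ, hℓ⟩ • (σ • x) + ℓ • x ∈ heckeCore K₀ := by
    intro σ hσ x T
    have := hK.relation σ hσ (T • x)
    rw [smul_add, smul_sub, smul_comm T (heckeGen ⟨ℓ, hℓ⟩), ← smul_comm σ T, ← smul_comm σ T,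
      smul_comm T ℓ x]
    exact this
  let lin : J →ₗ[HeckeAlg] J := DistribSMul.toLinearMap HeckeAlg J σ₀
  have hle : heckeCore K₀ ≤ (heckeCore K₀).comap lin := fun x hx => hstab σ₀ hσ₀ x hx
  refine ⟨J ⧸ heckeCore K₀, inferInstance, inferInstance, (heckeCore K₀).mkQ.toAddMonoidHom,
    ((heckeCore K₀).mapQ (heckeCore K₀) lin hle).toAddMonoidHom, ⟨?_, ?_, ?_, ?_⟩, ?_⟩
  · intro T x
    rfl
  · intro σ hσ x
    show (heckeCore K₀).mkQ (σ • x) = (heckeCore K₀).mkQ x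
    rw [← sub_eq_zero, ← map_sub, Submodule.mkQ_apply, Submodule.Quotient.mk_eq_zero]
    exact hin σ hσ x
  · intro σ hσ x
    show (heckeCore K₀).mkQ (σ • x) = (heckeCore K₀).mkQ (σ₀ • x)
    rw [← sub_eq_zero, ← map_sub, Submodule.mkQ_apply, Submodule.Quotient.mk_eq_zero]
    have h1 := hin _ (inv_mul_mem_inertia A hσ₀ hσ) x
    have h2 := hstab σ₀ hσ₀ _ h1
    rwa [smul_sub, smul_smul, mul_inv_cancel_left] at h2
  · intro x hx h0
    have h0' : (heckeCore K₀).mkQ x = 0 := h0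
    rw [Submodule.mkQ_apply, Submodule.Quotient.mk_eq_zero] at h0'
    exact hK.torsion x (heckeCore_le h0') hx
  · intro y
    obtain ⟨x, rfl⟩ := (heckeCore K₀).mkQ_surjective y
    show (heckeCore K₀).mkQ (σ₀ • σ₀ • x) - heckeGen ⟨ℓ, hℓ⟩ • (heckeCore K₀).mkQ (σ₀ • x) +
      ℓ • (heckeCore K₀).mkQ x = 0
    rw [← map_smul, ← map_sub, ← map_nsmul, ← map_add, Submodule.mkQ_apply,
      Submodule.Quotient.mk_eq_zero]
    exact hrel σ₀ hσ₀ x

/-- **S37 wiring.**  `SpecializationExists` from good kernels. -/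
theorem specializationExists_of_kernel (N p : ℕ) (J : Type) [AddCommGroup J] [Module HeckeAlg J]
    [DistribMulAction (AlgebraicClosure ℚ ≃ₐ[ℚ] AlgebraicClosure ℚ) J]
    [SMulCommClass (AlgebraicClosure ℚ ≃ₐ[ℚ] AlgebraicClosure ℚ) HeckeAlg J]
    (h : ∀ ℓ : ℕ, (hℓ : ℓ.Prime) → ¬ ℓ ∣ N * p → 2 ≤ p →
      ∀ A : ValuationSubring (AlgebraicClosure ℚ), A.LiesOverPrime ℓ →
        ∃ K₀ : AddSubgroup J, IsGoodKernel (K := ℚ) p A ℓ hℓ K₀) :
    SpecializationExists (K := ℚ) (L := AlgebraicClosure ℚ) N p J := by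
  intro ℓ hℓ hℓNp A hA
  obtain ⟨σ₀, hσ₀⟩ := Fermat.Agent.Lib.FrobeniusExists.exists_isFrobeniusAt_rat A hℓ hA
  by_cases hp : 2 ≤ p
  · obtain ⟨K₀, hK⟩ := h ℓ hℓ hℓNp hp A hA
    exact exists_specialization_of_kernel p A ℓ hℓ K₀ hK σ₀ hσ₀
  · have hp1 : p = 1 := by
      rcases Nat.lt_or_ge p 1 with h0 | h1
      · exfalso
        apply hℓNp
        have : p = 0 := by omega
        rw [this, mul_zero]
        exact dvd_zero _
      · omega
    subst hp1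
    refine exists_specialization_of_kernel 1 A ℓ hℓ ⊤ ⟨fun _ _ _ => trivial, fun _ _ _ _ => trivial,
      fun _ _ _ => trivial, ?_⟩ σ₀ hσ₀
    rintro x - ⟨n, hn⟩
    simpa using hn

end Fermat.Agent.S37
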